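/-
S55 sprint, block (IV-dev) "devissage", file 10: the finite idele group and the finite idele
class group of a field `M` algebraic over `ℚ`, on top of the intrinsic semilocal model
`Jq q M` of `Iface/Layers.lean`.

* `Idele M`  : the restricted product of the `Jq q M` over all primes `q` (with respect to `Uq q M`);
* `diagI M`  : `Mˣ →* Idele M`, `principal M` its range;
* `ClassGrp M := Idele M ⧸ principal M`;
* `ideleS T M` : the ideles which are units outside `T`;
  `unitsOutside T M` : `∏_{q ∉ T} Uq q M` inside `Idele M`;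
  `ClassGrpS T M` : the quotient of `Idele M` by `principal M ⊔ unitsOutside T M`
  (the class module `𝒞_Σ(M)` of decision (D2));
* the action of `M ≃ₐ[ℚ] M` on all of these.
-/
import Mathlib
import Fermat.Agent.S55lib.Iface.Layers

set_option autoImplicit false

noncomputable section

namespace Fermat.Agent.S55lib.Dev

open Fermat.Agent.S55lib

/-- primes as a `Fact` -/
instance factNatPrimes (q : Nat.Primes) : Fact ((q : ℕ).Prime) := ⟨q.2⟩

/-! ### Quotients of a module with `MulDistribMulAction` by a stable subgroup -/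

section QuotAction

variable {G A : Type*} [Group G] [CommGroup A] [MulDistribMulAction G A]

/-- the action of `g` on the quotient by a stable subgroup -/
def quotSMulHom (N : Subgroup A) (hN : ∀ (g : G), ∀ a ∈ N, g • a ∈ N) (g : G) : A ⧸ N →* A ⧸ N :=
  QuotientGroup.map N N (MulDistribMulAction.toMonoidHom A g) (fun a ha => hN g a ha)

@[simp] theorem quotSMulHom_mk (N : Subgroup A) (hN : ∀ (g : G), ∀ a ∈ N, g • a ∈ N) (g : G)
    (a : A) : quotSMulHom N hN g (QuotientGroup.mk a) = QuotientGroup.mk (g • a) := rfl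

/-- the quotient of a `MulDistribMulAction` by a stable subgroup -/
@[instance_reducible] def quotMulDistribMulAction (N : Subgroup A) (hN : ∀ (g : G), ∀ a ∈ N, g • a ∈ N) :
    MulDistribMulAction G (A ⧸ N) where
  smul g x := quotSMulHom N hN g x
  one_smul x := by
    induction x using QuotientGroup.induction_on with
    | H a => exact congrArg QuotientGroup.mk (one_smul G a)
  mul_smul g g' x := by
    induction x using QuotientGroup.induction_on with
    | H a => exact congrArg QuotientGroup.mk (mul_smul g g' a)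
  smul_mul g x y := map_mul (quotSMulHom N hN g) x y
  smul_one g := map_one (quotSMulHom N hN g)

end QuotAction

variable (M : Type*) [Field M] [Algebra ℚ M]

/-! ### The idele group -/

/-- The finite ideles of `M`: families `x_q ∈ J_q(M)` with `x_q ∈ U_q(M)` for almost all `q`. -/
def Idele : Subgroup (∀ q : Nat.Primes, Jq (q : ℕ) M) where
  carrier := {x | {q : Nat.Primes | x q ∉ Uq (q : ℕ) M}.Finite}
  one_mem' := by
    have : {q : Nat.Primes | (1 : ∀ q : Nat.Primes, Jq (q : ℕ) M) q ∉ Uq (q : ℕ) M} = ∅ := by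
      ext q
      simp
    rw [Set.mem_ofPred_eq, this]
    exact Set.finite_empty
  mul_mem' := by
    intro x y hx hy
    refine (hx.union hy).subset ?_
    intro q hq
    by_contra hcon
    simp only [Set.mem_union, Set.mem_ofPred_eq, not_or, not_not] at hcon
    exact hq ((Uq (q : ℕ) M).mul_mem hcon.1 hcon.2)
  inv_mem' := by
    intro x hx
    refine hx.subset ?_
    intro q hq hcon
    exact hq ((Uq (q : ℕ) M).inv_mem hcon)

variable {M}

/-- shortcut instance -/
instance jqCommGroup (q : ℕ) [Fact q.Prime] : CommGroup (Jq q M) := Subgroup.toCommGroup _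

/-- shortcut instance -/
instance ideleCommGroup : CommGroup (Idele M) := Subgroup.toCommGroup _

theorem mem_Idele_iff (x : ∀ q : Nat.Primes, Jq (q : ℕ) M) :
    x ∈ Idele M ↔ {q : Nat.Primes | x q ∉ Uq (q : ℕ) M}.Finite := Iff.rfl

theorem Idele.finite_notMem_Uq (x : Idele M) :
    {q : Nat.Primes | x.1 q ∉ Uq (q : ℕ) M}.Finite := x.2

@[ext] theorem Idele.ext {x y : Idele M} (h : ∀ q : Nat.Primes, x.1 q = y.1 q) : x = y :=
  Subtype.ext (funext h)

@[simp] theorem Idele.one_apply (q : Nat.Primes) : (1 : Idele M).1 q = 1 := rfl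

@[simp] theorem Idele.mul_apply (x y : Idele M) (q : Nat.Primes) :
    (x * y).1 q = x.1 q * y.1 q := rfl

@[simp] theorem Idele.inv_apply (x : Idele M) (q : Nat.Primes) : (x⁻¹).1 q = (x.1 q)⁻¹ := rfl

@[simp] theorem Idele.div_apply (x y : Idele M) (q : Nat.Primes) :
    (x / y).1 q = x.1 q / y.1 q := rfl

variable (M)

/-- the projection to the `q`-component -/
def Idele.proj (q : Nat.Primes) : Idele M →* Jq (q : ℕ) M where
  toFun x := x.1 q
  map_one' := rfl
  map_mul' _ _ := rfl

variable {M}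

@[simp] theorem Idele.proj_apply (q : Nat.Primes) (x : Idele M) : Idele.proj M q x = x.1 q := rfl

/-- `Aut(M/ℚ)` acts on the ideles componentwise. -/
instance ideleAction : MulDistribMulAction (M ≃ₐ[ℚ] M) (Idele M) where
  smul γ x := ⟨fun q => γ • x.1 q, by
    refine x.2.subset ?_
    intro q hq hcon
    exact hq (smul_mem_Uq γ hcon)⟩
  one_smul x := by
    apply Subtype.ext
    funext q
    exact one_smul _ _
  mul_smul γ γ' x := by
    apply Subtype.ext
    funext q
    exact mul_smul _ _ _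
  smul_mul γ x y := by
    apply Subtype.ext
    funext q
    exact smul_mul' _ _ _
  smul_one γ := by
    apply Subtype.ext
    funext q
    exact smul_one _

/-- shortcut instance (keeps instance search away from the Pi/Subgroup instances) -/
instance ideleSMul : SMul (M ≃ₐ[ℚ] M) (Idele M) := ideleAction.toSMul

/-- shortcut instance -/
instance ideleMulAction : MulAction (M ≃ₐ[ℚ] M) (Idele M) := ideleAction.toMulAction

@[simp] theorem Idele.smul_apply (γ : M ≃ₐ[ℚ] M) (x : Idele M) (q : Nat.Primes) :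
    (γ • x).1 q = γ • x.1 q := rfl

/-! ### The component inclusions -/

section Single

open Classical in
/-- the idele with `q`-component `f` and all other components `1` -/
def Idele.single (q : Nat.Primes) : Jq (q : ℕ) M →* Idele M where
  toFun f := ⟨Pi.mulSingle (M := fun q' : Nat.Primes => Jq (q' : ℕ) M) q f, by
    refine (Set.finite_singleton q).subset ?_
    intro q' hq'
    by_contra hne
    apply hq'
    rw [Set.mem_singleton_iff] at hne
    rw [Pi.mulSingle_eq_of_ne (M := fun q' : Nat.Primes => Jq (q' : ℕ) M) hne]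
    exact (Uq (q' : ℕ) M).one_mem⟩
  map_one' := by
    apply Subtype.ext
    exact Pi.mulSingle_one (M := fun q' : Nat.Primes => Jq (q' : ℕ) M) q
  map_mul' f g := by
    apply Subtype.ext
    exact Pi.mulSingle_mul (f := fun q' : Nat.Primes => Jq (q' : ℕ) M) q f g

open Classical in
@[simp] theorem Idele.single_apply_same (q : Nat.Primes) (f : Jq (q : ℕ) M) :
    (Idele.single q f).1 q = f :=
  Pi.mulSingle_eq_same (M := fun q' : Nat.Primes => Jq (q' : ℕ) M) q f

open Classical in
theorem Idele.single_apply_of_ne {q q' : Nat.Primes} (h : q' ≠ q) (f : Jq (q : ℕ) M) :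
    (Idele.single q f).1 q' = 1 :=
  Pi.mulSingle_eq_of_ne (M := fun q' : Nat.Primes => Jq (q' : ℕ) M) h f

open Classical in
theorem Idele.smul_single (γ : M ≃ₐ[ℚ] M) (q : Nat.Primes) (f : Jq (q : ℕ) M) :
    γ • Idele.single q f = Idele.single q (γ • f) := by
  apply Idele.ext
  intro q'
  by_cases h : q' = q
  · subst h
    rw [Idele.smul_apply, Idele.single_apply_same, Idele.single_apply_same]
  · rw [Idele.smul_apply, Idele.single_apply_of_ne h, Idele.single_apply_of_ne h, smul_one]

end Single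

/-! ### The diagonal embedding -/

section Diag

/-- integers have norm at most one in `ℚ̄_q` -/
theorem norm_le_one_of_isIntegral_int (q : ℕ) [Fact q.Prime] {x : PadicAlgCl q}
    (hx : IsIntegral ℤ x) : ‖x‖ ≤ 1 := by
  have h1 : IsIntegral (Valued.v : Valuation (PadicAlgCl q) NNReal).integer x :=
    hx.tower_top
  have h2 :=
    (Valuation.integer.integers (Valued.v : Valuation (PadicAlgCl q) NNReal)).mem_of_integral h1
  have h3 : (Valued.v x : NNReal) ≤ 1 := h2
  have h4 : ((Valued.v x : NNReal) : ℝ) ≤ 1 := by exact_mod_cast h3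
  rwa [PadicAlgCl.valuation_coe] at h4

/-- an integer prime to `q` has norm one in `ℚ̄_q` -/
theorem norm_intCast_eq_one_of_not_dvd (q : ℕ) [Fact q.Prime] {d : ℤ} (hd : ¬ (q : ℤ) ∣ d) :
    ‖(d : PadicAlgCl q)‖ = 1 := by
  have h : (d : PadicAlgCl q) = ((d : ℚ_[q]) : PadicAlgCl q) :=
    (map_intCast (algebraMap ℚ_[q] (PadicAlgCl q)) d).symm
  rw [h, PadicAlgCl.norm_extends]
  refine le_antisymm (Padic.norm_int_le_one d) (not_lt.1 fun hlt => hd ?_)
  exact Padic.norm_intCast_lt_one_iff.1 hlt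

/-- the primes dividing a nonzero integer are finite in number -/
theorem finite_primes_dvd {d : ℤ} (hd : d ≠ 0) : {q : Nat.Primes | ((q : ℕ) : ℤ) ∣ d}.Finite := by
  have hfin : {n : ℕ | n ∣ d.natAbs}.Finite :=
    (Finset.finite_toSet (Nat.divisors d.natAbs)).subset fun n hn =>
      Finset.mem_coe.2 (Nat.mem_divisors.2 ⟨hn, Int.natAbs_ne_zero.2 hd⟩)
  refine (hfin.preimage (f := fun q : Nat.Primes => (q : ℕ))
    (fun a _ b _ hab => Subtype.ext hab)).subset ?_
  intro q hq
  exact Int.natCast_dvd.1 hq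

variable [Algebra.IsAlgebraic ℚ M]

/-- for an element `x` of `M` there is a nonzero integer `d` such that `‖ι x‖ ≤ 1` for every
embedding `ι` into `ℚ̄_q`, `q ∤ d` -/
theorem exists_int_forall_norm_le_one (x : M) :
    ∃ d : ℤ, d ≠ 0 ∧ ∀ (q : ℕ) [Fact q.Prime], ¬ (q : ℤ) ∣ d → ∀ ι : Emb q M, ‖ι x‖ ≤ 1 := by
  have halg : IsAlgebraic ℤ x :=
    (IsFractionRing.isAlgebraic_iff ℤ ℚ M).2 (Algebra.IsAlgebraic.isAlgebraic x)
  obtain ⟨d, hd0, hd⟩ := halg.exists_integral_multiple
  refine ⟨d, hd0, ?_⟩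
  intro q _ hq ι
  have hint : IsIntegral ℤ (ι (d • x)) := hd.map (ι.toRingHom.toIntAlgHom)
  have h1 := norm_le_one_of_isIntegral_int q hint
  have h2 : ι (d • x) = (d : PadicAlgCl q) * ι x := by
    rw [zsmul_eq_mul, map_mul, map_intCast]
  rw [h2, norm_mul, norm_intCast_eq_one_of_not_dvd q hq, one_mul] at h1
  exact h1

/-- a unit of `M` is a unit at almost all primes -/
theorem finite_setOf_diag_notMem_Uq (x : Mˣ) :
    {q : Nat.Primes | diag (q : ℕ) M x ∉ Uq (q : ℕ) M}.Finite := by
  obtain ⟨d, hd0, hd⟩ := exists_int_forall_norm_le_one (x : M)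
  obtain ⟨d', hd0', hd'⟩ := exists_int_forall_norm_le_one ((x⁻¹ : Mˣ) : M)
  refine ((finite_primes_dvd hd0).union (finite_primes_dvd hd0')).subset ?_
  intro q hq
  by_contra hcon
  simp only [Set.mem_union, Set.mem_ofPred_eq, not_or] at hcon
  apply hq
  intro ι
  rw [diag_apply]
  have h1 := hd (q : ℕ) hcon.1 ι
  have h2 := hd' (q : ℕ) hcon.2 ι
  have h3 : ι (x : M) * ι ((x⁻¹ : Mˣ) : M) = 1 := by
    rw [← map_mul, Units.mul_inv, map_one]
  have h4 : ‖ι (x : M)‖ * ‖ι ((x⁻¹ : Mˣ) : M)‖ = 1 := by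
    rw [← norm_mul, h3, norm_one]
  refine le_antisymm h1 ?_
  by_contra hlt
  rw [not_le] at hlt
  have h5 : ‖ι (x : M)‖ * ‖ι ((x⁻¹ : Mˣ) : M)‖ < 1 := by
    calc ‖ι (x : M)‖ * ‖ι ((x⁻¹ : Mˣ) : M)‖ ≤ ‖ι (x : M)‖ * 1 :=
          mul_le_mul_of_nonneg_left h2 (norm_nonneg _)
      _ < 1 := by rw [mul_one]; exact hlt
  exact absurd h4 (ne_of_lt h5)

variable (M)

/-- the diagonal embedding `Mˣ → Idele M` -/
def diagI : Mˣ →* Idele M where
  toFun x := ⟨fun q => diag (q : ℕ) M x, finite_setOf_diag_notMem_Uq x⟩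
  map_one' := by
    apply Subtype.ext
    funext q
    exact map_one _
  map_mul' x y := by
    apply Subtype.ext
    funext q
    exact map_mul _ x y

variable {M}

@[simp] theorem diagI_apply (x : Mˣ) (q : Nat.Primes) : (diagI M x).1 q = diag (q : ℕ) M x := rfl

/-- the diagonal embedding is `Aut(M)`-equivariant -/
theorem smul_diagI (γ : M ≃ₐ[ℚ] M) (x : Mˣ) :
    γ • diagI M x = diagI M (Units.map (γ : M →* M) x) := by
  apply Idele.ext
  intro q
  exact diag_smul γ x

theorem diagI_injective : Function.Injective (diagI M) := by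
  intro x y h
  have h2 := congrArg (fun z : Idele M => z.1 ⟨2, Nat.prime_two⟩) h
  have : Nonempty (Emb ((⟨2, Nat.prime_two⟩ : Nat.Primes) : ℕ) M) := by
    obtain ⟨κ, -⟩ := Emb.res_surjective (q := ((⟨2, Nat.prime_two⟩ : Nat.Primes) : ℕ))
      (F := ℚ) (M := M) (Algebra.ofId ℚ M) (Algebra.ofId ℚ _)
    exact ⟨κ⟩
  exact diag_injective h2

variable (M)

/-- the principal ideles -/
def principal : Subgroup (Idele M) := (diagI M).range

variable {M}

theorem mem_principal_iff (x : Idele M) : x ∈ principal M ↔ ∃ u : Mˣ, diagI M u = x := Iff.rfl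

theorem smul_mem_principal (γ : M ≃ₐ[ℚ] M) {x : Idele M} (hx : x ∈ principal M) :
    γ • x ∈ principal M := by
  obtain ⟨u, rfl⟩ := hx
  exact ⟨Units.map (γ : M →* M) u, (smul_diagI γ u).symm⟩

end Diag

/-! ### Units outside a set of primes -/

section UnitsOutside

variable (M)

/-- the ideles which are units outside `T` -/
def ideleS (T : Set Nat.Primes) : Subgroup (Idele M) where
  carrier := {x | ∀ q, q ∉ T → x.1 q ∈ Uq (q : ℕ) M}
  one_mem' := fun q _ => (Uq (q : ℕ) M).one_mem
  mul_mem' := fun hx hy q hq => (Uq (q : ℕ) M).mul_mem (hx q hq) (hy q hq)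
  inv_mem' := fun hx q hq => (Uq (q : ℕ) M).inv_mem (hx q hq)

/-- the ideles which are units outside `T` and trivial at `T`: `∏_{q ∉ T} U_q(M)` -/
def unitsOutside (T : Set Nat.Primes) : Subgroup (Idele M) where
  carrier := {x | (∀ q, q ∉ T → x.1 q ∈ Uq (q : ℕ) M) ∧ ∀ q, q ∈ T → x.1 q = 1}
  one_mem' := ⟨fun q _ => (Uq (q : ℕ) M).one_mem, fun _ _ => rfl⟩
  mul_mem' := fun hx hy => ⟨fun q hq => (Uq (q : ℕ) M).mul_mem (hx.1 q hq) (hy.1 q hq),
    fun q hq => by rw [Idele.mul_apply, hx.2 q hq, hy.2 q hq, mul_one]⟩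
  inv_mem' := fun hx => ⟨fun q hq => (Uq (q : ℕ) M).inv_mem (hx.1 q hq),
    fun q hq => by rw [Idele.inv_apply, hx.2 q hq, inv_one]⟩

variable {M}

theorem mem_ideleS_iff (T : Set Nat.Primes) (x : Idele M) :
    x ∈ ideleS M T ↔ ∀ q, q ∉ T → x.1 q ∈ Uq (q : ℕ) M := Iff.rfl

theorem mem_unitsOutside_iff (T : Set Nat.Primes) (x : Idele M) :
    x ∈ unitsOutside M T ↔ (∀ q, q ∉ T → x.1 q ∈ Uq (q : ℕ) M) ∧ ∀ q, q ∈ T → x.1 q = 1 :=
  Iff.rfl

theorem unitsOutside_le_ideleS (T : Set Nat.Primes) : unitsOutside M T ≤ ideleS M T :=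
  fun _ hx => hx.1

theorem ideleS_mono {T T' : Set Nat.Primes} (h : T ⊆ T') : ideleS M T ≤ ideleS M T' :=
  fun _ hx q hq => hx q (fun hqT => hq (h hqT))

theorem unitsOutside_anti {T T' : Set Nat.Primes} (h : T ⊆ T') :
    unitsOutside M T' ≤ unitsOutside M T :=
  fun x hx => ⟨fun q hq => by
    by_cases hq' : q ∈ T'
    · rw [hx.2 q hq']; exact (Uq (q : ℕ) M).one_mem
    · exact hx.1 q hq', fun q hq => hx.2 q (h hq)⟩

theorem smul_mem_ideleS (γ : M ≃ₐ[ℚ] M) {T : Set Nat.Primes} {x : Idele M}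
    (hx : x ∈ ideleS M T) : γ • x ∈ ideleS M T :=
  fun q hq => smul_mem_Uq γ (hx q hq)

theorem smul_mem_unitsOutside (γ : M ≃ₐ[ℚ] M) {T : Set Nat.Primes} {x : Idele M}
    (hx : x ∈ unitsOutside M T) : γ • x ∈ unitsOutside M T :=
  ⟨fun q hq => smul_mem_Uq γ (hx.1 q hq), fun q hq => by
    rw [Idele.smul_apply, hx.2 q hq, smul_one]⟩

/-- every idele is a unit outside a finite set -/
theorem exists_finite_mem_ideleS (x : Idele M) : ∃ T : Set Nat.Primes, T.Finite ∧ x ∈ ideleS M T :=
  ⟨_, x.2, fun q hq => by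
    by_contra hcon
    exact hq hcon⟩

end UnitsOutside

/-! ### The idele class groups -/

section ClassGroup

variable [Algebra.IsAlgebraic ℚ M]

variable (M)

/-- the finite idele class group `C(M) = I(M) / Mˣ` -/
abbrev ClassGrp : Type _ := Idele M ⧸ principal M

/-- the subgroup `Mˣ · ∏_{q ∉ T} U_q(M)` of the ideles -/
def principalUnits (T : Set Nat.Primes) : Subgroup (Idele M) := principal M ⊔ unitsOutside M T

/-- the class module `𝒞_T(M) = I(M) / (Mˣ · ∏_{q ∉ T} U_q(M))` -/
abbrev ClassGrpS (T : Set Nat.Primes) : Type _ := Idele M ⧸ principalUnits M T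

variable {M}

/-- shortcut instance -/
instance classGrpCommGroup : CommGroup (ClassGrp M) := QuotientGroup.Quotient.commGroup _

/-- shortcut instance -/
instance classGrpSCommGroup (T : Set Nat.Primes) : CommGroup (ClassGrpS M T) :=
  QuotientGroup.Quotient.commGroup _

theorem smul_mem_principalUnits (γ : M ≃ₐ[ℚ] M) {T : Set Nat.Primes} {x : Idele M}
    (hx : x ∈ principalUnits M T) : γ • x ∈ principalUnits M T := by
  unfold principalUnits at hx ⊢
  rw [Subgroup.mem_sup] at hx ⊢
  obtain ⟨y, hy, z, hz, rfl⟩ := hx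
  exact ⟨γ • y, smul_mem_principal γ hy, γ • z, smul_mem_unitsOutside γ hz, (smul_mul' γ y z).symm⟩

instance classGrpAction : MulDistribMulAction (M ≃ₐ[ℚ] M) (ClassGrp M) :=
  quotMulDistribMulAction (principal M) (fun γ _ hx => smul_mem_principal γ hx)

instance classGrpSAction (T : Set Nat.Primes) : MulDistribMulAction (M ≃ₐ[ℚ] M) (ClassGrpS M T) :=
  quotMulDistribMulAction (principalUnits M T) (fun γ _ hx => smul_mem_principalUnits γ hx)

@[simp] theorem ClassGrp.smul_mk (γ : M ≃ₐ[ℚ] M) (x : Idele M) :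
    γ • (QuotientGroup.mk x : ClassGrp M) = QuotientGroup.mk (γ • x) := rfl

@[simp] theorem ClassGrpS.smul_mk (T : Set Nat.Primes) (γ : M ≃ₐ[ℚ] M) (x : Idele M) :
    γ • (QuotientGroup.mk x : ClassGrpS M T) = QuotientGroup.mk (γ • x) := rfl

variable (M)

/-- the projection `C(M) → 𝒞_T(M)` -/
def ClassGrp.toS (T : Set Nat.Primes) : ClassGrp M →* ClassGrpS M T :=
  QuotientGroup.map (principal M) (principalUnits M T) (MonoidHom.id _)
    (fun _ hx => Subgroup.mem_sup_left hx)

variable {M}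

@[simp] theorem ClassGrp.toS_mk (T : Set Nat.Primes) (x : Idele M) :
    ClassGrp.toS M T (QuotientGroup.mk x) = QuotientGroup.mk x := rfl

theorem ClassGrp.toS_surjective (T : Set Nat.Primes) : Function.Surjective (ClassGrp.toS M T) := by
  intro y
  obtain ⟨x, rfl⟩ := QuotientGroup.mk_surjective y
  exact ⟨QuotientGroup.mk x, rfl⟩

theorem ClassGrp.toS_smul (T : Set Nat.Primes) (γ : M ≃ₐ[ℚ] M) (c : ClassGrp M) :
    ClassGrp.toS M T (γ • c) = γ • ClassGrp.toS M T c := by
  obtain ⟨x, rfl⟩ := QuotientGroup.mk_surjective c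
  rfl

/-- the kernel of `C(M) → 𝒞_T(M)` is the image of the units outside `T` -/
theorem ClassGrp.ker_toS (T : Set Nat.Primes) :
    (ClassGrp.toS M T).ker = (unitsOutside M T).map (QuotientGroup.mk' (principal M)) := by
  ext c
  obtain ⟨x, rfl⟩ := QuotientGroup.mk_surjective c
  rw [MonoidHom.mem_ker, ClassGrp.toS_mk, QuotientGroup.eq_one_iff, Subgroup.mem_map]
  constructor
  · intro hx
    unfold principalUnits at hx
    rw [Subgroup.mem_sup] at hx
    obtain ⟨y, hy, z, hz, rfl⟩ := hx
    refine ⟨z, hz, ?_⟩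
    rw [QuotientGroup.mk'_apply, QuotientGroup.eq]
    have : z⁻¹ * (y * z) = y := by
      rw [mul_comm y z, inv_mul_cancel_left]
    rw [this]
    exact hy
  · rintro ⟨z, hz, hzx⟩
    rw [QuotientGroup.mk'_apply, QuotientGroup.eq] at hzx
    have : x = z * (z⁻¹ * x) := by group
    rw [this]
    unfold principalUnits
    rw [sup_comm]
    exact Subgroup.mul_mem_sup hz hzx

end ClassGroup

end Fermat.Agent.S55lib.Dev
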