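/-
S55 sprint, block (IV-dev) "devissage", file 12: functoriality of the ideles in the field and
**Galois descent for the idele class group**: for `M/F` finite Galois (both algebraic over `ℚ`),
`C(F) → C(M)` is injective with image the `Gal(M/F)`-invariants.

The proof uses only Noether's form of Hilbert 90 (Mathlib) and the description of the invariants
of `J_q(M)` in `Iface/Layers.lean`.
-/
import Mathlib
import Fermat.Agent.S55lib.Dev.Idele

set_option autoImplicit false
set_option linter.unusedSectionVars false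

noncomputable section

namespace Fermat.Agent.S55lib.Dev

open Fermat.Agent.S55lib

/-! ### Functoriality of the ideles -/

section Incl

variable {F M : Type*} [Field F] [Field M] [Algebra ℚ F] [Algebra ℚ M] (φ : F →ₐ[ℚ] M)

/-- `incl f` is a unit iff `f` is (for `M` algebraic over `ℚ`) -/
theorem Jq_incl_mem_Uq_iff [Algebra.IsAlgebraic ℚ M] (q : ℕ) [Fact q.Prime] (f : Jq q F) :
    Jq.incl φ f ∈ Uq q M ↔ f ∈ Uq q F := by
  constructor
  · intro h κ
    obtain ⟨ι, rfl⟩ := Emb.res_surjective (q := q) φ κ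
    exact h ι
  · exact Jq.incl_mem_Uq φ

/-- compatibility of `incl` with automorphisms -/
theorem Jq_incl_smul (q : ℕ) [Fact q.Prime] (γF : F ≃ₐ[ℚ] F) (γM : M ≃ₐ[ℚ] M)
    (h : ∀ x, φ (γF x) = γM (φ x)) (f : Jq q F) :
    Jq.incl φ (γF • f) = γM • Jq.incl φ f := by
  ext ι
  simp only [Jq.incl_apply, Jq.smul_apply]
  have : (Emb.res φ ι).comp (γF : F →ₐ[ℚ] F) = Emb.res φ (ι.comp (γM : M →ₐ[ℚ] M)) := by
    ext x
    simp [Emb.res_apply, h]
  rw [this]

/-- the inclusion `I(F) → I(M)` -/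
def Idele.incl : Idele F →* Idele M where
  toFun x := ⟨fun q => Jq.incl φ (x.1 q), by
    refine x.2.subset ?_
    intro q hq hcon
    exact hq (Jq.incl_mem_Uq φ hcon)⟩
  map_one' := by
    apply Idele.ext
    intro q
    exact map_one _
  map_mul' x y := by
    apply Idele.ext
    intro q
    exact map_mul _ _ _

@[simp] theorem Idele.incl_apply (x : Idele F) (q : Nat.Primes) :
    (Idele.incl φ x).1 q = Jq.incl φ (x.1 q) := rfl

theorem Idele.incl_injective [Algebra.IsAlgebraic ℚ M] : Function.Injective (Idele.incl φ) := by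
  intro x y h
  apply Idele.ext
  intro q
  apply Jq.incl_injective (q := (q : ℕ)) φ
  have := congrArg (fun z : Idele M => z.1 q) h
  exact this

theorem Idele.incl_smul (γF : F ≃ₐ[ℚ] F) (γM : M ≃ₐ[ℚ] M)
    (h : ∀ x, φ (γF x) = γM (φ x)) (x : Idele F) :
    Idele.incl φ (γF • x) = γM • Idele.incl φ x := by
  apply Idele.ext
  intro q
  exact Jq_incl_smul φ (q : ℕ) γF γM h (x.1 q)

theorem Idele.incl_diagI [Algebra.IsAlgebraic ℚ F] [Algebra.IsAlgebraic ℚ M] (u : Fˣ) :
    Idele.incl φ (diagI F u) = diagI M (Units.map (φ : F →* M) u) := by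
  apply Idele.ext
  intro q
  exact Jq.incl_diag φ u

theorem Idele.incl_mem_ideleS_iff [Algebra.IsAlgebraic ℚ M] (T : Set Nat.Primes) (x : Idele F) :
    Idele.incl φ x ∈ ideleS M T ↔ x ∈ ideleS F T := by
  constructor
  · intro h q hq
    exact (Jq_incl_mem_Uq_iff φ (q : ℕ) (x.1 q)).1 (h q hq)
  · intro h q hq
    exact (Jq_incl_mem_Uq_iff φ (q : ℕ) (x.1 q)).2 (h q hq)

variable [Algebra.IsAlgebraic ℚ F] [Algebra.IsAlgebraic ℚ M]

/-- the map `C(F) → C(M)` -/
def ClassGrp.incl : ClassGrp F →* ClassGrp M :=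
  QuotientGroup.map (principal F) (principal M) (Idele.incl φ) (by
    rintro _ ⟨u, rfl⟩
    exact ⟨Units.map (φ : F →* M) u, (Idele.incl_diagI φ u).symm⟩)

@[simp] theorem ClassGrp.incl_mk (x : Idele F) :
    ClassGrp.incl φ (QuotientGroup.mk x) = QuotientGroup.mk (Idele.incl φ x) := rfl

theorem ClassGrp.incl_smul (γF : F ≃ₐ[ℚ] F) (γM : M ≃ₐ[ℚ] M)
    (h : ∀ x, φ (γF x) = γM (φ x)) (c : ClassGrp F) :
    ClassGrp.incl φ (γF • c) = γM • ClassGrp.incl φ c := by
  obtain ⟨x, rfl⟩ := QuotientGroup.mk_surjective c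
  rw [ClassGrp.smul_mk, ClassGrp.incl_mk, ClassGrp.incl_mk, ClassGrp.smul_mk,
    Idele.incl_smul φ γF γM h]

end Incl

/-! ### Galois descent -/

section Descent

variable (F M : Type*) [Field F] [Field M] [Algebra ℚ F] [Algebra ℚ M] [Algebra F M]
  [IsScalarTower ℚ F M] [Algebra.IsAlgebraic ℚ M]

/-- elements of `I(F)` are `Aut(M/F)`-invariant in `I(M)` -/
theorem Idele.smul_incl (γ : M ≃ₐ[F] M) (y : Idele F) :
    autToQ F γ • Idele.incl (IsScalarTower.toAlgHom ℚ F M) y =
      Idele.incl (IsScalarTower.toAlgHom ℚ F M) y := by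
  apply Idele.ext
  intro q
  exact Jq.smul_incl γ (y.1 q)

variable {M}

/-- an `Aut(M/F)`-invariant idele of `M` comes from `F` (`M/F` normal) -/
theorem Idele.exists_incl_eq_of_invariant [Normal F M] (x : Idele M)
    (hx : ∀ γ : M ≃ₐ[F] M, autToQ F γ • x = x) :
    ∃ y : Idele F, Idele.incl (IsScalarTower.toAlgHom ℚ F M) y = x := by
  have hcomp : ∀ q : Nat.Primes, ∃ f' : Jq (q : ℕ) F,
      Jq.incl (IsScalarTower.toAlgHom ℚ F M) f' = x.1 q := by
    intro q
    apply Jq.exists_incl_eq_of_invariant (x.1 q)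
    intro γ
    have := congrArg (fun z : Idele M => z.1 q) (hx γ)
    exact this
  choose y hy using hcomp
  refine ⟨⟨y, ?_⟩, ?_⟩
  · refine x.2.subset ?_
    intro q hq hcon
    apply hq
    rw [← hy q] at hcon
    exact (Jq_incl_mem_Uq_iff _ (q : ℕ) (y q)).1 hcon
  · apply Idele.ext
    intro q
    exact hy q

variable [Algebra.IsAlgebraic ℚ F] [FiniteDimensional F M] [IsGalois F M]

/-- a unit of `M` fixed by `Gal(M/F)` comes from `F` -/
theorem exists_unit_map_eq_of_fixed (v : Mˣ) (hv : ∀ γ : M ≃ₐ[F] M, γ (v : M) = v) :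
    ∃ u : Fˣ, Units.map (algebraMap F M : F →* M) u = v := by
  have hmem : (v : M) ∈ (⊥ : IntermediateField F M) :=
    (IsGalois.mem_bot_iff_fixed (v : M)).2 hv
  rw [IntermediateField.mem_bot] at hmem
  obtain ⟨a, ha⟩ := hmem
  have ha0 : a ≠ 0 := by
    rintro rfl
    rw [map_zero] at ha
    exact v.ne_zero ha.symm
  exact ⟨Units.mk0 a ha0, Units.ext ha⟩

/-- `C(F) → C(M)` is injective (`M/F` finite Galois) -/
theorem ClassGrp.incl_injective :
    Function.Injective (ClassGrp.incl (IsScalarTower.toAlgHom ℚ F M)) := by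
  rw [injective_iff_map_eq_one]
  intro c hc
  obtain ⟨y, rfl⟩ := QuotientGroup.mk_surjective c
  rw [ClassGrp.incl_mk, QuotientGroup.eq_one_iff] at hc
  obtain ⟨v, hv⟩ := hc
  -- `v` is fixed by `Gal(M/F)`
  have hfix : ∀ γ : M ≃ₐ[F] M, γ (v : M) = v := by
    intro γ
    have h1 : autToQ F γ • diagI M v = diagI M v := by
      rw [hv]
      exact Idele.smul_incl F M γ y
    rw [smul_diagI] at h1
    have h2 := diagI_injective h1
    have h3 := congrArg (fun u : Mˣ => (u : M)) h2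
    exact h3
  obtain ⟨u, hu⟩ := exists_unit_map_eq_of_fixed F v hfix
  rw [QuotientGroup.eq_one_iff]
  refine ⟨u, ?_⟩
  apply Idele.incl_injective (IsScalarTower.toAlgHom ℚ F M)
  rw [Idele.incl_diagI, ← hv]
  congr 1

/-- **Galois descent**: a `Gal(M/F)`-invariant idele class of `M` comes from `F`. -/
theorem ClassGrp.exists_incl_eq_of_invariant (c : ClassGrp M)
    (hc : ∀ γ : M ≃ₐ[F] M, autToQ F γ • c = c) :
    ∃ c' : ClassGrp F, ClassGrp.incl (IsScalarTower.toAlgHom ℚ F M) c' = c := by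
  obtain ⟨x, rfl⟩ := QuotientGroup.mk_surjective c
  -- the cocycle `γ ↦ γ x / x ∈ Mˣ`
  have hex : ∀ γ : M ≃ₐ[F] M, ∃ u : Mˣ, diagI M u = autToQ F γ • x / x := by
    intro γ
    have h := hc γ
    rw [ClassGrp.smul_mk, QuotientGroup.eq] at h
    obtain ⟨u, hu⟩ := (principal M).inv_mem h
    refine ⟨u, ?_⟩
    rw [hu, mul_inv_rev, inv_inv, div_eq_mul_inv, mul_comm]
  choose u hu using hex
  have hcoc : groupCohomology.IsMulCocycle₁ u := by
    intro g h
    apply diagI_injective (M := M)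
    have e1 : diagI M (g • u h) = autToQ F g • diagI M (u h) := (smul_diagI (autToQ F g) (u h)).symm
    rw [map_mul, e1, hu, hu, hu, map_mul, mul_smul, smul_div']
    rw [div_mul_div_cancel]
  obtain ⟨β, hβ⟩ := groupCohomology.isMulCoboundary₁_of_isMulCocycle₁_of_aut_to_units u hcoc
  -- `x / β` is invariant
  have hinv : ∀ γ : M ≃ₐ[F] M, autToQ F γ • (x / diagI M β) = x / diagI M β := by
    intro γ
    have e1 : autToQ F γ • diagI M β = diagI M (γ • β) := smul_diagI (autToQ F γ) β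
    have e2 : diagI M (γ • β) = diagI M β * (autToQ F γ • x / x) := by
      rw [← hu γ, ← map_mul, ← hβ γ, mul_div_cancel]
    rw [smul_div', e1, e2, div_eq_div_iff_mul_eq_mul, mul_left_comm, mul_div_cancel, mul_comm]
  obtain ⟨y, hy⟩ := Idele.exists_incl_eq_of_invariant F (x / diagI M β) hinv
  refine ⟨QuotientGroup.mk y, ?_⟩
  rw [ClassGrp.incl_mk, hy, QuotientGroup.eq]
  refine ⟨β, ?_⟩
  rw [inv_div, div_mul_cancel]

end Descent

end Fermat.Agent.S55lib.Dev
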