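/-
S55 sprint, block (IV-dev) "devissage", file 19: **Galois descent for the class modules `𝒞_T(M)`**.
For `M/F` finite Galois and a nonempty set `T` of primes such that `H¹(Gal(M/F), U^T(M)) = 0`
(in cocycle form): `𝒞_T(F) → 𝒞_T(M)` is injective with image the `Gal(M/F)`-invariants.
-/
import Mathlib
import Fermat.Agent.S55lib.Dev.Descent

set_option autoImplicit false
set_option linter.unusedSectionVars false

noncomputable section

namespace Fermat.Agent.S55lib.Dev

open Fermat.Agent.S55lib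

section Incl

variable {F M : Type*} [Field F] [Field M] [Algebra ℚ F] [Algebra ℚ M] (φ : F →ₐ[ℚ] M)
  [Algebra.IsAlgebraic ℚ F] [Algebra.IsAlgebraic ℚ M]

theorem Idele.incl_mem_unitsOutside_iff (T : Set Nat.Primes) (y : Idele F) :
    Idele.incl φ y ∈ unitsOutside M T ↔ y ∈ unitsOutside F T := by
  constructor
  · rintro ⟨h1, h2⟩
    refine ⟨fun q hq => (Jq_incl_mem_Uq_iff φ (q : ℕ) (y.1 q)).1 (h1 q hq), fun q hq => ?_⟩
    apply Jq.incl_injective (q := (q : ℕ)) φ
    rw [map_one]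
    exact h2 q hq
  · rintro ⟨h1, h2⟩
    refine ⟨fun q hq => (Jq_incl_mem_Uq_iff φ (q : ℕ) (y.1 q)).2 (h1 q hq), fun q hq => ?_⟩
    rw [Idele.incl_apply, h2 q hq, map_one]

/-- the map `𝒞_T(F) → 𝒞_T(M)` -/
def ClassGrpS.incl (T : Set Nat.Primes) : ClassGrpS F T →* ClassGrpS M T :=
  QuotientGroup.map (principalUnits F T) (principalUnits M T) (Idele.incl φ) (by
    intro y hy
    unfold principalUnits at hy
    rw [Subgroup.mem_sup] at hy
    obtain ⟨a, ⟨v, rfl⟩, u, hu, rfl⟩ := hy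
    rw [Subgroup.mem_comap, map_mul]
    unfold principalUnits
    exact Subgroup.mul_mem_sup ⟨Units.map (φ : F →* M) v, (Idele.incl_diagI φ v).symm⟩
      ((Idele.incl_mem_unitsOutside_iff φ T u).2 hu))

@[simp] theorem ClassGrpS.incl_mk (T : Set Nat.Primes) (x : Idele F) :
    ClassGrpS.incl φ T (QuotientGroup.mk x) = QuotientGroup.mk (Idele.incl φ x) := rfl

theorem ClassGrpS.incl_smul (T : Set Nat.Primes) (γF : F ≃ₐ[ℚ] F) (γM : M ≃ₐ[ℚ] M)
    (h : ∀ x, φ (γF x) = γM (φ x)) (c : ClassGrpS F T) :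
    ClassGrpS.incl φ T (γF • c) = γM • ClassGrpS.incl φ T c := by
  obtain ⟨x, rfl⟩ := QuotientGroup.mk_surjective c
  rw [ClassGrpS.smul_mk, ClassGrpS.incl_mk, ClassGrpS.incl_mk, ClassGrpS.smul_mk,
    Idele.incl_smul φ γF γM h]

end Incl

section Unique

theorem div_mul_div_self_aux {G : Type*} [CommGroup G] (a b x : G) :
    a / (b * (a / x)) = x / b := by
  rw [div_eq_div_iff_mul_eq_mul, mul_left_comm, mul_div_cancel, mul_comm]

variable {M : Type*} [Field M] [Algebra ℚ M] [Algebra.IsAlgebraic ℚ M]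

/-- a principal idele which is `1` at some prime is `1` -/
theorem eq_one_of_diagI_mem_unitsOutside {T : Set Nat.Primes} (hT : T.Nonempty) {v : Mˣ}
    (hv : diagI M v ∈ unitsOutside M T) : v = 1 := by
  obtain ⟨q, hq⟩ := hT
  have h1 := hv.2 q hq
  rw [diagI_apply] at h1
  have : Nonempty (Emb (q : ℕ) M) := by
    obtain ⟨κ, -⟩ := Emb.res_surjective (q := (q : ℕ)) (F := ℚ) (M := M) (Algebra.ofId ℚ M)
      (Algebra.ofId ℚ _)
    exact ⟨κ⟩
  apply diag_injective (q := (q : ℕ)) (M := M)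
  rw [h1, map_one]

/-- uniqueness of the decomposition `Mˣ · U^T` -/
theorem diagI_mul_unique {T : Set Nat.Primes} (hT : T.Nonempty) {v v' : Mˣ} {u u' : Idele M}
    (hu : u ∈ unitsOutside M T) (hu' : u' ∈ unitsOutside M T)
    (h : diagI M v * u = diagI M v' * u') : v = v' ∧ u = u' := by
  have h1 : diagI M (v'⁻¹ * v) = u' * u⁻¹ := by
    rw [map_mul, map_inv, inv_mul_eq_iff_eq_mul, ← mul_assoc, ← h, mul_assoc, mul_inv_cancel,
      mul_one]
  have h2 : v'⁻¹ * v = 1 := by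
    apply eq_one_of_diagI_mem_unitsOutside hT
    rw [h1]
    exact (unitsOutside M T).mul_mem hu' ((unitsOutside M T).inv_mem hu)
  have hv : v = v' := by
    rw [inv_mul_eq_one] at h2
    exact h2.symm
  refine ⟨hv, ?_⟩
  subst hv
  exact mul_left_cancel h

end Unique

section Descent

variable (F : Type*) {M : Type*} [Field F] [Field M] [Algebra ℚ F] [Algebra ℚ M] [Algebra F M]
  [IsScalarTower ℚ F M] [Algebra.IsAlgebraic ℚ M] [Algebra.IsAlgebraic ℚ F]
  [FiniteDimensional F M] [IsGalois F M]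

/-- `H¹(Gal(M/F), U^T(M)) = 0`, in cocycle form -/
def UnitsH1Trivial (T : Set Nat.Primes) : Prop :=
  ∀ u : (M ≃ₐ[F] M) → Idele M, (∀ γ, u γ ∈ unitsOutside M T) →
    (∀ γ γ', u (γ * γ') = autToQ F γ • u γ' * u γ) →
    ∃ w ∈ unitsOutside M T, ∀ γ, u γ = autToQ F γ • w / w

/-- `𝒞_T(F) → 𝒞_T(M)` is injective (`T` nonempty; no cohomological hypothesis) -/
theorem ClassGrpS.incl_injective {T : Set Nat.Primes} (hT : T.Nonempty) :
    Function.Injective (ClassGrpS.incl (IsScalarTower.toAlgHom ℚ F M) T) := by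
  rw [injective_iff_map_eq_one]
  intro c hc
  obtain ⟨y, rfl⟩ := QuotientGroup.mk_surjective c
  rw [ClassGrpS.incl_mk, QuotientGroup.eq_one_iff] at hc
  unfold principalUnits at hc
  rw [Subgroup.mem_sup] at hc
  obtain ⟨a, ⟨v, rfl⟩, u, hu, hvu⟩ := hc
  -- both `v` and `u` are fixed by the Galois group
  have hfix : ∀ γ : M ≃ₐ[F] M, Units.map ((autToQ F γ : M ≃ₐ[ℚ] M) : M →* M) v = v ∧
      autToQ F γ • u = u := by
    intro γ
    have h1 : autToQ F γ • (diagI M v * u) = diagI M v * u := by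
      rw [hvu]
      exact Idele.smul_incl F M γ y
    rw [smul_mul', smul_diagI] at h1
    exact diagI_mul_unique hT (smul_mem_unitsOutside _ hu) hu h1
  have hfixv : ∀ γ : M ≃ₐ[F] M, γ (v : M) = v := fun γ =>
    congrArg (fun w : Mˣ => (w : M)) (hfix γ).1
  obtain ⟨v', hv'⟩ := exists_unit_map_eq_of_fixed F v hfixv
  obtain ⟨u', hu'⟩ := Idele.exists_incl_eq_of_invariant F u (fun γ => (hfix γ).2)
  rw [QuotientGroup.eq_one_iff]
  have hv'' : Units.map ((IsScalarTower.toAlgHom ℚ F M : F →ₐ[ℚ] M) : F →* M) v' = v := by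
    rw [← hv']
    exact Units.ext rfl
  have hy : y = diagI F v' * u' := by
    apply Idele.incl_injective (IsScalarTower.toAlgHom ℚ F M)
    rw [map_mul, Idele.incl_diagI, hu', hv'', hvu]
  rw [hy]
  unfold principalUnits
  refine Subgroup.mul_mem_sup ⟨v', rfl⟩ ?_
  rw [← Idele.incl_mem_unitsOutside_iff (IsScalarTower.toAlgHom ℚ F M), hu']
  exact hu

/-- **Galois descent for `𝒞_T`**: a `Gal(M/F)`-invariant class of `𝒞_T(M)` comes from `𝒞_T(F)`,
provided `H¹(Gal(M/F), U^T(M)) = 0`. -/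
theorem ClassGrpS.exists_incl_eq_of_invariant {T : Set Nat.Primes} (hT : T.Nonempty)
    (hU : UnitsH1Trivial F (M := M) T) (c : ClassGrpS M T)
    (hc : ∀ γ : M ≃ₐ[F] M, autToQ F γ • c = c) :
    ∃ c' : ClassGrpS F T, ClassGrpS.incl (IsScalarTower.toAlgHom ℚ F M) T c' = c := by
  obtain ⟨x, rfl⟩ := QuotientGroup.mk_surjective c
  -- `γ x / x = diag (v γ) * u γ`
  have hex : ∀ γ : M ≃ₐ[F] M, ∃ (v : Mˣ) (u : Idele M), u ∈ unitsOutside M T ∧
      autToQ F γ • x / x = diagI M v * u := by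
    intro γ
    have h := hc γ
    rw [ClassGrpS.smul_mk, QuotientGroup.eq] at h
    have h' := (principalUnits M T).inv_mem h
    unfold principalUnits at h'
    rw [Subgroup.mem_sup] at h'
    obtain ⟨a, ⟨v, rfl⟩, u, hu, hvu⟩ := h'
    refine ⟨v, u, hu, ?_⟩
    rw [hvu, mul_inv_rev, inv_inv, div_eq_mul_inv, mul_comm]
  choose v u hu hvu using hex
  -- both are cocycles
  have hcoc : ∀ γ γ' : M ≃ₐ[F] M, v (γ * γ') = γ • v γ' * v γ ∧
      u (γ * γ') = autToQ F γ • u γ' * u γ := by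
    intro γ γ'
    apply diagI_mul_unique hT (hu _)
      ((unitsOutside M T).mul_mem (smul_mem_unitsOutside _ (hu γ')) (hu γ))
    have e1 : diagI M (γ • v γ') = autToQ F γ • diagI M (v γ') :=
      (smul_diagI (autToQ F γ) (v γ')).symm
    have key : autToQ F (γ * γ') • x / x =
        (autToQ F γ • (autToQ F γ' • x / x)) * (autToQ F γ • x / x) := by
      rw [map_mul, mul_smul, smul_div', div_mul_div_cancel]
    rw [← hvu, key, hvu γ', hvu γ, smul_mul', ← e1, map_mul (diagI M), mul_mul_mul_comm]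
  obtain ⟨β, hβ⟩ := groupCohomology.isMulCoboundary₁_of_isMulCocycle₁_of_aut_to_units v
    (fun γ γ' => (hcoc γ γ').1)
  obtain ⟨w, hw, hwu⟩ := hU u hu (fun γ γ' => (hcoc γ γ').2)
  -- `x / (β w)` is invariant
  have hinv : ∀ γ : M ≃ₐ[F] M,
      autToQ F γ • (x / (diagI M β * w)) = x / (diagI M β * w) := by
    intro γ
    have e1 : autToQ F γ • diagI M β = diagI M (γ • β) := smul_diagI (autToQ F γ) β
    have e2 : diagI M (γ • β) = diagI M β * diagI M (v γ) := by
      rw [← map_mul, ← hβ γ, mul_div_cancel]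
    have e3 : autToQ F γ • w = w * u γ := by
      rw [hwu γ, mul_div_cancel]
    have e4 : diagI M (v γ) * u γ = autToQ F γ • x / x := (hvu γ).symm
    rw [smul_div', smul_mul', e1, e2, e3, mul_mul_mul_comm, e4]
    exact div_mul_div_self_aux _ _ _
  obtain ⟨y, hy⟩ := Idele.exists_incl_eq_of_invariant F (x / (diagI M β * w)) hinv
  refine ⟨QuotientGroup.mk y, ?_⟩
  rw [ClassGrpS.incl_mk, hy, QuotientGroup.eq, inv_div, div_mul_cancel]
  unfold principalUnits
  exact Subgroup.mul_mem_sup ⟨β, rfl⟩ hw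

end Descent

end Fermat.Agent.S55lib.Dev
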