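/-
S55 sprint, block (IV-dev) "devissage", file 11: the idele group, the idele class group and the
class modules `𝒞_T(M)` as objects of `Rep ℤ (M ≃ₐ[ℚ] M)`, and the short exact sequences
`0 → Mˣ → I(M) → C(M) → 0`, `0 → U^T·Mˣ/Mˣ → C(M) → 𝒞_T(M) → 0`.

General tool: an equivariant homomorphism of multiplicative modules gives a morphism of the
`Rep.ofMulDistribMulAction`s; a short exact sequence of multiplicative modules gives a short exact
sequence in `Rep ℤ G`.
-/
import Mathlib
import Fermat.Agent.S55lib.Dev.Idele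

set_option autoImplicit false

noncomputable section

namespace Fermat.Agent.S55lib.Dev

open Fermat.Agent.S55lib CategoryTheory

/-! ### A criterion for short exactness in `Rep k G` -/

section General

variable {k G : Type} [CommRing k] [Group G]

/-- elementwise criterion for short exactness in `Rep k G` -/
theorem shortExact_of_hom (S : ShortComplex (Rep.{0} k G))
    (hinj : Function.Injective S.f.hom) (hsurj : Function.Surjective S.g.hom)
    (hex : ∀ b, S.g.hom b = 0 → ∃ a, S.f.hom a = b) : S.ShortExact where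
  exact := by
    apply (forget₂ (Rep.{0} k G) (ModuleCat.{0} k)).reflects_exact_of_faithful
    rw [ShortComplex.moduleCat_exact_iff_range_eq_ker]
    apply le_antisymm
    · rintro _ ⟨a, rfl⟩
      have h := S.zero
      have h2 : (S.f ≫ S.g).hom a = 0 := by rw [h]; rfl
      exact h2
    · intro b hb
      obtain ⟨a, ha⟩ := hex b hb
      exact ⟨a, ha⟩
  mono_f := (Rep.mono_iff_injective _).2 hinj
  epi_g := (Rep.epi_iff_surjective _).2 hsurj

end General

/-! ### Morphisms between `Rep.ofMulDistribMulAction`s -/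

section MulRep

variable {G : Type} [Group G] {A B C : Type} [CommGroup A] [CommGroup B] [CommGroup C]
  [MulDistribMulAction G A] [MulDistribMulAction G B] [MulDistribMulAction G C]

/-- an equivariant homomorphism as a morphism of representations -/
def mulRepHom (f : A →* B) (hf : ∀ (g : G) (a : A), f (g • a) = g • f a) :
    Rep.ofMulDistribMulAction G A ⟶ Rep.ofMulDistribMulAction G B :=
  Rep.ofHom ⟨(AddMonoidHom.toIntLinearMap (MonoidHom.toAdditive f) :
      Additive A →ₗ[ℤ] Additive B), fun g => by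
    ext (a : Additive A)
    exact congrArg Additive.ofMul (hf g (Additive.toMul a))⟩

@[simp] theorem mulRepHom_apply (f : A →* B) (hf : ∀ (g : G) (a : A), f (g • a) = g • f a)
    (a : A) : (mulRepHom f hf).hom (Additive.ofMul a) = Additive.ofMul (f a) := rfl

theorem mulRepHom_comp (f : A →* B) (hf : ∀ (g : G) (a : A), f (g • a) = g • f a)
    (f' : B →* C) (hf' : ∀ (g : G) (b : B), f' (g • b) = g • f' b) :
    mulRepHom f hf ≫ mulRepHom f' hf' =
      mulRepHom (f'.comp f) (fun g a => by
        rw [MonoidHom.comp_apply, hf, hf', MonoidHom.comp_apply]) := rfl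

/-- an equivariant isomorphism as an isomorphism of representations -/
def mulRepIso (e : A ≃* B) (he : ∀ (g : G) (a : A), e (g • a) = g • e a) :
    Rep.ofMulDistribMulAction G A ≅ Rep.ofMulDistribMulAction G B :=
  Rep.mkIso <| Representation.Equiv.mk (MulEquiv.toAdditive e).toIntLinearEquiv (fun g => by
    ext (a : Additive A)
    exact congrArg Additive.ofMul (he g (Additive.toMul a)))

@[simp] theorem mulRepIso_hom_apply (e : A ≃* B) (he : ∀ (g : G) (a : A), e (g • a) = g • e a)
    (a : A) : (mulRepIso e he).hom.hom (Additive.ofMul a) = Additive.ofMul (e a) := rfl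

/-- a short complex of multiplicative modules -/
def mulRepSeq (f : A →* B) (hf : ∀ (g : G) (a : A), f (g • a) = g • f a)
    (f' : B →* C) (hf' : ∀ (g : G) (b : B), f' (g • b) = g • f' b)
    (hzero : ∀ a, f' (f a) = 1) : ShortComplex (Rep.{0} ℤ G) :=
  ShortComplex.mk (mulRepHom f hf) (mulRepHom f' hf') (by
    apply Rep.hom_ext
    apply Representation.IntertwiningMap.ext
    apply LinearMap.ext
    intro a
    exact congrArg Additive.ofMul (hzero (Additive.toMul a)))

/-- a short exact sequence of multiplicative modules is short exact in `Rep ℤ G` -/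
theorem mulRepSeq_shortExact (f : A →* B) (hf : ∀ (g : G) (a : A), f (g • a) = g • f a)
    (f' : B →* C) (hf' : ∀ (g : G) (b : B), f' (g • b) = g • f' b)
    (hzero : ∀ a, f' (f a) = 1) (hinj : Function.Injective f) (hsurj : Function.Surjective f')
    (hex : ∀ b, f' b = 1 → ∃ a, f a = b) : (mulRepSeq f hf f' hf' hzero).ShortExact := by
  apply shortExact_of_hom
  · intro a a' h
    exact congrArg Additive.ofMul (hinj (congrArg Additive.toMul h))
  · intro c
    obtain ⟨b, hb⟩ := hsurj (Additive.toMul (show Additive C from c))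
    exact ⟨Additive.ofMul b, congrArg Additive.ofMul hb⟩
  · intro b hb
    obtain ⟨a, ha⟩ := hex (Additive.toMul (show Additive B from b)) (congrArg Additive.toMul hb)
    exact ⟨Additive.ofMul a, congrArg Additive.ofMul ha⟩

end MulRep

/-! ### The idele modules -/

variable (M : Type) [Field M] [Algebra ℚ M]

/-- `J_q(M)` as a representation of `Aut(M/ℚ)` -/
abbrev jqRep (q : Nat.Primes) : Rep ℤ (M ≃ₐ[ℚ] M) :=
  Rep.ofMulDistribMulAction (M ≃ₐ[ℚ] M) (Jq (q : ℕ) M)

/-- the ideles as a representation of `Aut(M/ℚ)` -/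
abbrev ideleRep : Rep ℤ (M ≃ₐ[ℚ] M) := Rep.ofMulDistribMulAction (M ≃ₐ[ℚ] M) (Idele M)

/-- the projection to the `q`-component -/
def ideleProjRep (q : Nat.Primes) : ideleRep M ⟶ jqRep M q :=
  mulRepHom (Idele.proj M q) (fun _ _ => rfl)

/-- the inclusion of the `q`-component -/
def ideleSingleRep (q : Nat.Primes) : jqRep M q ⟶ ideleRep M :=
  mulRepHom (Idele.single q) (fun γ f => (Idele.smul_single γ q f).symm)

variable [Algebra.IsAlgebraic ℚ M]

/-- the idele class group as a representation of `Aut(M/ℚ)` -/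
abbrev classRep : Rep ℤ (M ≃ₐ[ℚ] M) := Rep.ofMulDistribMulAction (M ≃ₐ[ℚ] M) (ClassGrp M)

/-- the class module `𝒞_T(M)` as a representation of `Aut(M/ℚ)` -/
abbrev classRepS (T : Set Nat.Primes) : Rep ℤ (M ≃ₐ[ℚ] M) :=
  Rep.ofMulDistribMulAction (M ≃ₐ[ℚ] M) (ClassGrpS M T)

theorem diagI_smul' (γ : M ≃ₐ[ℚ] M) (x : Mˣ) : diagI M (γ • x) = γ • diagI M x :=
  (smul_diagI γ x).symm

/-- the diagonal embedding `Mˣ → I(M)` as a morphism of representations -/
def diagRep : Rep.ofAlgebraAutOnUnits ℚ M ⟶ ideleRep M :=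
  mulRepHom (diagI M) (diagI_smul' M)

/-- the projection `I(M) → C(M)` -/
def toClassGrp : Idele M →* ClassGrp M := QuotientGroup.mk' (principal M)

theorem toClassGrp_apply (x : Idele M) : toClassGrp M x = QuotientGroup.mk x := rfl

theorem toClassGrp_surjective : Function.Surjective (toClassGrp M) :=
  QuotientGroup.mk'_surjective _

theorem toClassGrp_smul (γ : M ≃ₐ[ℚ] M) (x : Idele M) :
    toClassGrp M (γ • x) = γ • toClassGrp M x := rfl

theorem toClassGrp_eq_one_iff (x : Idele M) : toClassGrp M x = 1 ↔ x ∈ principal M :=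
  QuotientGroup.eq_one_iff (N := principal M) x

theorem toClassGrp_diagI (u : Mˣ) : toClassGrp M (diagI M u) = 1 :=
  (toClassGrp_eq_one_iff M _).2 ⟨u, rfl⟩

/-- the projection `I(M) → C(M)` as a morphism of representations -/
def ideleToClassRep : ideleRep M ⟶ classRep M :=
  mulRepHom (toClassGrp M) (toClassGrp_smul M)

/-- the projection `C(M) → 𝒞_T(M)` as a morphism of representations -/
def classToSRep (T : Set Nat.Primes) : classRep M ⟶ classRepS M T :=
  mulRepHom (ClassGrp.toS M T) (fun γ c => ClassGrp.toS_smul T γ c)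

/-- the sequence `Mˣ → I(M) → C(M)` -/
def ideleSeq : ShortComplex (Rep.{0} ℤ (M ≃ₐ[ℚ] M)) :=
  mulRepSeq (G := M ≃ₐ[ℚ] M) (A := Mˣ) (B := Idele M) (C := ClassGrp M)
    (diagI M) (diagI_smul' M) (toClassGrp M) (toClassGrp_smul M) (toClassGrp_diagI M)

/-- `0 → Mˣ → I(M) → C(M) → 0` is exact -/
theorem ideleSeq_shortExact : (ideleSeq M).ShortExact := by
  unfold ideleSeq
  exact mulRepSeq_shortExact (G := M ≃ₐ[ℚ] M) (A := Mˣ) (B := Idele M) (C := ClassGrp M)
    (diagI M) (diagI_smul' M) (toClassGrp M) (toClassGrp_smul M)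
    (toClassGrp_diagI M) diagI_injective (toClassGrp_surjective M)
    (fun b hb => (toClassGrp_eq_one_iff M b).1 hb)

end Fermat.Agent.S55lib.Dev
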