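/-
S55 sprint, block (IV-dev) "devissage", file 7: finite direct-sum decompositions of
representations (given by projections and inclusions summing to the identity) and their effect
on group cohomology.  Used for semilocal modules (products over places) and for Mackey's
decomposition of a restricted coinduced module.
-/
import Mathlib

set_option autoImplicit false

namespace Fermat.Agent.S55lib.Dev

open CategoryTheory groupCohomology Rep

universe u

variable {k G : Type u} [CommRing k] [Group G]

/-- `groupCohomology.functor k G n` is additive. -/
instance functor_additive (n : ℕ) : (groupCohomology.functor k G n).Additive := by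
  have : groupCohomology.functor k G n =
      cochainsFunctor k G ⋙ HomologicalComplex.homologyFunctor (ModuleCat k) _ n := rfl
  rw [this]
  infer_instance

/-- A finite family of projections and inclusions exhibiting `N` as a "direct sum" of the `M i`
(only `∑ proj ≫ incl = 𝟙` is required). -/
structure SumDecomp (N : Rep.{u} k G) {ι : Type*} [Fintype ι] (M : ι → Rep.{u} k G) where
  /-- the projections -/
  proj : ∀ i, N ⟶ M i
  /-- the inclusions -/
  incl : ∀ i, M i ⟶ N
  /-- the decomposition of the identity, elementwise -/
  sum_apply : ∀ x : N.V, ∑ i, (incl i).hom ((proj i).hom x) = x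

namespace SumDecomp

variable {N : Rep.{u} k G} {ι : Type*} [Fintype ι] {M : ι → Rep.{u} k G} (d : SumDecomp N M)

/-- the decomposition of the identity -/
theorem sum_eq : ∑ i, d.proj i ≫ d.incl i = 𝟙 N := by
  ext x
  have h := d.sum_apply x
  rw [Rep.sum_hom, Representation.IntertwiningMap.toLinearMap_sum, LinearMap.sum_apply]
  exact h

/-- Decomposition of a cohomology class. -/
theorem sum_map_apply (n : ℕ) (x : groupCohomology N n) :
    ∑ i, (groupCohomology.map (MonoidHom.id G) (d.incl i) n).hom
      ((groupCohomology.map (MonoidHom.id G) (d.proj i) n).hom x) = x := by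
  have h : (groupCohomology.functor k G n).map (∑ i, d.proj i ≫ d.incl i) =
      𝟙 (groupCohomology N n) := by
    rw [d.sum_eq]
    exact (groupCohomology.functor k G n).map_id N
  rw [Functor.map_sum] at h
  have h2 := congrArg (fun f => f.hom x) h
  simp only [ModuleCat.hom_sum, CategoryTheory.Functor.map_comp, ModuleCat.hom_comp] at h2
  exact (LinearMap.sum_apply _ _ _).symm.trans h2

/-- A class all of whose projections vanish is zero. -/
theorem eq_zero_of_proj_eq_zero (n : ℕ) (x : groupCohomology N n)
    (h : ∀ i, (groupCohomology.map (MonoidHom.id G) (d.proj i) n).hom x = 0) : x = 0 := by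
  rw [← d.sum_map_apply n x]
  exact Finset.sum_eq_zero fun i _ => by rw [h i, map_zero]

include d in
/-- If all summands have vanishing `Hⁿ`, so has the sum. -/
theorem subsingleton_groupCohomology (n : ℕ)
    (h : ∀ i, Subsingleton (groupCohomology (M i) n)) :
    Subsingleton (groupCohomology N n) := by
  refine ⟨fun x y => ?_⟩
  have key : ∀ z : groupCohomology N n, z = 0 := fun z =>
    eq_zero_of_proj_eq_zero d n z fun i => by
      have := h i
      exact Subsingleton.elim _ _
  rw [key x, key y]

end SumDecomp

end Fermat.Agent.S55lib.Dev
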