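/-
S55 sprint, block (IV-dev) "devissage", file 8: Mackey's decomposition of the restriction to a
subgroup `H` of a coinduced representation `Coind_D^Γ X`, in the form of projections and
inclusions.
-/
import Mathlib
import Fermat.Agent.S55lib.Dev.SumDecomp

set_option autoImplicit false

namespace Fermat.Agent.S55lib.Dev

open CategoryTheory groupCohomology Rep

universe u

variable {k Γ : Type u} [CommRing k] [Group Γ] (D H : Subgroup Γ) (X : Rep.{u} k D)

/-- `H_r = {h ∈ H | r h r⁻¹ ∈ D}`, a subgroup of `H`. -/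
def conjSub (r : Γ) : Subgroup H := D.comap ((MulAut.conj r).toMonoidHom.comp H.subtype)

theorem mem_conjSub {r : Γ} {h : H} : h ∈ conjSub D H r ↔ r * (h : Γ) * r⁻¹ ∈ D := Iff.rfl

/-- Conjugation by `r`, as a homomorphism `H_r →* D`. -/
def conjHom (r : Γ) : conjSub D H r →* D where
  toFun h := ⟨r * ((h : H) : Γ) * r⁻¹, h.2⟩
  map_one' := by ext; simp
  map_mul' a b := by ext; simp [mul_assoc]

@[simp] theorem coe_conjHom (r : Γ) (h : conjSub D H r) :
    ((conjHom D H r h : D) : Γ) = r * ((h : H) : Γ) * r⁻¹ := rfl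

/-- `X` as a representation of `H_r` through conjugation by `r`. -/
abbrev twistRep (r : Γ) : Rep k (conjSub D H r) := res (conjHom D H r) X

/-- The Mackey summand `Coind_{H_r}^H X_r`. -/
noncomputable abbrev mackeySummand (r : Γ) : Rep k H := coind (conjSub D H r).subtype (twistRep D H X r)

/-- The restriction to `H` of `Coind_D^Γ X`. -/
noncomputable abbrev resCoind : Rep k H := res H.subtype (coind D.subtype X)

theorem resCoind_ρ_apply (h₀ : H) (f : resCoind D H X) (γ : Γ) :
    ((resCoind D H X).ρ h₀ f).1 γ = f.1 (γ * h₀) := rfl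

theorem mackeySummand_ρ_apply (r : Γ) (h₀ : H) (φ : mackeySummand D H X r) (h : H) :
    ((mackeySummand D H X r).ρ h₀ φ).1 h = φ.1 (h * h₀) := rfl

/-- Membership in the coinduced module `Coind_D^Γ X`. -/
theorem resCoind_property (f : resCoind D H X) (d : D) (γ : Γ) :
    f.1 ((d : Γ) * γ) = X.ρ d (f.1 γ) := f.2 d γ

/-- Membership in the Mackey summand. -/
theorem mackeySummand_property (r : Γ) (φ : mackeySummand D H X r) (h' : conjSub D H r) (h : H) :
    φ.1 ((h' : H) * h) = X.ρ (conjHom D H r h') (φ.1 h) := φ.2 h' h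

/-- The projection `π_r : Res_H Coind_D^Γ X ⟶ Coind_{H_r}^H X_r`, `f ↦ (h ↦ f (r h))`. -/
noncomputable def mackeyProj (r : Γ) : resCoind D H X ⟶ mackeySummand D H X r :=
  Rep.ofHom ⟨
    { toFun := fun f => ⟨fun h => f.1 (r * (h : Γ)), by
        intro h' h
        have e : r * (((h' : H) * h : H) : Γ) = ((conjHom D H r h' : D) : Γ) * (r * (h : Γ)) := by
          simp [mul_assoc]
        change f.1 (r * (((h' : H) * h : H) : Γ)) = X.ρ (conjHom D H r h') (f.1 (r * (h : Γ)))
        rw [e, resCoind_property D H X]⟩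
      map_add' := fun f g => rfl
      map_smul' := fun c f => rfl },
    fun h₀ => by
      ext f h
      change f.1 (r * (h : Γ) * (h₀ : Γ)) = f.1 (r * ((h * h₀ : H) : Γ))
      simp [mul_assoc]⟩

theorem mackeyProj_apply (r : Γ) (f : resCoind D H X) (h : H) :
    ((mackeyProj D H X r).hom f).1 h = f.1 (r * (h : Γ)) := rfl

/-- The double coset condition `γ ∈ D r H`. -/
def InDoubleCoset (r γ : Γ) : Prop := ∃ (d : D) (h : H), γ = (d : Γ) * r * (h : Γ)

theorem inDoubleCoset_mul_left (r γ : Γ) (d₀ : D) :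
    InDoubleCoset D H r ((d₀ : Γ) * γ) ↔ InDoubleCoset D H r γ := by
  constructor
  · rintro ⟨d, h, e⟩
    refine ⟨d₀⁻¹ * d, h, ?_⟩
    have : γ = (d₀ : Γ)⁻¹ * ((d₀ : Γ) * γ) := by group
    rw [this, e]
    simp [mul_assoc]
  · rintro ⟨d, h, e⟩
    exact ⟨d₀ * d, h, by rw [e]; simp [mul_assoc]⟩

theorem inDoubleCoset_mul_right (r γ : Γ) (h₀ : H) :
    InDoubleCoset D H r (γ * (h₀ : Γ)) ↔ InDoubleCoset D H r γ := by
  constructor
  · rintro ⟨d, h, e⟩
    refine ⟨d, h * h₀⁻¹, ?_⟩
    have : γ = γ * (h₀ : Γ) * (h₀ : Γ)⁻¹ := by group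
    rw [this, e]
    simp [mul_assoc]
  · rintro ⟨d, h, e⟩
    exact ⟨d, h * h₀, by rw [e]; simp [mul_assoc]⟩

open Classical in
/-- Extension by zero from `D r H` of the function `d r h ↦ d • φ h`. -/
noncomputable def extendFun (r : Γ) (φ : H → X) : Γ → X := fun γ =>
  if hγ : InDoubleCoset D H r γ then X.ρ hγ.choose (φ hγ.choose_spec.choose) else 0

theorem extendFun_of_not (r : Γ) (φ : H → X) (γ : Γ) (hγ : ¬ InDoubleCoset D H r γ) :
    extendFun D H X r φ γ = 0 := by
  rw [extendFun, dif_neg hγ]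

theorem extendFun_mul (r : Γ) (φ : mackeySummand D H X r) (d : D) (h : H) :
    extendFun D H X r φ.1 ((d : Γ) * r * (h : Γ)) = X.ρ d (φ.1 h) := by
  have hγ : InDoubleCoset D H r ((d : Γ) * r * (h : Γ)) := ⟨d, h, rfl⟩
  rw [extendFun, dif_pos hγ]
  set d' := hγ.choose with hd'
  set h' := hγ.choose_spec.choose with hh'
  have spec : (d : Γ) * r * (h : Γ) = (d' : Γ) * r * (h' : Γ) := hγ.choose_spec.choose_spec
  -- `h'' = h' h⁻¹ ∈ H_r` with `r h'' r⁻¹ = d'⁻¹ d`
  have hconj : r * ((h' * h⁻¹ : H) : Γ) * r⁻¹ = ((d'⁻¹ * d : D) : Γ) := by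
    have : (h' : Γ) = r⁻¹ * (d' : Γ)⁻¹ * ((d : Γ) * r * (h : Γ)) := by
      rw [spec]; group
    simp only [Subgroup.coe_mul, Subgroup.coe_inv, this]
    group
  have hmem : (h' * h⁻¹ : H) ∈ conjSub D H r := by
    rw [mem_conjSub, hconj]
    exact (d'⁻¹ * d).2
  have e1 : conjHom D H r ⟨h' * h⁻¹, hmem⟩ = d'⁻¹ * d := Subtype.ext hconj
  have e2 := mackeySummand_property D H X r φ ⟨h' * h⁻¹, hmem⟩ h
  simp only [inv_mul_cancel_right] at e2
  rw [e2, e1, ← Module.End.mul_apply, ← map_mul, mul_inv_cancel_left]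

theorem extendFun_mem (r : Γ) (φ : mackeySummand D H X r) (d₀ : D) (γ : Γ) :
    extendFun D H X r φ.1 ((d₀ : Γ) * γ) = X.ρ d₀ (extendFun D H X r φ.1 γ) := by
  by_cases hγ : InDoubleCoset D H r γ
  · obtain ⟨d, h, rfl⟩ := hγ
    have e : (d₀ : Γ) * ((d : Γ) * r * (h : Γ)) = ((d₀ * d : D) : Γ) * r * (h : Γ) := by
      simp [mul_assoc]
    rw [e, extendFun_mul, extendFun_mul, map_mul, Module.End.mul_apply]
  · rw [extendFun_of_not D H X r φ.1 γ hγ,
      extendFun_of_not D H X r φ.1 _ (mt (inDoubleCoset_mul_left D H r γ d₀).1 hγ), map_zero]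

/-- The inclusion `ι_r : Coind_{H_r}^H X_r ⟶ Res_H Coind_D^Γ X`, extension by zero. -/
noncomputable def mackeyIncl (r : Γ) : mackeySummand D H X r ⟶ resCoind D H X :=
  Rep.ofHom ⟨
    { toFun := fun φ => ⟨extendFun D H X r φ.1, fun d₀ γ => extendFun_mem D H X r φ d₀ γ⟩
      map_add' := fun φ ψ => by
        apply Subtype.ext
        funext γ
        by_cases hγ : InDoubleCoset D H r γ
        · obtain ⟨d, h, rfl⟩ := hγ
          change extendFun D H X r (φ + ψ).1 _ =
            extendFun D H X r φ.1 _ + extendFun D H X r ψ.1 _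
          rw [extendFun_mul, extendFun_mul, extendFun_mul]
          change X.ρ d (φ.1 h + ψ.1 h) = _
          rw [map_add]
        · change extendFun D H X r (φ + ψ).1 _ =
            extendFun D H X r φ.1 _ + extendFun D H X r ψ.1 _
          rw [extendFun_of_not D H X r _ γ hγ, extendFun_of_not D H X r _ γ hγ,
            extendFun_of_not D H X r _ γ hγ, add_zero]
      map_smul' := fun c φ => by
        apply Subtype.ext
        funext γ
        by_cases hγ : InDoubleCoset D H r γ
        · obtain ⟨d, h, rfl⟩ := hγ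
          change extendFun D H X r (c • φ).1 _ = c • extendFun D H X r φ.1 _
          rw [extendFun_mul, extendFun_mul]
          change X.ρ d (c • φ.1 h) = _
          rw [map_smul]
        · change extendFun D H X r (c • φ).1 _ = c • extendFun D H X r φ.1 _
          rw [extendFun_of_not D H X r _ γ hγ, extendFun_of_not D H X r _ γ hγ, smul_zero] },
    fun h₀ => by
      ext φ γ
      change extendFun D H X r ((mackeySummand D H X r).ρ h₀ φ).1 γ =
        extendFun D H X r φ.1 (γ * (h₀ : Γ))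
      by_cases hγ : InDoubleCoset D H r γ
      · obtain ⟨d, h, rfl⟩ := hγ
        have e : (d : Γ) * r * (h : Γ) * (h₀ : Γ) = (d : Γ) * r * ((h * h₀ : H) : Γ) := by
          simp [mul_assoc]
        rw [e, extendFun_mul, extendFun_mul]
        rfl
      · rw [extendFun_of_not D H X r _ γ hγ,
          extendFun_of_not D H X r _ _ (mt (inDoubleCoset_mul_right D H r γ h₀).1 hγ)]⟩

theorem mackeyIncl_apply (r : Γ) (φ : mackeySummand D H X r) (γ : Γ) :
    ((mackeyIncl D H X r).hom φ).1 γ = extendFun D H X r φ.1 γ := rfl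

/-- `ι_r (π_r f)` is `f` on the double coset `D r H` and zero elsewhere. -/
theorem mackeyIncl_mackeyProj_apply (r : Γ) (f : resCoind D H X) (γ : Γ) [Decidable (InDoubleCoset D H r γ)] :
    ((mackeyIncl D H X r).hom ((mackeyProj D H X r).hom f)).1 γ =
      if InDoubleCoset D H r γ then f.1 γ else 0 := by
  rw [mackeyIncl_apply]
  split_ifs with hγ
  · obtain ⟨d, h, rfl⟩ := hγ
    rw [extendFun_mul, mackeyProj_apply, mul_assoc, resCoind_property D H X]
  · exact extendFun_of_not D H X r _ γ hγ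

theorem inDoubleCoset_out_iff (q : DoubleCoset.Quotient (D : Set Γ) (H : Set Γ)) (γ : Γ) :
    InDoubleCoset D H q.out γ ↔ DoubleCoset.mk D H γ = q := by
  constructor
  · rintro ⟨d, h, e⟩
    have h1 : DoubleCoset.mk D H q.out = DoubleCoset.mk D H γ :=
      (DoubleCoset.eq D H q.out γ).2 ⟨d, d.2, h, h.2, e⟩
    rw [← h1]
    exact DoubleCoset.out_eq' D H q
  · intro hq
    have h1 : DoubleCoset.mk D H q.out = DoubleCoset.mk D H γ := by
      rw [hq]
      exact DoubleCoset.out_eq' D H q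
    obtain ⟨d, hd, h, hh, e⟩ := (DoubleCoset.eq D H q.out γ).1 h1
    exact ⟨⟨d, hd⟩, ⟨h, hh⟩, e⟩

/-- The elementwise Mackey decomposition. -/
theorem sum_mackeyIncl_mackeyProj_apply [Fintype (DoubleCoset.Quotient (D : Set Γ) (H : Set Γ))]
    (f : resCoind D H X) :
    ∑ q : DoubleCoset.Quotient (D : Set Γ) (H : Set Γ),
      (mackeyIncl D H X q.out).hom ((mackeyProj D H X q.out).hom f) = f := by
  classical
  apply Subtype.ext
  funext γ
  have hcoe : ∀ (s : Finset (DoubleCoset.Quotient (D : Set Γ) (H : Set Γ)))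
      (F : DoubleCoset.Quotient (D : Set Γ) (H : Set Γ) → resCoind D H X),
      ((∑ q ∈ s, F q : resCoind D H X)).1 γ = ∑ q ∈ s, (F q).1 γ := by
    intro s F
    induction s using Finset.induction with
    | empty => simp
    | insert a s ha ih =>
      rw [Finset.sum_insert ha, Finset.sum_insert ha, ← ih]
      rfl
  rw [hcoe]
  rw [Finset.sum_eq_single (DoubleCoset.mk D H γ)]
  · rw [mackeyIncl_mackeyProj_apply, if_pos ((inDoubleCoset_out_iff D H _ γ).2 rfl)]
  · intro q _ hq
    rw [mackeyIncl_mackeyProj_apply, if_neg]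
    exact fun h => hq ((inDoubleCoset_out_iff D H q γ).1 h).symm
  · intro h
    exact absurd (Finset.mem_univ _) h

/-- **Mackey decomposition** of `Res_H Coind_D^Γ X` over the double cosets `D \ Γ / H`. -/
noncomputable def mackeyDecomp [Fintype (DoubleCoset.Quotient (D : Set Γ) (H : Set Γ))] :
    SumDecomp (resCoind D H X)
      (fun q : DoubleCoset.Quotient (D : Set Γ) (H : Set Γ) => mackeySummand D H X q.out) where
  proj q := mackeyProj D H X q.out
  incl q := mackeyIncl D H X q.out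
  sum_apply := sum_mackeyIncl_mackeyProj_apply D H X

end Fermat.Agent.S55lib.Dev
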