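/-
S55 sprint, block (IV-dev) "devissage", file 9: transport of cohomology along isomorphisms of
groups and modules; cohomological triviality and its stability under coinduction (via Mackey) and
finite sums.
-/
import Mathlib
import Fermat.Agent.S55lib.Dev.Mackey

set_option autoImplicit false

namespace Fermat.Agent.S55lib.Dev

open CategoryTheory groupCohomology Rep

universe u

section Transport

variable {k G G' : Type u} [CommRing k] [Group G] [Group G']

/-- A bijective group homomorphism together with a bijective compatible module map induces an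
isomorphism on cohomology. -/
theorem isIso_map_of_bijective (f : G' →* G) (hf : Function.Bijective f) {A : Rep.{u} k G}
    {B : Rep.{u} k G'} (φ : res f A ⟶ B) (hφ : Function.Bijective φ.hom) (n : ℕ) :
    IsIso (groupCohomology.map f φ n) := by
  have : Mono φ := (Rep.mono_iff_injective φ).2 hφ.1
  have : Epi φ := (Rep.epi_iff_surjective φ).2 hφ.2
  have : ∀ i, IsIso ((cochainsMap f φ).f i) := fun i => by
    have := cochainsMap_f_map_mono f φ hf.2 i
    have := cochainsMap_f_map_epi f φ hf.1 i
    exact isIso_of_mono_of_epi _
  have : IsIso (cochainsMap f φ) := HomologicalComplex.Hom.isIso_of_components _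
  exact inferInstanceAs (IsIso ((HomologicalComplex.homologyFunctor _ _ n).map (cochainsMap f φ)))

theorem subsingleton_of_bijective (f : G' →* G) (hf : Function.Bijective f) {A : Rep.{u} k G}
    {B : Rep.{u} k G'} (φ : res f A ⟶ B) (hφ : Function.Bijective φ.hom) (n : ℕ)
    [Subsingleton (groupCohomology A n)] : Subsingleton (groupCohomology B n) := by
  have := isIso_map_of_bijective f hf φ hφ n
  have hsurj : Function.Surjective (groupCohomology.map f φ n) :=
    (ConcreteCategory.bijective_of_isIso (groupCohomology.map f φ n)).2
  exact hsurj.subsingleton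

end Transport

section CohTrivial

variable {k D : Type u} [CommRing k] [Group D]

/-- Cohomological triviality in positive degrees, for all subgroups. -/
def IsCohTrivial (X : Rep.{u} k D) : Prop :=
  ∀ (D' : Subgroup D) (n : ℕ), Subsingleton (groupCohomology (res D'.subtype X) (n + 1))

/-- Cohomological triviality can be tested/used along arbitrary injective homomorphisms. -/
theorem IsCohTrivial.of_injective {X : Rep.{u} k D} (hX : IsCohTrivial X) {D'' : Type u}
    [Group D''] (ψ : D'' →* D) (hψ : Function.Injective ψ) (n : ℕ) :
    Subsingleton (groupCohomology (res ψ X) (n + 1)) := by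
  have hbij : Function.Bijective ψ.rangeRestrict :=
    ⟨MonoidHom.rangeRestrict_injective_iff.2 hψ, ψ.rangeRestrict_surjective⟩
  let φ : res ψ.rangeRestrict (res ψ.range.subtype X) ⟶ res ψ X :=
    Rep.ofHom ⟨LinearMap.id, fun g => rfl⟩
  have hφ : Function.Bijective φ.hom := Function.bijective_id
  have := hX ψ.range n
  exact subsingleton_of_bijective ψ.rangeRestrict hbij φ hφ (n + 1)

theorem IsCohTrivial.res {X : Rep.{u} k D} (hX : IsCohTrivial X) {D'' : Type u}
    [Group D''] (ψ : D'' →* D) (hψ : Function.Injective ψ) : IsCohTrivial (res ψ X) := by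
  intro D' n
  exact hX.of_injective (ψ.comp D'.subtype) (hψ.comp Subtype.val_injective) n

/-- Restriction of a sum decomposition to a subgroup. -/
noncomputable def SumDecomp.res {N : Rep.{u} k D} {ι : Type*} [Fintype ι] {M : ι → Rep.{u} k D}
    (d : SumDecomp N M) {D'' : Type u} [Group D''] (ψ : D'' →* D) :
    SumDecomp (Rep.res ψ N) (fun i => Rep.res ψ (M i)) where
  proj i := (resFunctor ψ).map (d.proj i)
  incl i := (resFunctor ψ).map (d.incl i)
  sum_apply x := d.sum_apply x

/-- A finite sum of cohomologically trivial representations is cohomologically trivial. -/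
theorem IsCohTrivial.of_sumDecomp {N : Rep.{u} k D} {ι : Type*} [Fintype ι]
    {M : ι → Rep.{u} k D} (d : SumDecomp N M) (h : ∀ i, IsCohTrivial (M i)) :
    IsCohTrivial N := fun D' n =>
  (d.res D'.subtype).subsingleton_groupCohomology (n + 1) fun i => h i D' n

theorem conjHom_injective {Γ : Type u} [Group Γ] (D H : Subgroup Γ) (r : Γ) :
    Function.Injective (conjHom D H r) := by
  intro a b hab
  have h := congrArg (fun x : D => (x : Γ)) hab
  simp only [coe_conjHom] at h
  have h2 : ((a : H) : Γ) = ((b : H) : Γ) := by
    have := congrArg (fun x => r⁻¹ * x * r) h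
    simpa [mul_assoc] using this
  exact Subtype.ext (Subtype.ext h2)

/-- **Coinduction preserves cohomological triviality** (Mackey + Shapiro). -/
theorem IsCohTrivial.coind {Γ : Type u} [Group Γ] [Finite Γ] (D : Subgroup Γ) {X : Rep.{u} k D}
    (hX : IsCohTrivial X) : IsCohTrivial (Rep.coind D.subtype X) := by
  classical
  intro H n
  have : Finite (DoubleCoset.Quotient (D : Set Γ) (H : Set Γ)) := Quotient.finite _
  have := Fintype.ofFinite (DoubleCoset.Quotient (D : Set Γ) (H : Set Γ))
  refine (mackeyDecomp D H X).subsingleton_groupCohomology (n + 1) fun q => ?_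
  have h1 : Subsingleton (groupCohomology (twistRep D H X q.out) (n + 1)) :=
    hX.of_injective (conjHom D H q.out) (conjHom_injective D H q.out) n
  exact (groupCohomology.coindIso (twistRep D H X q.out) (n + 1)).toLinearEquiv.toEquiv.subsingleton

end CohTrivial

end Fermat.Agent.S55lib.Dev
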