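/-
S55 sprint, block (IV-dev) "devissage", file 20: cohomology of (possibly infinite) products.
If a representation `A` is an elementwise product of representations `B i` (jointly injective
projections `π i : A ⟶ B i` through which every family glues) and `Hⁿ⁺¹(B i) = 0` for all `i`,
then `Hⁿ⁺¹(A) = 0`; hence products of cohomologically trivial modules are cohomologically trivial.
-/
import Mathlib
import Fermat.Agent.S55lib.Dev.CohTriv

set_option autoImplicit false

noncomputable section

namespace Fermat.Agent.S55lib.Dev

open CategoryTheory groupCohomology Rep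

universe u

variable {k G : Type u} [CommRing k] [Group G]

/-- the cochain complex is exact at `n + 1` iff every `(n+1)`-cocycle is a coboundary -/
theorem exactAt_succ_iff (A : Rep.{u} k G) (n : ℕ) :
    (inhomogeneousCochains A).ExactAt (n + 1) ↔
      ∀ f : (Fin (n + 1) → G) → A, inhomogeneousCochains.d A (n + 1) f = 0 →
        ∃ y : (Fin n → G) → A, inhomogeneousCochains.d A n y = f := by
  rw [HomologicalComplex.exactAt_iff' (inhomogeneousCochains A) n (n + 1) (n + 2) (by simp)
    (by simp), ShortComplex.moduleCat_exact_iff]
  constructor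
  · intro h f hf
    obtain ⟨y, hy⟩ := h f (by
      show (inhomogeneousCochains A).d (n + 1) (n + 2) f = 0
      rw [inhomogeneousCochains.d_def]
      exact hf)
    refine ⟨y, ?_⟩
    have : (inhomogeneousCochains A).d n (n + 1) y = f := hy
    rwa [inhomogeneousCochains.d_def] at this
  · intro h f hf
    have hf' : (inhomogeneousCochains A).d (n + 1) (n + 2) f = 0 := hf
    rw [inhomogeneousCochains.d_def] at hf'
    obtain ⟨y, hy⟩ := h f hf'
    refine ⟨y, ?_⟩
    show (inhomogeneousCochains A).d n (n + 1) y = f
    rw [inhomogeneousCochains.d_def]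
    exact hy

theorem subsingleton_groupCohomology_succ_iff (A : Rep.{u} k G) (n : ℕ) :
    Subsingleton (groupCohomology A (n + 1)) ↔
      ∀ f : (Fin (n + 1) → G) → A, inhomogeneousCochains.d A (n + 1) f = 0 →
        ∃ y : (Fin n → G) → A, inhomogeneousCochains.d A n y = f := by
  rw [← exactAt_succ_iff, HomologicalComplex.exactAt_iff_isZero_homology,
    ModuleCat.isZero_iff_subsingleton]
  rfl

/-- naturality of the differential -/
theorem d_comp_hom {A B : Rep.{u} k G} (φ : A ⟶ B) (n : ℕ) (f : (Fin n → G) → A) :
    inhomogeneousCochains.d B n (fun g => φ.hom (f g)) =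
      fun g => φ.hom (inhomogeneousCochains.d A n f g) := by
  funext g
  rw [inhomogeneousCochains.d_hom_apply, inhomogeneousCochains.d_hom_apply, map_add, map_sum,
    Rep.hom_comm_apply]
  congr 1
  apply Finset.sum_congr rfl
  intro j _
  rw [map_smul]

section Pi

variable {ι : Type*} (A : Rep.{u} k G) (B : ι → Rep.{u} k G) (π : ∀ i, A ⟶ B i)

/-- cohomology vanishing passes to elementwise products -/
theorem subsingleton_groupCohomology_of_pi
    (hglue : ∀ b : ∀ i, B i, ∃ a : A, ∀ i, (π i).hom a = b i)
    (hinj : ∀ a : A, (∀ i, (π i).hom a = 0) → a = 0) (n : ℕ)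
    (h : ∀ i, Subsingleton (groupCohomology (B i) (n + 1))) :
    Subsingleton (groupCohomology A (n + 1)) := by
  rw [subsingleton_groupCohomology_succ_iff]
  intro f hf
  have hy : ∀ i, ∃ y : (Fin n → G) → B i,
      inhomogeneousCochains.d (B i) n y = fun g => (π i).hom (f g) := by
    intro i
    apply (subsingleton_groupCohomology_succ_iff (B i) n).1 (h i)
    rw [d_comp_hom, hf]
    funext g
    exact map_zero _
  choose y hy using hy
  choose z hz using fun g : Fin n → G => hglue (fun i => y i g)
  refine ⟨z, ?_⟩
  funext g
  rw [← sub_eq_zero]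
  apply hinj
  intro i
  rw [map_sub, sub_eq_zero]
  have h1 := congrFun (d_comp_hom (π i) n z) g
  rw [← h1]
  have h2 : (fun g => (π i).hom (z g)) = y i := by
    funext g'
    exact hz g' i
  rw [h2, hy i]

/-- elementwise products of cohomologically trivial representations are cohomologically trivial -/
theorem IsCohTrivial.of_pi
    (hglue : ∀ b : ∀ i, B i, ∃ a : A, ∀ i, (π i).hom a = b i)
    (hinj : ∀ a : A, (∀ i, (π i).hom a = 0) → a = 0)
    (h : ∀ i, IsCohTrivial (B i)) : IsCohTrivial A := by
  intro D' n
  exact subsingleton_groupCohomology_of_pi (Rep.res D'.subtype A)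
    (fun i => Rep.res D'.subtype (B i))
    (fun i => (resFunctor D'.subtype).map (π i)) hglue hinj n (fun i => h i D' n)

end Pi

/-- cohomological triviality is invariant under isomorphism -/
theorem IsCohTrivial.of_iso {A B : Rep.{u} k G} (e : A ≅ B) (h : IsCohTrivial A) :
    IsCohTrivial B := by
  intro D' n
  have := h D' n
  have e' : groupCohomology (Rep.res D'.subtype A) (n + 1) ≅
      groupCohomology (Rep.res D'.subtype B) (n + 1) :=
    (groupCohomology.functor k D' (n + 1)).mapIso ((resFunctor D'.subtype).mapIso e)
  exact e'.symm.toLinearEquiv.toEquiv.subsingleton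

end Fermat.Agent.S55lib.Dev
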