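/-
S55 sprint, block (IV-dev) "devissage", file 21: the unit modules `U_q(M)` and
`U^T(M) = ∏_{q ∉ T} U_q(M)` as representations of `Aut(M/ℚ)`; `U^T(M)` is cohomologically trivial
as soon as all `U_q(M)`, `q ∉ T`, are; the sequence `0 → U^T(M) → C(M) → 𝒞_T(M) → 0`.
-/
import Mathlib
import Fermat.Agent.S55lib.Dev.IdeleRep
import Fermat.Agent.S55lib.Dev.PiCoh
import Fermat.Agent.S55lib.Dev.DescentS

set_option autoImplicit false
set_option linter.unusedSectionVars false

noncomputable section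

namespace Fermat.Agent.S55lib.Dev

open Fermat.Agent.S55lib CategoryTheory

/-! ### Restriction of an action to a stable subgroup -/

section SubAction

variable {G A : Type*} [Group G] [CommGroup A] [MulDistribMulAction G A]

/-- the action on a stable subgroup -/
@[instance_reducible] def subMulDistribMulAction (N : Subgroup A)
    (hN : ∀ (g : G), ∀ a ∈ N, g • a ∈ N) : MulDistribMulAction G N where
  smul g a := ⟨g • a.1, hN g a.1 a.2⟩
  one_smul a := Subtype.ext (one_smul G a.1)
  mul_smul g g' a := Subtype.ext (mul_smul g g' a.1)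
  smul_mul g a b := Subtype.ext (smul_mul' g a.1 b.1)
  smul_one g := Subtype.ext (smul_one g)

end SubAction

variable (M : Type) [Field M] [Algebra ℚ M]

instance uqAction (q : ℕ) [Fact q.Prime] : MulDistribMulAction (M ≃ₐ[ℚ] M) (Uq q M) :=
  subMulDistribMulAction (Uq q M) (fun γ _ hf => smul_mem_Uq γ hf)

instance unitsOutsideAction (T : Set Nat.Primes) :
    MulDistribMulAction (M ≃ₐ[ℚ] M) (unitsOutside M T) :=
  subMulDistribMulAction (unitsOutside M T) (fun γ _ hx => smul_mem_unitsOutside γ hx)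

/-- shortcut instance -/
instance uqSMul (q : ℕ) [Fact q.Prime] : SMul (M ≃ₐ[ℚ] M) (Uq q M) := (uqAction M q).toSMul

/-- shortcut instance -/
instance unitsOutsideSMul (T : Set Nat.Primes) : SMul (M ≃ₐ[ℚ] M) (unitsOutside M T) :=
  (unitsOutsideAction M T).toSMul

variable {M}

@[simp] theorem Uq.coe_smul (q : ℕ) [Fact q.Prime] (γ : M ≃ₐ[ℚ] M) (f : Uq q M) :
    ((γ • f : Uq q M) : Jq q M) = γ • (f : Jq q M) := rfl

@[simp] theorem unitsOutside.coe_smul (T : Set Nat.Primes) (γ : M ≃ₐ[ℚ] M)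
    (x : unitsOutside M T) : ((γ • x : unitsOutside M T) : Idele M) = γ • (x : Idele M) := rfl

variable (M)

/-- `U_q(M)` as a representation of `Aut(M/ℚ)` -/
abbrev uqRep (q : Nat.Primes) : Rep ℤ (M ≃ₐ[ℚ] M) :=
  Rep.ofMulDistribMulAction (M ≃ₐ[ℚ] M) (Uq (q : ℕ) M)

/-- `U^T(M)` as a representation of `Aut(M/ℚ)` -/
abbrev unitsOutsideRep (T : Set Nat.Primes) : Rep ℤ (M ≃ₐ[ℚ] M) :=
  Rep.ofMulDistribMulAction (M ≃ₐ[ℚ] M) (unitsOutside M T)

/-- the `q`-component of a unit idele outside `T` -/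
def unitsOutsideProj (T : Set Nat.Primes) (q : Nat.Primes) (hq : q ∉ T) :
    unitsOutside M T →* Uq (q : ℕ) M where
  toFun x := ⟨x.1.1 q, x.2.1 q hq⟩
  map_one' := rfl
  map_mul' _ _ := rfl

/-- the projection `U^T(M) → U_q(M)` as a morphism of representations -/
def unitsOutsideProjRep (T : Set Nat.Primes) (q : Nat.Primes) (hq : q ∉ T) :
    unitsOutsideRep M T ⟶ uqRep M q :=
  mulRepHom (unitsOutsideProj M T q hq) (fun _ _ => rfl)

/-- a family of units glues to an element of `U^T(M)` -/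
theorem exists_unitsOutside_of_family (T : Set Nat.Primes)
    (b : ∀ q : {q : Nat.Primes // q ∉ T}, Uq ((q : Nat.Primes) : ℕ) M) :
    ∃ x : unitsOutside M T, ∀ q : {q : Nat.Primes // q ∉ T},
      unitsOutsideProj M T q.1 q.2 x = b q := by
  classical
  let x : ∀ q : Nat.Primes, Jq (q : ℕ) M := fun q =>
    if hq : q ∈ T then 1 else ((b ⟨q, hq⟩ : Uq (q : ℕ) M) : Jq (q : ℕ) M)
  have hx : ∀ q : Nat.Primes, x q ∈ Uq (q : ℕ) M := by
    intro q
    by_cases hq : q ∈ T
    · simp only [x, dif_pos hq]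
      exact (Uq (q : ℕ) M).one_mem
    · simp only [x, dif_neg hq]
      exact (b ⟨q, hq⟩).2
  have hxI : x ∈ Idele M := by
    rw [mem_Idele_iff]
    refine Set.finite_empty.subset ?_
    intro q hq
    exact hq (hx q)
  refine ⟨⟨⟨x, hxI⟩, fun q _ => hx q, fun q hq => by simp only [x, dif_pos hq]⟩, ?_⟩
  rintro ⟨q, hq⟩
  apply Subtype.ext
  show x q = _
  simp only [x, dif_neg hq]

/-- **`U^T(M)` is cohomologically trivial if all `U_q(M)`, `q ∉ T`, are.** -/
theorem isCohTrivial_unitsOutsideRep (T : Set Nat.Primes)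
    (h : ∀ q : Nat.Primes, q ∉ T → IsCohTrivial (uqRep M q)) :
    IsCohTrivial (unitsOutsideRep M T) := by
  apply IsCohTrivial.of_pi (unitsOutsideRep M T)
    (fun q : {q : Nat.Primes // q ∉ T} => uqRep M q.1)
    (fun q => unitsOutsideProjRep M T q.1 q.2)
  · intro b
    obtain ⟨x, hx⟩ := exists_unitsOutside_of_family M T (fun q => Additive.toMul (b q))
    exact ⟨Additive.ofMul x, fun q => congrArg Additive.ofMul (hx q)⟩
  · intro a ha
    have h1 : ∀ q : Nat.Primes, (Additive.toMul a : unitsOutside M T).1.1 q = 1 := by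
      intro q
      by_cases hq : q ∈ T
      · exact (Additive.toMul a : unitsOutside M T).2.2 q hq
      · have := congrArg (fun z => ((Additive.toMul z : Uq (q : ℕ) M) : Jq (q : ℕ) M)) (ha ⟨q, hq⟩)
        exact this
    have h2 : (Additive.toMul a : unitsOutside M T) = 1 := by
      apply Subtype.ext
      apply Idele.ext
      exact h1
    exact congrArg Additive.ofMul h2
  · intro q
    exact h q.1 q.2

/-! ### The sequence `0 → U^T(M) → C(M) → 𝒞_T(M) → 0` -/

section Seq

variable [Algebra.IsAlgebraic ℚ M] (T : Set Nat.Primes)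

/-- `U^T(M) → C(M)` -/
def unitsToClassGrp : unitsOutside M T →* ClassGrp M :=
  (toClassGrp M).comp (unitsOutside M T).subtype

theorem unitsToClassGrp_injective (hT : T.Nonempty) :
    Function.Injective (unitsToClassGrp M T) := by
  rw [injective_iff_map_eq_one]
  intro x hx
  have h1 : (x : Idele M) ∈ principal M := (toClassGrp_eq_one_iff M _).1 hx
  obtain ⟨v, hv⟩ := h1
  have hv1 : v = 1 := eq_one_of_diagI_mem_unitsOutside hT (by rw [hv]; exact x.2)
  apply Subtype.ext
  rw [← hv, hv1, map_one]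
  rfl

/-- the sequence `U^T(M) → C(M) → 𝒞_T(M)` -/
def unitsClassSeq : ShortComplex (Rep.{0} ℤ (M ≃ₐ[ℚ] M)) :=
  mulRepSeq (G := M ≃ₐ[ℚ] M) (A := unitsOutside M T) (B := ClassGrp M) (C := ClassGrpS M T)
    (unitsToClassGrp M T) (fun _ _ => rfl) (ClassGrp.toS M T)
    (fun γ c => ClassGrp.toS_smul T γ c)
    (fun x => by
      have : unitsToClassGrp M T x ∈ (ClassGrp.toS M T).ker := by
        rw [ClassGrp.ker_toS]
        exact ⟨x.1, x.2, rfl⟩
      exact this)

/-- `0 → U^T(M) → C(M) → 𝒞_T(M) → 0` is exact (`T` nonempty) -/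
theorem unitsClassSeq_shortExact (hT : T.Nonempty) : (unitsClassSeq M T).ShortExact := by
  unfold unitsClassSeq
  apply mulRepSeq_shortExact (G := M ≃ₐ[ℚ] M) (A := unitsOutside M T) (B := ClassGrp M)
    (C := ClassGrpS M T)
  · exact unitsToClassGrp_injective M T hT
  · exact ClassGrp.toS_surjective T
  · intro c hc
    have : c ∈ (ClassGrp.toS M T).ker := hc
    rw [ClassGrp.ker_toS] at this
    obtain ⟨x, hx, rfl⟩ := this
    exact ⟨⟨x, hx⟩, rfl⟩

end Seq

end Fermat.Agent.S55lib.Dev
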