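/-
S55 sprint, block (IV-dev) "devissage", file 22: comparison of the cohomology of `C(M)` and of the
class module `𝒞_T(M) = C(M) / U^T(M)`: if `U^T(M)` is cohomologically trivial (e.g. `M` unramified
outside `T`) then `Hⁿ(H, C(M)) → Hⁿ(H, 𝒞_T(M))` is bijective for all `n ≥ 1` and all `H → Aut(M/ℚ)`
injective.
-/
import Mathlib
import Fermat.Agent.S55lib.Dev.UnitsRep

set_option autoImplicit false
set_option linter.unusedSectionVars false

noncomputable section

namespace Fermat.Agent.S55lib.Dev

open Fermat.Agent.S55lib CategoryTheory groupCohomology Limits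

section General

universe u

variable {k G : Type u} [CommRing k] [Group G]

/-- in a short exact sequence with `Hⁿ(X₁) = Hⁿ⁺¹(X₁) = 0`, `Hⁿ(X₂) → Hⁿ(X₃)` is bijective -/
theorem bijective_map_g_of_isZero {X : ShortComplex (Rep.{u} k G)} (hX : X.ShortExact) (n : ℕ)
    (h1 : IsZero (groupCohomology X.X₁ n)) (h2 : IsZero (groupCohomology X.X₁ (n + 1))) :
    Function.Bijective ((groupCohomology.functor k G n).map X.g) := by
  constructor
  · have hex := mapShortComplex₂_exact hX n
    have hmono : Mono (mapShortComplex₂ X n).g := hex.mono_g (h1.eq_of_src _ _)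
    exact (ModuleCat.mono_iff_injective _).1 hmono
  · have hex := mapShortComplex₃_exact hX (rfl : n + 1 = n + 1)
    have hepi : Epi (mapShortComplex₃ hX (rfl : n + 1 = n + 1)).f := hex.epi_f (h2.eq_of_tgt _ _)
    exact (ModuleCat.epi_iff_surjective _).1 hepi

end General

variable (M : Type) [Field M] [Algebra ℚ M] [Algebra.IsAlgebraic ℚ M] (T : Set Nat.Primes)

/-- **`Hⁿ(H, C(M)) ≅ Hⁿ(H, 𝒞_T(M))` for `n ≥ 1`** when `U^T(M)` is cohomologically trivial. -/
theorem classToS_cohomology_bijective (hT : T.Nonempty)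
    (hU : IsCohTrivial (unitsOutsideRep M T)) {H : Type} [Group H] (ι : H →* (M ≃ₐ[ℚ] M))
    (hι : Function.Injective ι) (n : ℕ) :
    Function.Bijective ((groupCohomology.functor ℤ H (n + 1)).map
      ((Rep.resFunctor ι).map (classToSRep M T))) := by
  have hX : ((unitsClassSeq M T).map (Rep.resFunctor ι)).ShortExact :=
    (Rep.shortExact_res ι).2 (unitsClassSeq_shortExact M T hT)
  have h1 : IsZero (groupCohomology (Rep.res ι (unitsOutsideRep M T)) (n + 1)) := by
    rw [ModuleCat.isZero_iff_subsingleton]
    exact hU.of_injective ι hι n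
  have h2 : IsZero (groupCohomology (Rep.res ι (unitsOutsideRep M T)) (n + 1 + 1)) := by
    rw [ModuleCat.isZero_iff_subsingleton]
    exact hU.of_injective ι hι (n + 1)
  exact bijective_map_g_of_isZero hX (n + 1) h1 h2

end Fermat.Agent.S55lib.Dev
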