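/-
S55 sprint, block (IV-dev) "devissage", file 6: for a finite cyclic group, `H¹` and `H²` in terms of
the norm and `σ - 1` (bridge from the concrete Herbrand-quotient data of the two inequalities to
the cohomological hypotheses of the devissage).
-/
import Mathlib

set_option autoImplicit false

namespace Fermat.Agent.S55lib.Dev

open CategoryTheory groupCohomology Rep Rep.FiniteCyclicGroup

universe u

variable {k G : Type u} [CommRing k] [CommGroup G] [Fintype G] (A : Rep k G) (g : G)
  (hg : ∀ x, x ∈ Subgroup.zpowers g)

set_option backward.isDefEq.respectTransparency false in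
include hg in
theorem groupCohomologyπOdd_surjective (i : ℕ) (hi : Odd i) :
    Function.Surjective (groupCohomologyπOdd A g hg i hi) := by
  rw [← ModuleCat.epi_iff_surjective]
  unfold groupCohomologyπOdd
  have h1 : Epi ((subCompNormHom A g).homologyπ ≫ (groupCohomologyIsoOdd A g hg i hi).inv) :=
    epi_comp _ _
  exact epi_comp _ _

set_option backward.isDefEq.respectTransparency false in
include hg in
theorem groupCohomologyπEven_surjective (i : ℕ) [NeZero i] (hi : Even i) :
    Function.Surjective (groupCohomologyπEven A g hg i hi) := by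
  rw [← ModuleCat.epi_iff_surjective]
  unfold groupCohomologyπEven
  have h1 : Epi ((normHomCompSub A g).homologyπ ≫ (groupCohomologyIsoEven A g hg i hi).inv) :=
    epi_comp _ _
  exact epi_comp _ _

/-- The `k`-linear map `σ - 1` on `A`. -/
noncomputable def sigmaSubOne : A.V →ₗ[k] A.V := (applyAsHom A g - 𝟙 A).hom.toLinearMap

/-- The `k`-linear norm map on `A`. -/
noncomputable def normLin : A.V →ₗ[k] A.V := A.norm.hom.toLinearMap

omit [Fintype G] in
theorem sigmaSubOne_apply (x : A) : sigmaSubOne A g x = A.ρ g x - x := rfl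

theorem normLin_apply (x : A) : normLin A x = ∑ h : G, A.ρ h x := by
  change A.ρ.norm x = _
  simp [Representation.norm, LinearMap.sum_apply]

include hg in
/-- For a finite cyclic group, odd cohomology vanishes if `ker N ⊆ im (σ - 1)`. -/
theorem subsingleton_groupCohomology_odd (i : ℕ) (hi : Odd i)
    (h : LinearMap.ker (normLin A) ≤ LinearMap.range (sigmaSubOne A g)) :
    Subsingleton (groupCohomology A i) := by
  refine ⟨fun a b => ?_⟩
  have key : ∀ z : groupCohomology A i, z = 0 := by
    intro z
    obtain ⟨x, rfl⟩ := groupCohomologyπOdd_surjective A g hg i hi z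
    rw [groupCohomologyπOdd_eq_zero_iff]
    exact h x.2
  rw [key a, key b]

include hg in
/-- For a finite cyclic group, the order of nonzero even cohomology is `[ker (σ - 1) : im N]`. -/
theorem card_groupCohomology_even (i : ℕ) [NeZero i] (hi : Even i) :
    Nat.card (groupCohomology A i) =
      (LinearMap.range (normLin A)).toAddSubgroup.relIndex
        (LinearMap.ker (sigmaSubOne A g)).toAddSubgroup := by
  let π : (LinearMap.ker (sigmaSubOne A g)) →+ groupCohomology A i :=
    (groupCohomologyπEven A g hg i hi).hom.toAddMonoidHom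
  have hπ : Function.Surjective π := groupCohomologyπEven_surjective A g hg i hi
  have hker : π.ker = (LinearMap.range (normLin A)).toAddSubgroup.addSubgroupOf
      (LinearMap.ker (sigmaSubOne A g)).toAddSubgroup := by
    ext x
    rw [AddMonoidHom.mem_ker]
    exact groupCohomologyπEven_eq_zero_iff A g hg i hi x
  rw [← Nat.card_congr (QuotientAddGroup.quotientKerEquivOfSurjective π hπ).toEquiv, hker]
  rfl

section Wrapper

variable {C : Type u} [Group C] [Fintype C] (B : Rep k C) (c : C)
  (hc : ∀ x, x ∈ Subgroup.zpowers c)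

include hc in
/-- **Cyclic layer from norm data** (no commutativity instance needed): for a finite cyclic group
`C = ⟨c⟩` acting on `B`, if `ker N ⊆ im (c - 1)` and `[ker (c - 1) : im N]` divides `p`, then
`H¹(C, B) = 0` and `|H²(C, B)|` divides `p`. -/
theorem cyclic_layer_of_norm_data (p : ℕ)
    (h1 : LinearMap.ker (∑ h : C, B.ρ h) ≤ LinearMap.range (B.ρ c - 1))
    (h2 : (LinearMap.range (∑ h : C, B.ρ h)).toAddSubgroup.relIndex
      (LinearMap.ker (B.ρ c - 1)).toAddSubgroup ∣ p) :
    Subsingleton (groupCohomology B 1) ∧ Nat.card (groupCohomology B 2) ∣ p := by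
  have : IsCyclic C := ⟨⟨c, hc⟩⟩
  let _ : CommGroup C := IsCyclic.commGroup
  have e1 : normLin B = ∑ h : C, B.ρ h := by
    ext x
    rw [normLin_apply, LinearMap.sum_apply]
  have e2 : sigmaSubOne B c = B.ρ c - 1 := by
    ext x
    rw [sigmaSubOne_apply]
    rfl
  refine ⟨subsingleton_groupCohomology_odd B c hc 1 (by decide) ?_, ?_⟩
  · rw [e1, e2]
    exact h1
  · rw [card_groupCohomology_even B c hc 2 (by decide), e1, e2]
    exact h2

include hc in
/-- **Cyclic layer from the two inequalities**: with `a = [ker (c - 1) : im N]` (order of `Ĥ⁰`)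
and `b = [ker N : im (c - 1)]` (order of `Ĥ⁻¹`), if `a = p * b` (first inequality)
and `a ∣ p` (second inequality), then `H¹(C, B) = 0` and `|H²(C, B)|` divides `p`. -/
theorem cyclic_layer_of_inequalities (p : ℕ) (hp : p ≠ 0)
    (hfirst : (LinearMap.range (∑ h : C, B.ρ h)).toAddSubgroup.relIndex
        (LinearMap.ker (B.ρ c - 1)).toAddSubgroup =
      p * (LinearMap.range (B.ρ c - 1)).toAddSubgroup.relIndex
        (LinearMap.ker (∑ h : C, B.ρ h)).toAddSubgroup)
    (hsecond : (LinearMap.range (∑ h : C, B.ρ h)).toAddSubgroup.relIndex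
        (LinearMap.ker (B.ρ c - 1)).toAddSubgroup ∣ p) :
    Subsingleton (groupCohomology B 1) ∧ Nat.card (groupCohomology B 2) ∣ p := by
  refine cyclic_layer_of_norm_data B c hc p ?_ hsecond
  set b := (LinearMap.range (B.ρ c - 1)).toAddSubgroup.relIndex
        (LinearMap.ker (∑ h : C, B.ρ h)).toAddSubgroup with hb
  have hb1 : b = 1 := by
    rw [hfirst] at hsecond
    have : p * b ∣ p * 1 := by rwa [mul_one]
    have := (Nat.mul_dvd_mul_iff_left (Nat.pos_of_ne_zero hp)).1 this
    exact Nat.dvd_one.1 this
  exact AddSubgroup.relIndex_eq_one.1 hb1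

end Wrapper

end Fermat.Agent.S55lib.Dev
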