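/-
S55 sprint, block (IV-dev) "devissage", file 15: the multiplicative form of the two inequalities.
For a finite cyclic group `C = ⟨c⟩` of order `p` acting (through `f : C →* G`) on a multiplicative
module `A`, the indices `[ker (c - 1) : im N]` and `[ker N : im (c - 1)]` of the representation
`Rep.res f (Rep.ofMulDistribMulAction G A)` are the indices of the homomorphisms
`difHom S : x ↦ S x / x` and `nrmHom p S : x ↦ ∏_{i<p} S^i x`, `S = f c • ·`.
-/
import Mathlib
import Fermat.Agent.S55lib.Dev.CyclicBridge

set_option autoImplicit false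
set_option linter.unusedSectionVars false

noncomputable section

namespace Fermat.Agent.S55lib.Dev

section Ops

variable {A : Type*} [CommGroup A]

/-- `x ↦ S x / x` -/
def difHom (S : A →* A) : A →* A where
  toFun x := S x / x
  map_one' := by rw [map_one, div_one]
  map_mul' x y := by rw [map_mul, mul_div_mul_comm]

@[simp] theorem difHom_apply (S : A →* A) (x : A) : difHom S x = S x / x := rfl

/-- `x ↦ ∏_{i<p} S^i x` -/
def nrmHom (p : ℕ) (S : A →* A) : A →* A where
  toFun x := ∏ i ∈ Finset.range p, (S^[i]) x
  map_one' := by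
    apply Finset.prod_eq_one
    intro i _
    exact iterate_map_one S i
  map_mul' x y := by
    rw [← Finset.prod_mul_distrib]
    apply Finset.prod_congr rfl
    intro i _
    exact iterate_map_mul S i x y

theorem nrmHom_apply (p : ℕ) (S : A →* A) (x : A) :
    nrmHom p S x = ∏ i ∈ Finset.range p, (S^[i]) x := rfl

variable {G : Type*} [Group G] [MulDistribMulAction G A]

/-- the action of `g` as an endomorphism -/
def actHom (g : G) : A →* A := MulDistribMulAction.toMonoidHom A g

@[simp] theorem actHom_apply (g : G) (x : A) : actHom g x = g • x := rfl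

theorem actHom_iterate (g : G) (i : ℕ) (x : A) : ((actHom g : A →* A)^[i]) x = g ^ i • x := by
  induction i generalizing x with
  | zero => simp
  | succ i ih => rw [Function.iterate_succ_apply, ih, actHom_apply, pow_succ, mul_smul]

end Ops

section Bridge

variable {C G A : Type} [Group C] [Fintype C] [Group G] [CommGroup A] [MulDistribMulAction G A]
  (f : C →* G) (c : C) (hc : ∀ x, x ∈ Subgroup.zpowers c)

/-- the `C`-module `A` -/
abbrev resMulRep : Rep ℤ C := Rep.res f (Rep.ofMulDistribMulAction G A)

/-- an element of `A` as an element of the representation -/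
def toV (x : A) : (resMulRep (A := A) f).V := Additive.ofMul x

/-- an element of the representation as an element of `A` -/
def ofV (a : (resMulRep (A := A) f).V) : A := Additive.toMul (show Additive A from a)

@[simp] theorem toV_ofV (a : (resMulRep (A := A) f).V) : toV f (ofV f a) = a := rfl

@[simp] theorem ofV_toV (x : A) : ofV f (toV f x) = x := rfl

theorem ofV_zero : ofV (A := A) f 0 = 1 := rfl

theorem toV_one : toV (A := A) f 1 = 0 := rfl

theorem ofV_injective : Function.Injective (ofV (A := A) f) := fun _ _ h => h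

theorem resMulRep_ρ_apply (h : C) (a : (resMulRep (A := A) f).V) :
    (resMulRep (A := A) f).ρ h a = toV f (f h • ofV f a) := rfl

theorem relIndex_eq_of_eq_toAddSubgroup (X Y : AddSubgroup (resMulRep (A := A) f).V)
    (X' Y' : Subgroup A) (hX : X = Subgroup.toAddSubgroup X') (hY : Y = Subgroup.toAddSubgroup Y') :
    X.relIndex Y = X'.relIndex Y' := by
  subst hX hY
  exact Subgroup.relIndex_toAddSubgroup

theorem relIndex_eq_of_mem_iff (X Y : AddSubgroup (resMulRep (A := A) f).V)
    (X' Y' : Subgroup A) (hX : ∀ a, a ∈ X ↔ ofV f a ∈ X') (hY : ∀ a, a ∈ Y ↔ ofV f a ∈ Y') :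
    X.relIndex Y = X'.relIndex Y' := by
  apply relIndex_eq_of_eq_toAddSubgroup
  · ext a
    exact hX a
  · ext a
    exact hY a

theorem sub_one_apply_eq (a : (resMulRep (A := A) f).V) :
    ((resMulRep (A := A) f).ρ c - 1) a = toV f (difHom (actHom (f c) : A →* A) (ofV f a)) := rfl

include hc in
theorem sum_apply_eq (a : (resMulRep (A := A) f).V) :
    (∑ h : C, (resMulRep (A := A) f).ρ h) a =
      toV f (nrmHom (Nat.card C) (actHom (f c) : A →* A) (ofV f a)) := by
  classical
  rw [LinearMap.sum_apply]
  have himg := IsCyclic.image_range_orderOf hc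
  have hord : orderOf c = Nat.card C := orderOf_eq_card_of_forall_mem_zpowers hc
  have h1 : (∑ h : C, (resMulRep (A := A) f).ρ h a) =
      ∑ i ∈ Finset.range (orderOf c), (resMulRep (A := A) f).ρ (c ^ i) a := by
    rw [← himg, Finset.sum_image]
    intro i hi j hj hij
    exact pow_injOn_Iio_orderOf (by simpa using hi) (by simpa using hj) hij
  rw [h1, hord, nrmHom_apply]
  change (∑ i ∈ Finset.range (Nat.card C), Additive.ofMul (f (c ^ i) • ofV f a) : Additive A) =
    Additive.ofMul (∏ i ∈ Finset.range (Nat.card C), ((actHom (f c) : A →* A)^[i]) (ofV f a))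
  rw [ofMul_prod]
  apply Finset.sum_congr rfl
  intro i _
  rw [actHom_iterate, map_pow]

include hc in
theorem mem_range_sum_iff (a : (resMulRep (A := A) f).V) :
    a ∈ (LinearMap.range (∑ h : C, (resMulRep (A := A) f).ρ h)).toAddSubgroup ↔
      ofV f a ∈ (nrmHom (Nat.card C) (actHom (f c) : A →* A)).range := by
  constructor
  · rintro ⟨y, rfl⟩
    exact ⟨ofV f y, (congrArg (ofV f) (sum_apply_eq f c hc y)).symm⟩
  · rintro ⟨y, hy⟩
    refine ⟨toV f y, ?_⟩
    rw [sum_apply_eq f c hc, ofV_toV, hy, toV_ofV]

include hc in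
theorem mem_ker_sum_iff (a : (resMulRep (A := A) f).V) :
    a ∈ (LinearMap.ker (∑ h : C, (resMulRep (A := A) f).ρ h)).toAddSubgroup ↔
      ofV f a ∈ (nrmHom (Nat.card C) (actHom (f c) : A →* A)).ker := by
  constructor
  · intro hx
    have h1 : (∑ h : C, (resMulRep (A := A) f).ρ h) a = 0 := hx
    rw [sum_apply_eq f c hc a] at h1
    exact congrArg (ofV f) h1
  · intro hx
    have h1 : nrmHom (Nat.card C) (actHom (f c) : A →* A) (ofV f a) = 1 := hx
    show (∑ h : C, (resMulRep (A := A) f).ρ h) a = 0
    rw [sum_apply_eq f c hc a, h1]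
    rfl

theorem mem_range_sub_one_iff (a : (resMulRep (A := A) f).V) :
    a ∈ (LinearMap.range ((resMulRep (A := A) f).ρ c - 1)).toAddSubgroup ↔
      ofV f a ∈ (difHom (actHom (f c) : A →* A)).range := by
  constructor
  · rintro ⟨y, rfl⟩
    exact ⟨ofV f y, rfl⟩
  · rintro ⟨y, hy⟩
    exact ⟨toV f y, congrArg (toV f) hy⟩

theorem mem_ker_sub_one_iff (a : (resMulRep (A := A) f).V) :
    a ∈ (LinearMap.ker ((resMulRep (A := A) f).ρ c - 1)).toAddSubgroup ↔
      ofV f a ∈ (difHom (actHom (f c) : A →* A)).ker := Iff.rfl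

include hc in
/-- the order of `Ĥ⁰` in multiplicative terms -/
theorem relIndex_range_sum_ker_sub_one :
    (LinearMap.range (∑ h : C, (resMulRep (A := A) f).ρ h)).toAddSubgroup.relIndex
        (LinearMap.ker ((resMulRep (A := A) f).ρ c - 1)).toAddSubgroup =
      (nrmHom (Nat.card C) (actHom (f c) : A →* A)).range.relIndex
        (difHom (actHom (f c) : A →* A)).ker := by
  exact relIndex_eq_of_mem_iff f _ _ _ _ (mem_range_sum_iff f c hc) (mem_ker_sub_one_iff f c)

include hc in
/-- the order of `Ĥ⁻¹` in multiplicative terms -/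
theorem relIndex_range_sub_one_ker_sum :
    (LinearMap.range ((resMulRep (A := A) f).ρ c - 1)).toAddSubgroup.relIndex
        (LinearMap.ker (∑ h : C, (resMulRep (A := A) f).ρ h)).toAddSubgroup =
      (difHom (actHom (f c) : A →* A)).range.relIndex
        (nrmHom (Nat.card C) (actHom (f c) : A →* A)).ker := by
  exact relIndex_eq_of_mem_iff f _ _ _ _ (mem_range_sub_one_iff f c) (mem_ker_sum_iff f c hc)

include hc in
/-- **Cyclic layer from the two inequalities, multiplicative form.** -/
theorem cyclic_layer_of_mul_inequalities (p : ℕ) (hp : p ≠ 0) (hcard : Nat.card C = p)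
    (hfirst : (nrmHom p (actHom (f c) : A →* A)).range.relIndex
        (difHom (actHom (f c) : A →* A)).ker =
      p * (difHom (actHom (f c) : A →* A)).range.relIndex (nrmHom p (actHom (f c) : A →* A)).ker)
    (hsecond : (nrmHom p (actHom (f c) : A →* A)).range.relIndex
        (difHom (actHom (f c) : A →* A)).ker ∣ p) :
    Subsingleton (groupCohomology (resMulRep (A := A) f) 1) ∧
      Nat.card (groupCohomology (resMulRep (A := A) f) 2) ∣ p := by
  subst hcard
  apply cyclic_layer_of_inequalities (resMulRep (A := A) f) c hc (Nat.card C) hp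
  · rw [relIndex_range_sum_ker_sub_one f c hc, relIndex_range_sub_one_ker_sum f c hc]
    exact hfirst
  · rw [relIndex_range_sum_ker_sub_one f c hc]
    exact hsecond

end Bridge

end Fermat.Agent.S55lib.Dev
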