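/-
S55 sprint, block (IV-dev) "devissage", file 24: cohomological triviality over a finite cyclic
group from the two elementwise facts "`ker N = im (c - 1)`" and "`ker (c - 1) = im N`" for every
cyclic subgroup `⟨c⟩` (multiplicative form).
-/
import Mathlib
import Fermat.Agent.S55lib.Dev.MulBridge
import Fermat.Agent.S55lib.Dev.CohTriv

set_option autoImplicit false
set_option linter.unusedSectionVars false

noncomputable section

namespace Fermat.Agent.S55lib.Dev

open CategoryTheory groupCohomology Rep

section Wrapper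

universe u

variable {k C : Type u} [CommRing k] [Group C] [Fintype C] (B : Rep k C) (c : C)
  (hc : ∀ x, x ∈ Subgroup.zpowers c)

include hc in
/-- all positive-degree cohomology of a finite cyclic group vanishes if `ker N = im (c - 1)` and
`ker (c - 1) = im N` -/
theorem subsingleton_groupCohomology_of_cyclic
    (h1 : LinearMap.ker (∑ h : C, B.ρ h) ≤ LinearMap.range (B.ρ c - 1))
    (h2 : LinearMap.ker (B.ρ c - 1) ≤ LinearMap.range (∑ h : C, B.ρ h)) (n : ℕ) :
    Subsingleton (groupCohomology B (n + 1)) := by
  have : IsCyclic C := ⟨⟨c, hc⟩⟩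
  let _ : CommGroup C := IsCyclic.commGroup
  have e1 : normLin B = ∑ h : C, B.ρ h := by
    ext x
    rw [normLin_apply, LinearMap.sum_apply]
  have e2 : sigmaSubOne B c = B.ρ c - 1 := by
    ext x
    rw [sigmaSubOne_apply]
    rfl
  rcases Nat.even_or_odd (n + 1) with he | ho
  · have hcard := card_groupCohomology_even B c hc (n + 1) he
    rw [e1, e2] at hcard
    have hle : (LinearMap.ker (B.ρ c - 1)).toAddSubgroup ≤
        (LinearMap.range (∑ h : C, B.ρ h)).toAddSubgroup := h2
    rw [AddSubgroup.relIndex_eq_one.2 hle] at hcard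
    exact (Nat.card_eq_one_iff_unique.1 hcard).1
  · apply subsingleton_groupCohomology_odd B c hc (n + 1) ho
    rw [e1, e2]
    exact h1

end Wrapper

section Mul

variable {G A : Type} [Group G] [Finite G] [IsCyclic G] [CommGroup A] [MulDistribMulAction G A]

/-- **Cohomological triviality over a finite cyclic group, multiplicative elementwise form**:
if for every `c : G` (i) `∏_{i < ord c} cⁱ u = 1 ⇒ u = c w / w` and (ii) `c u = u ⇒ u = ∏ cⁱ w`,
then `A` is cohomologically trivial. -/
theorem isCohTrivial_of_cyclic_mul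
    (h1 : ∀ (c : G) (u : A), (∏ i ∈ Finset.range (orderOf c), c ^ i • u) = 1 →
      ∃ w : A, u = c • w / w)
    (h2 : ∀ (c : G) (u : A), c • u = u →
      ∃ w : A, u = ∏ i ∈ Finset.range (orderOf c), c ^ i • w) :
    IsCohTrivial (Rep.ofMulDistribMulAction G A) := by
  intro D' n
  have : Fintype D' := Fintype.ofFinite D'
  obtain ⟨c, hc⟩ := IsCyclic.exists_generator (α := D')
  have hord : Nat.card D' = orderOf (c : G) := by
    rw [← orderOf_eq_card_of_forall_mem_zpowers hc, Subgroup.orderOf_coe]
  have hnrm : ∀ x : A, nrmHom (Nat.card D') (actHom (D'.subtype c) : A →* A) x =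
      ∏ i ∈ Finset.range (orderOf (c : G)), (c : G) ^ i • x := by
    intro x
    rw [nrmHom_apply, hord]
    apply Finset.prod_congr rfl
    intro i _
    rw [actHom_iterate]
    rfl
  apply subsingleton_groupCohomology_of_cyclic (resMulRep (A := A) D'.subtype) c hc
  · intro a ha
    have ha' : a ∈ (LinearMap.ker (∑ h : D', (resMulRep (A := A) D'.subtype).ρ h)).toAddSubgroup :=
      ha
    rw [mem_ker_sum_iff D'.subtype c hc] at ha'
    have ha'' : nrmHom (Nat.card D') (actHom (D'.subtype c) : A →* A) (ofV D'.subtype a) = 1 := ha'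
    rw [hnrm] at ha''
    obtain ⟨w, hw⟩ := h1 (c : G) _ ha''
    have : a ∈ (LinearMap.range ((resMulRep (A := A) D'.subtype).ρ c - 1)).toAddSubgroup := by
      rw [mem_range_sub_one_iff D'.subtype c]
      exact ⟨w, hw.symm⟩
    exact this
  · intro a ha
    have ha' : a ∈ (LinearMap.ker ((resMulRep (A := A) D'.subtype).ρ c - 1)).toAddSubgroup := ha
    rw [mem_ker_sub_one_iff D'.subtype c] at ha'
    have ha'' : difHom (actHom (D'.subtype c) : A →* A) (ofV D'.subtype a) = 1 := ha'
    rw [difHom_apply, div_eq_one] at ha''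
    obtain ⟨w, hw⟩ := h2 (c : G) _ ha''
    have : a ∈ (LinearMap.range (∑ h : D', (resMulRep (A := A) D'.subtype).ρ h)).toAddSubgroup := by
      rw [mem_range_sum_iff D'.subtype c hc]
      refine ⟨w, ?_⟩
      rw [hnrm]
      exact hw.symm
    exact this

end Mul

end Fermat.Agent.S55lib.Dev
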