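/-
S55 sprint, block (IV-dev) "devissage", file 3: restriction to a subgroup of finite index is
injective up to the index.  No corestriction is needed: we use the unit
`A ⟶ Coind_S^G (Res_S A)` of the restriction-coinduction adjunction, the trace
`Coind_S^G (Res_S A) ⟶ A`, whose composite is multiplication by `[G : S]`, and Shapiro's lemma.
-/
import Mathlib

set_option autoImplicit false

namespace Fermat.Agent.S55lib.Dev

open CategoryTheory groupCohomology Rep

universe u

variable {k G : Type u} [CommRing k] [Group G] (A : Rep.{u} k G) (S : Subgroup G)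

/-- The unit `A ⟶ Coind_S^G (Res_S A)`, `a ↦ (g ↦ g • a)`. -/
noncomputable def coindUnit : A ⟶ coind S.subtype (res S.subtype A) :=
  resCoindToHom S.subtype A (res S.subtype A) (𝟙 _)

theorem coindUnit_apply (a : A) (g : G) : ((coindUnit A S).hom a).1 g = A.ρ g a := rfl

section Trace

variable [Fintype (G ⧸ S)]

/-- The `k`-linear trace `Coind_S^G (Res_S A) → A`, `f ↦ ∑_{x ∈ G/S} x • f (x⁻¹)`. -/
noncomputable def coindTraceLin : (coind S.subtype (res S.subtype A)).V →ₗ[k] A.V :=
  ∑ x : G ⧸ S, (A.ρ x.out) ∘ₗ (LinearMap.proj (R := k) (φ := fun _ : G => A.V) x.out⁻¹) ∘ₗ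
    (Representation.coindV S.subtype (res S.subtype A).ρ).subtype

theorem coindTraceLin_apply (f : (coind S.subtype (res S.subtype A)).V) :
    coindTraceLin A S f = ∑ x : G ⧸ S, A.ρ x.out (f.1 x.out⁻¹) := by
  simp [coindTraceLin, LinearMap.sum_apply]

omit [Fintype (G ⧸ S)] in
/-- The summand of the trace only depends on the coset. -/
theorem coind_term_mk (f : (coind S.subtype (res S.subtype A)).V) (g : G) :
    A.ρ (QuotientGroup.mk g : G ⧸ S).out (f.1 (QuotientGroup.mk g : G ⧸ S).out⁻¹) =
      A.ρ g (f.1 g⁻¹) := by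
  obtain ⟨s, hs⟩ := QuotientGroup.mk_out_eq_mul S g
  rw [hs, mul_inv_rev]
  have := f.2 s⁻¹ g⁻¹
  simp only [Subgroup.coe_subtype, Subgroup.coe_inv] at this
  rw [this]
  change A.ρ (g * s) (A.ρ ((s : G)⁻¹) (f.1 g⁻¹)) = _
  rw [← Module.End.mul_apply, ← map_mul, mul_assoc, mul_inv_cancel, mul_one]

theorem coindTraceLin_smul (h : G) (f : (coind S.subtype (res S.subtype A)).V) :
    coindTraceLin A S ((coind S.subtype (res S.subtype A)).ρ h f) =
      A.ρ h (coindTraceLin A S f) := by
  rw [coindTraceLin_apply, coindTraceLin_apply, map_sum]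
  -- reindex by `x ↦ h⁻¹ • x`
  rw [← Equiv.sum_comp (MulAction.toPerm (h : G) : (G ⧸ S) ≃ (G ⧸ S))]
  refine Finset.sum_congr rfl fun x _ => ?_
  induction x using QuotientGroup.induction_on with | @H g =>
  have e1 : (MulAction.toPerm h : (G ⧸ S) ≃ (G ⧸ S)) (g : G ⧸ S) = ((h * g : G) : G ⧸ S) := rfl
  rw [e1, coind_term_mk, coind_term_mk]
  change A.ρ (h * g) (f.1 ((h * g)⁻¹ * h)) = _
  rw [mul_inv_rev, inv_mul_cancel_right, map_mul, Module.End.mul_apply]

/-- The trace `Coind_S^G (Res_S A) ⟶ A` as a morphism of representations. -/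
noncomputable def coindTrace : coind S.subtype (res S.subtype A) ⟶ A :=
  Rep.ofHom ⟨coindTraceLin A S, fun h => by
    ext f
    exact coindTraceLin_smul A S h f⟩

theorem coindUnit_coindTrace_apply (a : A) :
    (coindTrace A S).hom ((coindUnit A S).hom a) = (Nat.card (G ⧸ S)) • a := by
  change coindTraceLin A S ((coindUnit A S).hom a) = _
  rw [coindTraceLin_apply]
  have : ∀ x : G ⧸ S, A.ρ x.out (((coindUnit A S).hom a).1 x.out⁻¹) = a := by
    intro x
    rw [coindUnit_apply, ← Module.End.mul_apply, ← map_mul, mul_inv_cancel, map_one,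
      Module.End.one_apply]
  rw [Finset.sum_congr rfl fun x _ => this x, Finset.sum_const, Finset.card_univ,
    Nat.card_eq_fintype_card]

theorem coindUnit_comp_coindTrace :
    coindUnit A S ≫ coindTrace A S = (Nat.card (G ⧸ S)) • 𝟙 A := by
  ext a
  have := coindUnit_coindTrace_apply A S a
  rw [Rep.nsmul_hom]
  exact this

omit [Fintype (G ⧸ S)] in
theorem map_id_nsmul_id (n m : ℕ) :
    groupCohomology.map (MonoidHom.id G) (m • 𝟙 A) n = m • 𝟙 (groupCohomology A n) := by
  change (cochainsFunctor k G ⋙ HomologicalComplex.homologyFunctor (ModuleCat k) _ n).map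
    (m • 𝟙 A) = _
  rw [Functor.map_nsmul, CategoryTheory.Functor.map_id]
  rfl

/-- On cohomology, `A ⟶ Coind_S^G (Res_S A) ⟶ A` is multiplication by the index. -/
theorem map_coindUnit_coindTrace (n : ℕ) (x : groupCohomology A n) :
    (groupCohomology.map (MonoidHom.id G) (coindTrace A S) n).hom
      ((groupCohomology.map (MonoidHom.id G) (coindUnit A S) n).hom x) =
      (Nat.card (G ⧸ S)) • x := by
  have h : (groupCohomology.functor k G n).map (coindUnit A S ≫ coindTrace A S) =
      (Nat.card (G ⧸ S)) • 𝟙 (groupCohomology A n) := by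
    rw [coindUnit_comp_coindTrace]
    exact map_id_nsmul_id A n _
  rw [CategoryTheory.Functor.map_comp] at h
  have := congrArg (fun f => f.hom x) h
  simp only [ModuleCat.hom_comp] at this
  exact this

end Trace

/-- The "restriction" `Hⁿ(G, A) → Hⁿ(S, A)`, defined through Shapiro's lemma. -/
noncomputable def shapiroRes (n : ℕ) :
    groupCohomology A n →ₗ[k] groupCohomology (res S.subtype A) n :=
  (groupCohomology.coindIso (res S.subtype A) n).hom.hom ∘ₗ
    (groupCohomology.map (MonoidHom.id G) (coindUnit A S) n).hom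

/-- The kernel of the restriction to `S` is killed by the index of `S`. -/
theorem index_nsmul_eq_zero_of_shapiroRes_eq_zero [S.FiniteIndex] (n : ℕ)
    (x : groupCohomology A n) (hx : shapiroRes A S n x = 0) : S.index • x = 0 := by
  have : Finite (G ⧸ S) := Subgroup.finite_quotient_of_finiteIndex
  have := Fintype.ofFinite (G ⧸ S)
  rw [Subgroup.index_eq_card, ← map_coindUnit_coindTrace A S n x]
  have : (groupCohomology.map (MonoidHom.id G) (coindUnit A S) n).hom x = 0 := by
    have hinj : Function.Injective (groupCohomology.coindIso (res S.subtype A) n).hom.hom :=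
      (ConcreteCategory.bijective_of_isIso (groupCohomology.coindIso (res S.subtype A) n).hom).1
    apply hinj
    rw [map_zero]
    exact hx
  rw [this, map_zero]


end Fermat.Agent.S55lib.Dev
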