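/-
S55 sprint, block (IV-dev) "devissage", file 4: reduction of cohomological vanishing / order
bounds for a finite group to its Sylow subgroups.
-/
import Mathlib
import Fermat.Agent.S55lib.Dev.Transfer

set_option autoImplicit false

namespace Fermat.Agent.S55lib.Dev

open CategoryTheory groupCohomology Rep

universe u

variable {k G : Type u} [CommRing k] [Group G] [Finite G] (A : Rep.{u} k G)

/-- If `x ∈ Hⁿ(G, A)` restricts to zero on a Sylow `p`-subgroup for every prime `p` in a set
containing all prime factors of `|G|` and at least one prime, then `x = 0`. -/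
theorem eq_zero_of_shapiroRes_sylow_eq_zero (n : ℕ) (P : ∀ p : ℕ, Sylow p G)
    (T : Set ℕ) (hT : ∀ p : ℕ, p.Prime → p ∣ Nat.card G → p ∈ T) (hne : ∃ p ∈ T, p.Prime)
    (x : groupCohomology A n)
    (hx : ∀ p ∈ T, p.Prime → shapiroRes A (P p).1 n x = 0) : x = 0 := by
  classical
  have hkill : ∀ p ∈ T, p.Prime → ((P p).1.index) • x = 0 := fun p hpT hp =>
    index_nsmul_eq_zero_of_shapiroRes_eq_zero A (P p).1 n x (hx p hpT hp)
  have hdvd : ∀ p ∈ T, p.Prime → addOrderOf x ∣ (P p).1.index := fun p hpT hp =>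
    addOrderOf_dvd_of_nsmul_eq_zero (hkill p hpT hp)
  by_contra hne'
  have h1 : addOrderOf x ≠ 1 := fun h => hne' (AddMonoid.addOrderOf_eq_one_iff.1 h)
  obtain ⟨q, hq, hqd⟩ := Nat.exists_prime_and_dvd h1
  obtain ⟨p₀, hp₀T, hp₀⟩ := hne
  have hqG : q ∣ Nat.card G :=
    (hqd.trans (hdvd p₀ hp₀T hp₀)).trans (Subgroup.index_dvd_card _)
  have : Fact q.Prime := ⟨hq⟩
  exact (P q).not_dvd_index (hqd.trans (hdvd q (hT q hq hqG) hq))

/-- `p`-primary injectivity of the restriction to a Sylow `p`-subgroup. -/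
theorem eq_zero_of_shapiroRes_eq_zero_of_pow_nsmul (p : ℕ) [hp : Fact p.Prime] (P : Sylow p G)
    (n m : ℕ) (x : groupCohomology A n) (hx : shapiroRes A P.1 n x = 0)
    (hm : p ^ m • x = 0) : x = 0 := by
  have h1 : addOrderOf x ∣ P.1.index :=
    addOrderOf_dvd_of_nsmul_eq_zero (index_nsmul_eq_zero_of_shapiroRes_eq_zero A P.1 n x hx)
  have h2 : addOrderOf x ∣ p ^ m := addOrderOf_dvd_of_nsmul_eq_zero hm
  have hcop : Nat.Coprime (P.1.index) (p ^ m) :=
    Nat.Coprime.pow_right m ((Nat.Prime.coprime_iff_not_dvd hp.out).2 P.not_dvd_index).symm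
  have h3 : addOrderOf x = 1 := Nat.eq_one_of_dvd_coprimes hcop h1 h2
  exact AddMonoid.addOrderOf_eq_one_iff.1 h3

/-- The `p`-primary torsion subgroup of an additive commutative group. -/
def pPrimary (p : ℕ) (X : Type*) [AddCommGroup X] : AddSubgroup X where
  carrier := {x | ∃ m : ℕ, p ^ m • x = 0}
  zero_mem' := ⟨0, by simp⟩
  add_mem' := by
    rintro x y ⟨a, ha⟩ ⟨b, hb⟩
    refine ⟨a + b, ?_⟩
    have e1 : p ^ (a + b) • x = p ^ b • (p ^ a • x) := by rw [← mul_smul, pow_add, mul_comm]
    have e2 : p ^ (a + b) • y = p ^ a • (p ^ b • y) := by rw [← mul_smul, pow_add]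
    rw [smul_add, e1, e2, ha, hb, smul_zero, smul_zero, add_zero]
  neg_mem' := by
    rintro x ⟨a, ha⟩
    exact ⟨a, by rw [smul_neg, ha, neg_zero]⟩

theorem mem_pPrimary {p : ℕ} {X : Type*} [AddCommGroup X] {x : X} :
    x ∈ pPrimary p X ↔ ∃ m : ℕ, p ^ m • x = 0 := Iff.rfl

/-- **Sylow step, `p`-primary order bound.** -/
theorem card_pPrimary_dvd_of_sylow (p : ℕ) [hp : Fact p.Prime] (P : Sylow p G) (n : ℕ) :
    Nat.card (pPrimary p (groupCohomology A n)) ∣
      Nat.card (groupCohomology (res P.1.subtype A) n) := by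
  refine AddSubgroup.card_dvd_of_injective
    ((shapiroRes A P.1 n).toAddMonoidHom.comp (pPrimary p (groupCohomology A n)).subtype) ?_
  rw [injective_iff_map_eq_zero]
  rintro ⟨x, m, hm⟩ hx
  exact Subtype.ext (eq_zero_of_shapiroRes_eq_zero_of_pow_nsmul A p P n m x hx hm)

/-- **Sylow step, vanishing.** If `Hⁿ(P, A) = 0` for one Sylow `p`-subgroup `P` for every prime `p`,
then `Hⁿ(G, A) = 0`. -/
theorem subsingleton_of_sylow (n : ℕ)
    (h : ∀ p : ℕ, p.Prime → ∃ P : Sylow p G,
      Subsingleton (groupCohomology (res P.1.subtype A) n)) :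
    Subsingleton (groupCohomology A n) := by
  classical
  have h' : ∀ p : ℕ, ∃ P : Sylow p G, p.Prime →
      Subsingleton (groupCohomology (res P.1.subtype A) n) := by
    intro p
    by_cases hp : p.Prime
    · obtain ⟨P, hP⟩ := h p hp
      exact ⟨P, fun _ => hP⟩
    · exact ⟨default, fun h => absurd h hp⟩
  choose P hP using h'
  refine ⟨fun x y => ?_⟩
  have key : ∀ z : groupCohomology A n, z = 0 := fun z =>
    eq_zero_of_shapiroRes_sylow_eq_zero A n P Set.univ (fun _ _ _ => Set.mem_univ _)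
      ⟨2, Set.mem_univ _, Nat.prime_two⟩ z
      (fun p _ hp => by have := hP p hp; exact Subsingleton.elim _ _)
  rw [key x, key y]

/-- **Sylow step, order bound.** If `|Hⁿ(P, A)|` divides `|P|` for one Sylow `p`-subgroup `P` for
every prime `p`, then `|Hⁿ(G, A)|` divides `|G|`. -/
theorem card_dvd_of_sylow (n : ℕ)
    (h : ∀ p : ℕ, p.Prime → ∃ P : Sylow p G,
      Nat.card (groupCohomology (res P.1.subtype A) n) ∣ Nat.card P) :
    Nat.card (groupCohomology A n) ∣ Nat.card G := by
  classical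
  have h' : ∀ p : ℕ, ∃ P : Sylow p G, p.Prime →
      Nat.card (groupCohomology (res P.1.subtype A) n) ∣ Nat.card P := by
    intro p
    by_cases hp : p.Prime
    · obtain ⟨P, hP⟩ := h p hp
      exact ⟨P, fun _ => hP⟩
    · exact ⟨default, fun h => absurd h hp⟩
  choose P hP using h'
  set T : Finset ℕ := insert 2 (Nat.card G).primeFactors with hTdef
  have hTprime : ∀ p ∈ T, p.Prime := by
    intro p hp
    rcases Finset.mem_insert.1 hp with rfl | hp
    · exact Nat.prime_two
    · exact Nat.prime_of_mem_primeFactors hp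
  have hcard_ne : Nat.card G ≠ 0 := Nat.card_pos.ne'
  -- the product of the restriction maps
  let r : groupCohomology A n →ₗ[k]
      (∀ p : T, groupCohomology (res (P p.1).1.subtype A) n) :=
    LinearMap.pi fun p => shapiroRes A (P p.1).1 n
  have hr : Function.Injective r := by
    rw [← LinearMap.ker_eq_bot, LinearMap.ker_eq_bot']
    intro x hx
    refine eq_zero_of_shapiroRes_sylow_eq_zero A n P (T : Set ℕ) ?_ ?_ x ?_
    · intro p hp hpd
      exact Finset.mem_coe.2 (Finset.mem_insert_of_mem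
        (Nat.mem_primeFactors.2 ⟨hp, hpd, hcard_ne⟩))
    · exact ⟨2, Finset.mem_coe.2 (Finset.mem_insert_self _ _), Nat.prime_two⟩
    · intro p hpT _
      exact congrFun hx ⟨p, Finset.mem_coe.1 hpT⟩
  have hfin : ∀ p : T, Finite (groupCohomology (res (P p.1).1.subtype A) n) := by
    intro p
    apply Nat.finite_of_card_ne_zero
    intro h0
    have := hP p.1 (hTprime p.1 p.2)
    rw [h0, zero_dvd_iff] at this
    exact Nat.card_pos.ne' this
  have hfinPi : Finite (∀ p : T, groupCohomology (res (P p.1).1.subtype A) n) := inferInstance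
  have hd1 : Nat.card (groupCohomology A n) ∣
      Nat.card (∀ p : T, groupCohomology (res (P p.1).1.subtype A) n) :=
    AddSubgroup.card_dvd_of_injective r.toAddMonoidHom hr
  refine hd1.trans ?_
  rw [Nat.card_pi]
  have hd2 : (∏ p : T, Nat.card (groupCohomology (res (P p.1).1.subtype A) n)) ∣
      ∏ p : T, Nat.card (P p.1) :=
    Finset.prod_dvd_prod_of_dvd _ _ fun p _ => hP p.1 (hTprime p.1 p.2)
  refine hd2.trans (dvd_of_eq ?_)
  have hPcard : ∀ p : T, Nat.card (P p.1) = p.1 ^ (Nat.card G).factorization p.1 := by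
    intro p
    have : Fact (p.1).Prime := ⟨hTprime p.1 p.2⟩
    exact (P p.1).card_eq_multiplicity
  rw [Finset.prod_congr rfl fun p _ => hPcard p]
  rw [Finset.prod_coe_sort T (fun p => p ^ (Nat.card G).factorization p)]
  have hsub : (Nat.card G).primeFactors ⊆ T := Finset.subset_insert _ _
  rw [← Finset.prod_subset hsub]
  · exact Nat.prod_factorization_pow_eq_self hcard_ne
  · intro p _ hp
    have : (Nat.card G).factorization p = 0 := by
      rw [← Nat.support_factorization] at hp
      exact Finsupp.notMem_support_iff.1 hp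
    rw [this, pow_zero]

end Fermat.Agent.S55lib.Dev
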