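/-
S55 sprint, block (IV-dev) "devissage", file 5: the devissage theorem.

If a class `P₀` of pairs (finite group, representation) is stable under restriction to subgroups and
every cyclic layer of prime order `p` (a normal subgroup `Q` of index `p`, acting group `H ⧸ Q`,
module `A^Q`) has `H¹ = 0` and `|H²|` dividing `p`, then for every `p`-group in the class
`H¹ = 0` and `|H²|` divides the order of the group; for arbitrary finite groups in the class the
same holds on `p`-primary parts.
-/
import Mathlib
import Fermat.Agent.S55lib.Dev.InfRes2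
import Fermat.Agent.S55lib.Dev.SylowStep

set_option autoImplicit false

namespace Fermat.Agent.S55lib.Dev

open CategoryTheory groupCohomology Rep

universe u

/-- Counting in a sequence `X → Y → Z` of additive groups with `ker g ≤ range f`. -/
theorem card_dvd_mul_of_ker_le_range {X Y Z : Type*} [AddCommGroup X] [AddCommGroup Y]
    [AddCommGroup Z] (f : X →+ Y) (g : Y →+ Z) (h : g.ker ≤ f.range) :
    Nat.card Y ∣ Nat.card X * Nat.card Z := by
  rw [AddSubgroup.card_eq_card_quotient_mul_card_addSubgroup g.ker, mul_comm]
  apply Nat.mul_dvd_mul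
  · exact (AddSubgroup.card_dvd_of_le h).trans (AddSubgroup.card_range_dvd f)
  · rw [Nat.card_congr (QuotientAddGroup.quotientKerEquivRange g).toEquiv]
    exact AddSubgroup.card_addSubgroup_dvd_card _

variable {k : Type u} [CommRing k]

/-- A class of pairs (group, representation), stable under restriction to subgroups. -/
structure HereditaryClass (k : Type u) [CommRing k] where
  /-- the membership predicate -/
  mem : ∀ (H : Type u) [Group H], Rep.{u} k H → Prop
  /-- stability under restriction -/
  res_mem : ∀ (H : Type u) [Group H] (A : Rep.{u} k H) (Q : Subgroup H),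
    mem H A → mem Q (res Q.subtype A)

/-- The cyclic-layer hypothesis at the prime `p` for a hereditary class: every layer of degree `p`
has trivial `H¹` and `H²` of order dividing `p`. -/
def HereditaryClass.CyclicLayers (P₀ : HereditaryClass k) (p : ℕ) : Prop :=
  ∀ (H : Type u) [Group H] [Finite H] (A : Rep.{u} k H) (Q : Subgroup H) [Q.Normal],
    P₀.mem H A → Q.index = p →
      Subsingleton (groupCohomology (A.quotientToInvariants Q) 1) ∧
        Nat.card (groupCohomology (A.quotientToInvariants Q) 2) ∣ p

/-- **Devissage for `p`-groups.** -/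
theorem devissage_pGroup (P₀ : HereditaryClass k) (p : ℕ) [hp : Fact p.Prime]
    (hcyc : P₀.CyclicLayers p) :
    ∀ (m : ℕ) (G : Type u) [Group G] [Finite G] (A : Rep.{u} k G),
      Nat.card G = p ^ m → P₀.mem G A →
      Subsingleton (groupCohomology A 1) ∧ Nat.card (groupCohomology A 2) ∣ Nat.card G := by
  intro m
  induction m with
  | zero =>
    intro G _ _ A hG _
    rw [pow_zero] at hG
    have hsub : Subsingleton G := (Nat.card_eq_one_iff_unique.1 hG).1
    have h1 := isZero_groupCohomology_succ_of_subsingleton A 0
    have h2 := isZero_groupCohomology_succ_of_subsingleton A 1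
    refine ⟨ModuleCat.subsingleton_of_isZero h1, ?_⟩
    have : Subsingleton (groupCohomology A 2) := ModuleCat.subsingleton_of_isZero h2
    rw [Nat.card_unique]
    exact one_dvd _
  | succ m ih =>
    intro G _ _ A hG hA
    -- a normal subgroup of index `p`
    obtain ⟨Q, hQ⟩ := Sylow.exists_subgroup_card_pow_prime (G := G) p
      (n := m) (by rw [hG]; exact pow_dvd_pow p (Nat.le_succ m))
    have hidx : Q.index = p := by
      have h := Q.card_mul_index
      rw [hQ, hG, pow_succ] at h
      exact Nat.eq_of_mul_eq_mul_left (pow_pos hp.out.pos m) h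
    have hminFac : (Nat.card G).minFac = p := by
      rw [hG]
      exact Nat.Prime.pow_minFac hp.out (Nat.succ_ne_zero m)
    have hQn : Q.Normal := Subgroup.normal_of_index_eq_minFac_card (hidx.trans hminFac.symm)
    obtain ⟨hQ1, hQ2⟩ := ih Q (res Q.subtype A) hQ (P₀.res_mem G A Q hA)
    obtain ⟨hL1, hL2⟩ := hcyc G A Q hA hidx
    have hX3 : Subsingleton ↑(H1InfRes A Q).X₃ := hQ1
    have hX1 : Subsingleton ↑(H1InfRes A Q).X₁ := hL1
    refine ⟨?_, ?_⟩
    · -- `H¹(G, A) = 0`
      refine ⟨fun x y => ?_⟩
      have key : ∀ z : groupCohomology A 1, z = 0 := by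
        intro z
        have hz : (H1InfRes A Q).g z = 0 := Subsingleton.elim _ _
        obtain ⟨w, hw⟩ := (ShortComplex.moduleCat_exact_iff _).1 (H1InfRes_exact A Q) z hz
        rw [← hw, Subsingleton.elim w 0, map_zero]
        rfl
      rw [key x, key y]
    · -- the order of `H²(G, A)`
      have hdvd := card_dvd_mul_of_ker_le_range (inflMap A Q 2).hom.toAddMonoidHom
        (restMap A Q 2).hom.toAddMonoidHom (by
          intro x hx
          obtain ⟨y, hy⟩ := exists_inflMap_eq_of_restMap_eq_zero A Q x hx
          exact ⟨y, hy⟩)
      refine hdvd.trans ?_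
      rw [hG, pow_succ, mul_comm]
      exact Nat.mul_dvd_mul (hQ ▸ hQ2) hL2

/-- **Devissage, general finite group, `p`-primary form.** If every cyclic layer of degree `p` in
a hereditary class has `H¹ = 0` and `|H²|` dividing `p`, then for every finite `(G, A)` in the class
`H¹(G, A)` has no `p`-torsion and the `p`-primary part of `H²(G, A)` has order dividing the
`p`-part of `|G|`. -/
theorem devissage (P₀ : HereditaryClass k) (p : ℕ) [hp : Fact p.Prime]
    (hcyc : P₀.CyclicLayers p) (G : Type u) [Group G] [Finite G] (A : Rep.{u} k G)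
    (hA : P₀.mem G A) :
    (∀ (x : groupCohomology A 1) (m : ℕ), p ^ m • x = 0 → x = 0) ∧
      Nat.card (pPrimary p (groupCohomology A 2)) ∣ p ^ (Nat.card G).factorization p := by
  let P : Sylow p G := default
  have hPcard : Nat.card P = p ^ (Nat.card G).factorization p := P.card_eq_multiplicity
  obtain ⟨h1, h2⟩ := devissage_pGroup P₀ p hcyc _ P (res P.1.subtype A) hPcard
    (P₀.res_mem G A P.1 hA)
  refine ⟨fun x m hm => ?_, ?_⟩
  · exact eq_zero_of_shapiroRes_eq_zero_of_pow_nsmul A p P 1 m x (Subsingleton.elim _ _) hm
  · rw [← hPcard]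
    exact (card_pPrimary_dvd_of_sylow A p P 2).trans h2

/-- **Devissage, variant**: only a Sylow `p`-subgroup of `G` (with the restricted module) is
required to lie in the hereditary class.  This is the form to use when the class consists of
`p`-groups only (e.g. "Galois groups over a base containing `μ_p`": the base field of a `p`-subgroup
of `Gal(L/K)` automatically contains `μ_p` as soon as `L` does, so only Kummer layers occur). -/
theorem devissage_of_sylow (P₀ : HereditaryClass k) (p : ℕ) [hp : Fact p.Prime]
    (hcyc : P₀.CyclicLayers p) (G : Type u) [Group G] [Finite G] (A : Rep.{u} k G)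
    (P : Sylow p G) (hA : P₀.mem P (res P.1.subtype A)) :
    (∀ (x : groupCohomology A 1) (m : ℕ), p ^ m • x = 0 → x = 0) ∧
      Nat.card (pPrimary p (groupCohomology A 2)) ∣ p ^ (Nat.card G).factorization p := by
  have hPcard : Nat.card P = p ^ (Nat.card G).factorization p := P.card_eq_multiplicity
  obtain ⟨h1, h2⟩ := devissage_pGroup P₀ p hcyc _ P (res P.1.subtype A) hPcard hA
  refine ⟨fun x m hm => ?_, ?_⟩
  · exact eq_zero_of_shapiroRes_eq_zero_of_pow_nsmul A p P 1 m x (Subsingleton.elim _ _) hm
  · rw [← hPcard]
    exact (card_pPrimary_dvd_of_sylow A p P 2).trans h2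

end Fermat.Agent.S55lib.Dev
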