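/-
S55 sprint, block (IV-dev) "devissage", file 13: the Galois theory of a layer.
For fields `K₀ ⊂ L` (finite), `ι : H →* Gal(L/K₀)` injective and `Q ◁ H`: the layer field
`E = L^Q`, the action of `H ⧸ Q` on it, the layer base `E^{H/Q}` and `H ⧸ Q ≃* Gal(E / E^{H/Q})`.

(This is the field-theoretic part of helper6's `LocalH/Layer.lean`, restated for arbitrary fields.)
-/
import Mathlib

set_option autoImplicit false
set_option linter.unusedSectionVars false

noncomputable section

namespace Fermat.Agent.S55lib.Dev

section FixedField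

variable {F E : Type*} [Field F] [Field E] [Algebra F E] [FiniteDimensional F E]
  (H : Subgroup Gal(E/F))

theorem isGalois_fixedField' : IsGalois (IntermediateField.fixedField H) E := by
  apply IsGalois.of_card_aut_eq_finrank
  rw [IntermediateField.finrank_fixedField_eq_card]
  exact (Nat.card_congr (IntermediateField.subgroupEquivAlgEquiv H).toEquiv).symm

end FixedField

variable (K₀ : Type*) [Field K₀] (L : Type*) [Field L] [Algebra K₀ L] [FiniteDimensional K₀ L]
variable {H : Type*} [Group H] (ι : H →* Gal(L/K₀)) (Q : Subgroup H)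

/-- the fixed field of `Q` -/
def layerField : IntermediateField K₀ L := IntermediateField.fixedField (Q.map ι)

theorem mem_layerField {x : L} : x ∈ layerField K₀ L ι Q ↔ ∀ q ∈ Q, ι q x = x := by
  unfold layerField
  rw [IntermediateField.mem_fixedField_iff]
  constructor
  · intro h q hq
    exact h _ ⟨q, hq, rfl⟩
  · rintro h _ ⟨q, hq, rfl⟩
    exact h q hq

/-- `L` is Galois over the layer field, with group `Q` -/
instance isGalois_over_layerField : IsGalois (layerField K₀ L ι Q) L :=
  isGalois_fixedField' _

/-- the automorphisms of `L` over the layer field are the elements of `ι Q` -/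
theorem exists_eq_of_aut_layerField (γ : L ≃ₐ[layerField K₀ L ι Q] L) :
    ∃ q ∈ Q, ∀ x : L, ι q x = γ x := by
  have hfix : γ.restrictScalars K₀ ∈ (IntermediateField.fixedField (Q.map ι)).fixingSubgroup := by
    rw [IntermediateField.mem_fixingSubgroup_iff]
    intro x hx
    exact γ.commutes ⟨x, hx⟩
  rw [IntermediateField.fixingSubgroup_fixedField] at hfix
  obtain ⟨q, hq, hqγ⟩ := hfix
  refine ⟨q, hq, fun x => ?_⟩
  rw [hqγ]
  rfl

variable [hQ : Q.Normal]

theorem apply_mem_layerField (h : H) {x : L} (hx : x ∈ layerField K₀ L ι Q) :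
    ι h x ∈ layerField K₀ L ι Q := by
  rw [mem_layerField] at hx ⊢
  intro q hq
  have hc : h⁻¹ * q * h ∈ Q := hQ.conj_mem' q hq h
  have h1 := hx _ hc
  have e : q * h = h * (h⁻¹ * q * h) := by group
  calc ι q (ι h x) = ι (q * h) x := by rw [map_mul]; rfl
    _ = ι (h * (h⁻¹ * q * h)) x := by rw [← e]
    _ = ι h (ι (h⁻¹ * q * h) x) := by rw [map_mul]; rfl
    _ = ι h x := by rw [h1]

/-- restriction of `ι h` to the layer field -/
def layerAut (h : H) : layerField K₀ L ι Q ≃ₐ[K₀] layerField K₀ L ι Q where
  toFun x := ⟨ι h x, apply_mem_layerField K₀ L ι Q h x.2⟩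
  invFun x := ⟨ι h⁻¹ x, apply_mem_layerField K₀ L ι Q h⁻¹ x.2⟩
  left_inv x := Subtype.ext (by
    show ι h⁻¹ (ι h (x : L)) = x
    rw [map_inv]
    exact (ι h).symm_apply_apply _)
  right_inv x := Subtype.ext (by
    show ι h (ι h⁻¹ (x : L)) = x
    rw [map_inv]
    exact (ι h).apply_symm_apply _)
  map_mul' x y := Subtype.ext (map_mul (ι h) (x : L) y)
  map_add' x y := Subtype.ext (map_add (ι h) (x : L) y)
  commutes' r := Subtype.ext ((ι h).commutes r)

@[simp] theorem coe_layerAut (h : H) (x : layerField K₀ L ι Q) :
    ((layerAut K₀ L ι Q h x : layerField K₀ L ι Q) : L) = ι h x := rfl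

/-- restriction as a group homomorphism -/
def layerHom : H →* Gal((layerField K₀ L ι Q)/K₀) where
  toFun := layerAut K₀ L ι Q
  map_one' := by
    ext x
    simp
  map_mul' a b := by
    ext x
    simp

theorem layerHom_apply (h : H) (x : layerField K₀ L ι Q) :
    ((layerHom K₀ L ι Q h x : layerField K₀ L ι Q) : L) = ι h x := rfl

theorem layerHom_eq_one_of_mem {q : H} (hq : q ∈ Q) : layerHom K₀ L ι Q q = 1 := by
  ext x
  rw [layerHom_apply]
  exact (mem_layerField K₀ L ι Q).mp x.2 q hq

/-- the action of `H ⧸ Q` on the layer field -/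
def layerQuot : H ⧸ Q →* Gal((layerField K₀ L ι Q)/K₀) :=
  QuotientGroup.lift Q (layerHom K₀ L ι Q) fun _ hq => layerHom_eq_one_of_mem K₀ L ι Q hq

theorem layerQuot_mk (h : H) :
    layerQuot K₀ L ι Q (QuotientGroup.mk h) = layerHom K₀ L ι Q h := rfl

theorem layerQuot_injective (hι : Function.Injective ι) :
    Function.Injective (layerQuot K₀ L ι Q) := by
  rw [injective_iff_map_eq_one]
  intro c hc
  obtain ⟨h, rfl⟩ := QuotientGroup.mk_surjective c
  rw [layerQuot_mk] at hc
  rw [QuotientGroup.eq_one_iff]
  have hfix : ι h ∈ (IntermediateField.fixedField (Q.map ι)).fixingSubgroup := by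
    rw [IntermediateField.mem_fixingSubgroup_iff]
    intro x hx
    have h1 := layerHom_apply K₀ L ι Q h ⟨x, hx⟩
    rw [hc] at h1
    exact h1.symm
  rw [IntermediateField.fixingSubgroup_fixedField] at hfix
  obtain ⟨q, hq, hqh⟩ := hfix
  rwa [← hι hqh]

section LayerBase

variable (hι : Function.Injective ι)

/-- the base field of the layer: the fixed field of `H ⧸ Q` in the layer field -/
def layerBase : IntermediateField K₀ (layerField K₀ L ι Q) :=
  IntermediateField.fixedField (layerQuot K₀ L ι Q).range

/-- `H ⧸ Q ≃* Gal(E / F')` -/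
def layerGalEquiv :
    (H ⧸ Q) ≃* Gal((layerField K₀ L ι Q)/(layerBase K₀ L ι Q)) :=
  (MonoidHom.ofInjective (layerQuot_injective K₀ L ι Q hι)).trans
    (IntermediateField.subgroupEquivAlgEquiv _)

theorem layerGalEquiv_apply (c : H ⧸ Q) (x : layerField K₀ L ι Q) :
    layerGalEquiv K₀ L ι Q hι c x = layerQuot K₀ L ι Q c x := rfl

theorem layerGalEquiv_mk_apply (h : H) (x : layerField K₀ L ι Q) :
    ((layerGalEquiv K₀ L ι Q hι (QuotientGroup.mk h) x : layerField K₀ L ι Q) : L) = ι h x := rfl

instance isGalois_layer : IsGalois (layerBase K₀ L ι Q) (layerField K₀ L ι Q) :=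
  isGalois_fixedField' _

instance finiteDimensional_layer :
    FiniteDimensional (layerBase K₀ L ι Q) (layerField K₀ L ι Q) :=
  FiniteDimensional.right K₀ _ _

end LayerBase

/-! ### Intermediate fields over `ℚ`: the canonical `ℚ`-algebra structure

For `E : IntermediateField ℚ L`, instance resolution finds `DivisionRing.toRatAlgebra` as the
`ℚ`-algebra structure of `↥E`, which is not syntactically the one inherited from `L`; the
finiteness instances have to be transported. -/

section RatSubfield

theorem finiteDimensional_rat_transfer {K : Type*} [Field K] (i1 i2 : Algebra ℚ K)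
    (h : @FiniteDimensional ℚ K _ _ i1.toModule) : @FiniteDimensional ℚ K _ _ i2.toModule := by
  have : i1 = i2 := Subsingleton.elim _ _
  subst this
  exact h

variable {L : Type*} [Field L] [Algebra ℚ L] [FiniteDimensional ℚ L] (E : IntermediateField ℚ L)

instance finiteDimensional_rat_intermediateField :
    @FiniteDimensional ℚ ↥E _ _ (DivisionRing.toRatAlgebra : Algebra ℚ ↥E).toModule :=
  finiteDimensional_rat_transfer (IntermediateField.algebra' E) _
    (IntermediateField.finiteDimensional_left E)

instance isAlgebraic_rat_intermediateField : Algebra.IsAlgebraic ℚ ↥E :=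
  @Algebra.IsAlgebraic.of_finite ℚ ↥E _ _ _ _ (finiteDimensional_rat_intermediateField E)

instance numberField_intermediateField : NumberField ↥E :=
  @NumberField.mk _ _ inferInstance (finiteDimensional_rat_intermediateField E)

end RatSubfield

end Fermat.Agent.S55lib.Dev
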