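/-
S55 sprint, block (IV-dev) "devissage", file 14: the layers of the idele class module.
For `L` finite over `ℚ`, `ι : H →* Aut(L/ℚ)` injective and `Q ◁ H`: the `H ⧸ Q`-module `C(L)^Q` is
the idele class group `C(E)` of the layer field `E = L^Q` with its action of
`Gal(E / E^{H/Q}) ≅ H ⧸ Q`; in particular the cohomology groups agree.
-/
import Mathlib
import Fermat.Agent.S55lib.Dev.IdeleRep
import Fermat.Agent.S55lib.Dev.Descent
import Fermat.Agent.S55lib.Dev.GalLayer

set_option autoImplicit false
set_option linter.unusedSectionVars false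

noncomputable section

namespace Fermat.Agent.S55lib.Dev

open Fermat.Agent.S55lib groupCohomology

variable (L : Type) [Field L] [Algebra ℚ L] [FiniteDimensional ℚ L]
variable {H : Type} [Group H] (ι : H →* (L ≃ₐ[ℚ] L)) (Q : Subgroup H)

/-- the `H`-module `C(L)` -/
abbrev classRepRes : Rep ℤ H := Rep.res ι (classRep L)

/-- the map `C(L^Q) → C(L)` -/
def layerClassIncl : ClassGrp (layerField ℚ L ι Q) →* ClassGrp L :=
  ClassGrp.incl (IsScalarTower.toAlgHom ℚ (layerField ℚ L ι Q) L)

theorem layerClassIncl_injective : Function.Injective (layerClassIncl L ι Q) :=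
  ClassGrp.incl_injective (layerField ℚ L ι Q)

/-- the image of `C(L^Q)` is `Q`-invariant -/
theorem smul_layerClassIncl {q : H} (hq : q ∈ Q) (c : ClassGrp (layerField ℚ L ι Q)) :
    ι q • layerClassIncl L ι Q c = layerClassIncl L ι Q c := by
  have h := ClassGrp.incl_smul (IsScalarTower.toAlgHom ℚ (layerField ℚ L ι Q) L) 1 (ι q)
    (fun x => ((mem_layerField ℚ L ι Q).1 x.2 q hq).symm) c
  rw [one_smul] at h
  exact h.symm

/-- a `Q`-invariant class comes from `C(L^Q)` -/
theorem exists_layerClassIncl_eq (c : ClassGrp L) (hc : ∀ q ∈ Q, ι q • c = c) :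
    ∃ c', layerClassIncl L ι Q c' = c := by
  apply ClassGrp.exists_incl_eq_of_invariant (layerField ℚ L ι Q) c
  intro γ
  obtain ⟨q, hq, hqγ⟩ := exists_eq_of_aut_layerField ℚ L ι Q γ
  have : autToQ (layerField ℚ L ι Q) γ = ι q := by
    ext x
    exact (hqγ x).symm
  rw [this]
  exact hc q hq

variable [hQ : Q.Normal] (hι : Function.Injective ι)

/-- the `Gal(E/F)`-module `C(E)`, `E = L^Q`, `F = E^{H/Q}` -/
abbrev layerClassRep : Rep ℤ (layerField ℚ L ι Q ≃ₐ[layerBase ℚ L ι Q] layerField ℚ L ι Q) :=
  Rep.res (autToQ (layerBase ℚ L ι Q) (M := layerField ℚ L ι Q)) (classRep (layerField ℚ L ι Q))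

/-- equivariance of `C(L^Q) → C(L)` -/
theorem layerClassIncl_smul (h : H) (c : ClassGrp (layerField ℚ L ι Q)) :
    layerClassIncl L ι Q
      (autToQ (layerBase ℚ L ι Q) (layerGalEquiv ℚ L ι Q hι (QuotientGroup.mk h)) • c) =
      ι h • layerClassIncl L ι Q c :=
  ClassGrp.incl_smul (IsScalarTower.toAlgHom ℚ (layerField ℚ L ι Q) L) _ (ι h) (fun _ => rfl) c

/-- `C(L^Q) → C(L)^Q` -/
def layerClassHom : Additive (ClassGrp (layerField ℚ L ι Q)) →+
    Representation.invariants ((classRepRes L ι).ρ.comp Q.subtype) where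
  toFun := fun c => ⟨Additive.ofMul (layerClassIncl L ι Q (Additive.toMul c)), by
    refine (Representation.mem_invariants _ _).2 ?_
    rintro ⟨q, hq⟩
    exact congrArg Additive.ofMul (smul_layerClassIncl L ι Q hq (Additive.toMul c))⟩
  map_zero' := Subtype.ext (congrArg Additive.ofMul (map_one (layerClassIncl L ι Q)))
  map_add' := fun c c' => Subtype.ext (congrArg Additive.ofMul
    (map_mul (layerClassIncl L ι Q) (Additive.toMul c) (Additive.toMul c')))

theorem coe_layerClassHom (c : Additive (ClassGrp (layerField ℚ L ι Q))) :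
    (layerClassHom L ι Q c).1 = Additive.ofMul (layerClassIncl L ι Q (Additive.toMul c)) := rfl

theorem layerClassHom_bijective : Function.Bijective (layerClassHom L ι Q) := by
  constructor
  · intro c c' h
    have h1 : layerClassIncl L ι Q (Additive.toMul c) = layerClassIncl L ι Q (Additive.toMul c') :=
      congrArg (fun z => Additive.toMul (z.1 : Additive (ClassGrp L))) h
    exact congrArg Additive.ofMul (layerClassIncl_injective L ι Q h1)
  · intro a
    obtain ⟨c', hc'⟩ := exists_layerClassIncl_eq L ι Q (Additive.toMul (a.1 : Additive (ClassGrp L)))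
      (fun q hq => by
        have := a.2 ⟨q, hq⟩
        exact congrArg Additive.toMul this)
    exact ⟨Additive.ofMul c', Subtype.ext (congrArg Additive.ofMul hc')⟩

/-- `C(L^Q) ≃ C(L)^Q` -/
def layerClassEquiv : Additive (ClassGrp (layerField ℚ L ι Q)) ≃+
    Representation.invariants ((classRepRes L ι).ρ.comp Q.subtype) :=
  AddEquiv.ofBijective (layerClassHom L ι Q) (layerClassHom_bijective L ι Q)

theorem coe_layerClassEquiv (c : Additive (ClassGrp (layerField ℚ L ι Q))) :
    (layerClassEquiv L ι Q c).1 = Additive.ofMul (layerClassIncl L ι Q (Additive.toMul c)) := rfl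

/-- the cohomology of the layer `C(L)^Q` is the cohomology of `C(E)` for `E/F` -/
def layerClassCohIso (n : ℕ) :
    groupCohomology (layerClassRep L ι Q) n ≅
      groupCohomology ((classRepRes L ι).quotientToInvariants Q) n :=
  groupCohomology.mapIso (layerGalEquiv ℚ L ι Q hι).symm
    (layerClassEquiv L ι Q).toIntLinearEquiv
    (fun γ => by
      obtain ⟨c, rfl⟩ := (layerGalEquiv ℚ L ι Q hι).surjective γ
      obtain ⟨h, rfl⟩ := QuotientGroup.mk_surjective c
      rw [MulEquiv.symm_apply_apply]
      ext a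
      exact congrArg Additive.ofMul (layerClassIncl_smul L ι Q hι h (Additive.toMul a))) n

end Fermat.Agent.S55lib.Dev
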