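/-
S55 sprint, block (IV-dev) "devissage", file 16: **K8, the cohomology of the idele class group**.
From the two inequalities for cyclic layers of prime degree `p` with `ζ_p` in the base field
(`GlobalCyclicLayers p`, = K6 ∧ K7 in the `C(M)`-shape), for every number field `L ∋ ζ_p` and every
subgroup `H ≤ Aut(L/ℚ)`: `H¹(H, C(L))` has no `p`-torsion and the `p`-primary part of `H²(H, C(L))`
has order dividing the `p`-part of `|H|`.
-/
import Mathlib
import Fermat.Agent.S55lib.Dev.Devissage
import Fermat.Agent.S55lib.Dev.SylowStep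
import Fermat.Agent.S55lib.Dev.MulBridge
import Fermat.Agent.S55lib.Dev.GlobalLayer

set_option autoImplicit false
set_option linter.unusedSectionVars false

noncomputable section

namespace Fermat.Agent.S55lib.Dev

open Fermat.Agent.S55lib groupCohomology

/-- The hypotheses on a cyclic layer `M/F`: number fields, `M/F` Galois with group of order `p`
generated by `σ`, and `ζ_p ∈ F`. -/
structure IsKummerLayer (p : ℕ) (F M : Type) [Field F] [Field M] [Algebra F M]
    (σ : M ≃ₐ[F] M) : Prop where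
  gen : ∀ τ : M ≃ₐ[F] M, τ ∈ Subgroup.zpowers σ
  card : Nat.card (M ≃ₐ[F] M) = p
  root : ∃ ζ : F, IsPrimitiveRoot ζ p

/-- **K6 in the `C(M)`-shape** (first inequality): for `M/F` cyclic of degree `p` of number fields
with `ζ_p ∈ F` and `S` the action of a generator on `C(M)`:
`[ker (S - 1) : im N] = p · [ker N : im (S - 1)]`. -/
def FirstIneqStatement (p : ℕ) : Prop :=
  ∀ (F M : Type) [Field F] [Field M] [NumberField F] [NumberField M] [Algebra F M] [IsGalois F M]
    (σ : M ≃ₐ[F] M), IsKummerLayer p F M σ →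
    (nrmHom p (actHom (autToQ F σ) : ClassGrp M →* ClassGrp M)).range.relIndex
        (difHom (actHom (autToQ F σ) : ClassGrp M →* ClassGrp M)).ker =
      p * (difHom (actHom (autToQ F σ) : ClassGrp M →* ClassGrp M)).range.relIndex
        (nrmHom p (actHom (autToQ F σ) : ClassGrp M →* ClassGrp M)).ker

/-- **K7 in the `C(M)`-shape** (second inequality): `[ker (S - 1) : im N] ∣ p`. -/
def SecondIneqStatement (p : ℕ) : Prop :=
  ∀ (F M : Type) [Field F] [Field M] [NumberField F] [NumberField M] [Algebra F M] [IsGalois F M]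
    (σ : M ≃ₐ[F] M), IsKummerLayer p F M σ →
    (nrmHom p (actHom (autToQ F σ) : ClassGrp M →* ClassGrp M)).range.relIndex
        (difHom (actHom (autToQ F σ) : ClassGrp M →* ClassGrp M)).ker ∣ p

/-- **The two inequalities for cyclic layers** (K6 ∧ K7). -/
def GlobalCyclicLayers (p : ℕ) : Prop := FirstIneqStatement p ∧ SecondIneqStatement p

/-! ### `p`-groups of automorphisms fix the `p`-th roots of unity -/

theorem apply_primitiveRoot_eq_of_isPGroup {p : ℕ} [hp : Fact p.Prime] {L : Type*} [Field L]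
    [Algebra ℚ L] {H : Type*} [Group H] (hH : IsPGroup p H) (ι : H →* (L ≃ₐ[ℚ] L)) {ζ : L}
    (hζ : IsPrimitiveRoot ζ p) (h : H) : ι h ζ = ζ := by
  have : NeZero p := ⟨hp.out.ne_zero⟩
  have : Fact (1 < p) := ⟨hp.out.one_lt⟩
  set χ : H →* (ZMod p)ˣ := (hζ.autToPow ℚ).comp ι with hχ
  obtain ⟨k, hk⟩ := hH h
  have h1 : (χ h) ^ (p ^ k) = 1 := by rw [← map_pow, hk, map_one]
  have h2 : (χ h) ^ (p - 1) = 1 := ZMod.units_pow_card_sub_one_eq_one p (χ h)
  have hcop : Nat.Coprime (p ^ k) (p - 1) := by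
    apply Nat.Coprime.pow_left
    exact Nat.coprime_of_lt_prime (Nat.sub_pos_of_lt hp.out.one_lt).ne'
      (Nat.sub_lt hp.out.pos Nat.one_pos) hp.out
  have h3 : χ h = 1 := by
    have := pow_gcd_eq_one.2 ⟨h1, h2⟩
    rwa [hcop, pow_one] at this
  have h4 := hζ.autToPow_spec ℚ (ι h)
  have h5 : hζ.autToPow ℚ (ι h) = 1 := h3
  rw [h5, Units.val_one, ZMod.val_one, pow_one] at h4
  exact h4.symm

/-! ### The hereditary class of idele class groups -/

/-- the hereditary class: `p`-groups acting faithfully on a number field `L ∋ ζ_p`, with the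
module `C(L)` -/
def globalClass (p : ℕ) : HereditaryClass ℤ where
  mem H _ A := IsPGroup p H ∧ ∃ (L : Type) (_ : Field L) (_ : NumberField L) (ζ : L)
    (_ : IsPrimitiveRoot ζ p) (ι : H →* (L ≃ₐ[ℚ] L)), Function.Injective ι ∧
      A = Rep.res ι (classRep L)
  res_mem H _ A Q := by
    rintro ⟨hH, L, i1, i2, ζ, hζ, ι, hι, rfl⟩
    exact ⟨hH.to_subgroup Q, L, i1, i2, ζ, hζ, ι.comp Q.subtype,
      hι.comp Subtype.val_injective, rfl⟩

section Layer

variable {p : ℕ} [hp : Fact p.Prime] (L : Type) [Field L] [NumberField L]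
variable {H : Type} [Group H] [Finite H] (ι : H →* (L ≃ₐ[ℚ] L)) (hι : Function.Injective ι)
  (Q : Subgroup H) [Q.Normal]

include hι in
/-- the cyclic layers of `C(L)` -/
theorem layer_cohomology_global (hlayers : GlobalCyclicLayers p) (hH : IsPGroup p H) {ζ : L}
    (hζ : IsPrimitiveRoot ζ p) (hidx : Q.index = p) :
    Subsingleton (groupCohomology ((classRepRes L ι).quotientToInvariants Q) 1) ∧
      Nat.card (groupCohomology ((classRepRes L ι).quotientToInvariants Q) 2) ∣ p := by
  classical
  -- the Galois group of the layer has order `p`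
  have hcard : Nat.card (layerField ℚ L ι Q ≃ₐ[layerBase ℚ L ι Q] layerField ℚ L ι Q) = p := by
    rw [← Nat.card_congr (layerGalEquiv ℚ L ι Q hι).toEquiv, ← hidx]
    rfl
  have : IsCyclic (layerField ℚ L ι Q ≃ₐ[layerBase ℚ L ι Q] layerField ℚ L ι Q) :=
    isCyclic_of_prime_card hcard
  obtain ⟨c, hc⟩ := IsCyclic.exists_generator
    (α := layerField ℚ L ι Q ≃ₐ[layerBase ℚ L ι Q] layerField ℚ L ι Q)
  -- `ζ` lies in the base of the layer
  have hfix : ∀ h : H, ι h ζ = ζ := apply_primitiveRoot_eq_of_isPGroup hH ι hζ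
  have hζE : ζ ∈ layerField ℚ L ι Q := (mem_layerField ℚ L ι Q).2 (fun q _ => hfix q)
  have hζF : (⟨ζ, hζE⟩ : layerField ℚ L ι Q) ∈ layerBase ℚ L ι Q := by
    unfold layerBase
    rw [IntermediateField.mem_fixedField_iff]
    rintro _ ⟨x, rfl⟩
    obtain ⟨h, rfl⟩ := QuotientGroup.mk_surjective x
    apply Subtype.ext
    exact hfix h
  have hprim : ∃ ζ' : layerBase ℚ L ι Q, IsPrimitiveRoot ζ' p := by
    refine ⟨⟨⟨ζ, hζE⟩, hζF⟩, ?_⟩
    have hinj : Function.Injective
        (((layerField ℚ L ι Q).val.toRingHom).comp (algebraMap (layerBase ℚ L ι Q)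
          (layerField ℚ L ι Q))) :=
      RingHom.injective _
    exact IsPrimitiveRoot.of_map_of_injective (f := ((layerField ℚ L ι Q).val.toRingHom).comp
      (algebraMap (layerBase ℚ L ι Q) (layerField ℚ L ι Q))) hζ hinj
  have hfirst := hlayers.1 (layerBase ℚ L ι Q) (layerField ℚ L ι Q) c ⟨hc, hcard, hprim⟩
  have hsecond := hlayers.2 (layerBase ℚ L ι Q) (layerField ℚ L ι Q) c ⟨hc, hcard, hprim⟩
  have key := cyclic_layer_of_mul_inequalities
    (A := ClassGrp (layerField ℚ L ι Q))
    (autToQ (layerBase ℚ L ι Q) (M := layerField ℚ L ι Q)) c hc p hp.out.ne_zero hcard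
    hfirst hsecond
  constructor
  · have := key.1
    exact (layerClassCohIso L ι Q hι 1).symm.toLinearEquiv.toEquiv.subsingleton
  · rw [← Nat.card_congr (layerClassCohIso L ι Q hι 2).toLinearEquiv.toEquiv]
    exact key.2

end Layer

theorem globalClass_cyclicLayers {p : ℕ} [hp : Fact p.Prime] (hlayers : GlobalCyclicLayers p) :
    (globalClass p).CyclicLayers p := by
  intro H _ _ A Q _ hA hidx
  obtain ⟨hH, L, i1, i2, ζ, hζ, ι, hι, rfl⟩ := hA
  exact layer_cohomology_global L ι hι Q hlayers hH hζ hidx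

/-- **K8.** For a number field `L` containing a primitive `p`-th root of unity and every subgroup
`H ≤ Aut(L/ℚ)`: `H¹(H, C(L))` has no `p`-power torsion and the `p`-primary part of `H²(H, C(L))`
has order dividing the `p`-part of `|H|`. -/
theorem classGroup_cohomology {p : ℕ} [hp : Fact p.Prime] (hlayers : GlobalCyclicLayers p)
    (L : Type) [Field L] [NumberField L] {ζ : L} (hζ : IsPrimitiveRoot ζ p)
    {H : Type} [Group H] [Finite H] (ι : H →* (L ≃ₐ[ℚ] L)) (hι : Function.Injective ι) :
    (∀ (x : groupCohomology (classRepRes L ι) 1) (m : ℕ), p ^ m • x = 0 → x = 0) ∧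
      Nat.card (pPrimary p (groupCohomology (classRepRes L ι) 2)) ∣
        p ^ (Nat.card H).factorization p := by
  let P : Sylow p H := default
  apply devissage_of_sylow (globalClass p) p (globalClass_cyclicLayers hlayers) H
    (classRepRes L ι) P
  exact ⟨P.isPGroup', L, inferInstance, inferInstance, ζ, hζ, ι.comp P.1.subtype,
    hι.comp Subtype.val_injective, rfl⟩

end Fermat.Agent.S55lib.Dev
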