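/-
S55 sprint, block (IV-dev) "devissage", file 25: multiplicative dictionary for `H¹`, `H²` of
`Rep.res f (Rep.ofMulDistribMulAction G A)`.
-/
import Mathlib
import Fermat.Agent.S55lib.Dev.MulBridge
import Fermat.Agent.S55lib.Dev.IdeleRep

set_option autoImplicit false
set_option linter.unusedSectionVars false

noncomputable section

namespace Fermat.Agent.S55lib.Dev

open CategoryTheory groupCohomology Rep

variable {C G A B : Type} [Group C] [Group G] [CommGroup A] [MulDistribMulAction G A]
  [CommGroup B] [MulDistribMulAction G B] (f : C →* G)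

/-- a multiplicative 2-cocycle as an element of `cocycles₂` -/
def mkCocycle₂ (c : C × C → A)
    (hc : ∀ g h j : C, c (g * h, j) * c (g, h) = f g • c (h, j) * c (g, h * j)) :
    cocycles₂ (resMulRep (A := A) f) :=
  ⟨fun p => toV f (c p), by
    rw [mem_cocycles₂_iff]
    intro g h j
    exact congrArg (toV f) (hc g h j)⟩

@[simp] theorem mkCocycle₂_apply (c : C × C → A)
    (hc : ∀ g h j : C, c (g * h, j) * c (g, h) = f g • c (h, j) * c (g, h * j)) (p : C × C) :
    (mkCocycle₂ f c hc : C × C → (resMulRep (A := A) f).V) p = toV f (c p) := rfl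

theorem cocycle₂_mul (x : cocycles₂ (resMulRep (A := A) f)) (g h j : C) :
    ofV f ((x : C × C → (resMulRep (A := A) f).V) (g * h, j)) *
        ofV f ((x : C × C → (resMulRep (A := A) f).V) (g, h)) =
      f g • ofV f ((x : C × C → (resMulRep (A := A) f).V) (h, j)) *
        ofV f ((x : C × C → (resMulRep (A := A) f).V) (g, h * j)) :=
  congrArg (ofV f) ((mem_cocycles₂_iff (x : C × C → (resMulRep (A := A) f).V)).1 x.2 g h j)

/-- a class in `H²` vanishes iff the cocycle is a multiplicative coboundary -/
theorem H2π_eq_zero_iff_mul (x : cocycles₂ (resMulRep (A := A) f)) :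
    H2π (resMulRep (A := A) f) x = 0 ↔ ∃ b : C → A, ∀ g h : C,
      ofV f ((x : C × C → (resMulRep (A := A) f).V) (g, h)) = f g • b h / b (g * h) * b g := by
  rw [H2π_eq_zero_iff]
  constructor
  · rintro ⟨φ, hφ⟩
    refine ⟨fun g => ofV f (φ g), fun g h => ?_⟩
    have := congrFun hφ (g, h)
    rw [← this]
    rfl
  · rintro ⟨b, hb⟩
    refine ⟨fun g => toV f (b g), ?_⟩
    funext ⟨g, h⟩
    exact congrArg (toV f) (hb g h).symm

/-- functoriality in the coefficients, on cocycles -/
theorem map_mulRepHom_H2π (φ : A →* B) (hφ : ∀ (g : G) (a : A), φ (g • a) = g • φ a)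
    (x : cocycles₂ (resMulRep (A := A) f)) :
    (groupCohomology.functor ℤ C 2).map ((Rep.resFunctor f).map (mulRepHom φ hφ))
        (H2π (resMulRep (A := A) f) x) =
      H2π (resMulRep (A := B) f) (mkCocycle₂ f
        (fun p => φ (ofV f ((x : C × C → (resMulRep (A := A) f).V) p))) (by
          intro g h j
          rw [← map_mul, cocycle₂_mul, map_mul, hφ])) := by
  change groupCohomology.map (MonoidHom.id C) _ 2 _ = _
  rw [H2π_comp_map_apply]
  congr 1

/-- a multiplicative 1-cocycle as an element of `cocycles₁` -/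
def mkCocycle₁ (c : C → A) (hc : ∀ g h : C, c (g * h) = f g • c h * c g) :
    cocycles₁ (resMulRep (A := A) f) :=
  ⟨fun p => toV f (c p), by
    rw [mem_cocycles₁_iff]
    intro g h
    exact congrArg (toV f) (hc g h)⟩

/-- a class in `H¹` vanishes iff the cocycle is a multiplicative coboundary -/
theorem H1π_eq_zero_iff_mul (x : cocycles₁ (resMulRep (A := A) f)) :
    H1π (resMulRep (A := A) f) x = 0 ↔ ∃ w : A, ∀ g : C,
      ofV f ((x : C → (resMulRep (A := A) f).V) g) = f g • w / w := by
  rw [H1π_eq_zero_iff]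
  constructor
  · rintro ⟨φ, hφ⟩
    refine ⟨ofV (A := A) f φ, fun g => ?_⟩
    have := congrFun hφ g
    rw [← this]
    rfl
  · rintro ⟨w, hw⟩
    refine ⟨toV (A := A) f w, ?_⟩
    funext g
    exact congrArg (toV f) (hw g).symm

end Fermat.Agent.S55lib.Dev
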