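/-
S55 sprint, block (IV-dev) "devissage", file 26: the **Hasse principle** (`p`-primary part) for
`H²(H, Lˣ)`: a `p`-primary class which vanishes in `H²(H, J_q(L))` for all primes `q` is zero.

* `card_nsmul_eq_zero` : positive-degree cohomology of a finite group is killed by its order;
* `eq_zero_of_map_eq_zero_of_pPrimary` : the long exact sequence step;
* `idele_H2_eq_zero_of_local` : `H²(H, I(L)) → ∏_q H²(H, J_q(L))` is injective when almost all
  `H²(H, U_q(L))` vanish (restricted product argument on cocycles).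
-/
import Mathlib
import Fermat.Agent.S55lib.Dev.MulCocycle
import Fermat.Agent.S55lib.Dev.UnitsRep
import Fermat.Agent.S55lib.Dev.SylowStep
import Fermat.Agent.S55lib.Dev.K8

set_option autoImplicit false
set_option linter.unusedSectionVars false

noncomputable section

namespace Fermat.Agent.S55lib.Dev

open Fermat.Agent.S55lib CategoryTheory groupCohomology Limits

section General

universe u

variable {k G : Type u} [CommRing k] [Group G] [Finite G]

/-- positive-degree cohomology of a finite group is killed by the group order -/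
theorem card_nsmul_eq_zero (A : Rep.{u} k G) (n : ℕ) (x : groupCohomology A (n + 1)) :
    Nat.card G • x = 0 := by
  have h := index_nsmul_eq_zero_of_shapiroRes_eq_zero A (⊥ : Subgroup G) (n + 1) x (by
    have hz : IsZero (groupCohomology (Rep.res (⊥ : Subgroup G).subtype A) (n + 1)) :=
      isZero_groupCohomology_succ_of_subsingleton _ n
    have := (ModuleCat.isZero_iff_subsingleton.1 hz)
    exact Subsingleton.elim _ _)
  rwa [Subgroup.index_bot] at h

/-- **LES step, `p`-primary**: in a short exact sequence `0 → X₁ → X₂ → X₃ → 0` with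
`H¹(X₃)[p^∞] = 0`, a `p`-primary class of `H²(X₁)` dying in `H²(X₂)` is zero. -/
theorem eq_zero_of_map_eq_zero_of_pPrimary {X : ShortComplex (Rep.{u} k G)} (hX : X.ShortExact)
    (p : ℕ) [hp : Fact p.Prime]
    (h1 : ∀ (c : groupCohomology X.X₃ 1) (m : ℕ), p ^ m • c = 0 → c = 0)
    (β : groupCohomology X.X₁ 2) (m : ℕ) (hβ : p ^ m • β = 0)
    (hzero : (groupCohomology.functor k G 2).map X.f β = 0) : β = 0 := by
  have hex := mapShortComplex₁_exact hX (rfl : 1 + 1 = 2)
  rw [ShortComplex.moduleCat_exact_iff] at hex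
  obtain ⟨c, hc'⟩ : ∃ c : groupCohomology X.X₃ 1, (δ hX 1 2 rfl) c = β := hex β hzero
  have hN : Nat.card G • c = 0 := card_nsmul_eq_zero X.X₃ 0 c
  have hNpos : Nat.card G ≠ 0 := Nat.card_pos.ne'
  obtain ⟨a, r, hr, hNr⟩ := Nat.exists_eq_pow_mul_and_not_dvd hNpos p hp.out.ne_one
  have hrc : r • c = 0 := by
    apply h1 (r • c) a
    rw [smul_smul, ← hNr]
    exact hN
  have hrβ : r • β = 0 := by
    have e : (δ hX 1 2 rfl) (r • c) = r • (δ hX 1 2 rfl) c := map_nsmul _ _ _
    rw [← hc', ← e, hrc, map_zero]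
  have h2 : addOrderOf β ∣ r := addOrderOf_dvd_of_nsmul_eq_zero hrβ
  have h3 : addOrderOf β ∣ p ^ m := addOrderOf_dvd_of_nsmul_eq_zero hβ
  have hcop : Nat.Coprime r (p ^ m) :=
    Nat.Coprime.pow_right m ((Nat.Prime.coprime_iff_not_dvd hp.out).2 hr).symm
  exact AddMonoid.addOrderOf_eq_one_iff.1 (Nat.eq_one_of_dvd_coprimes hcop h2 h3)

end General

section Restricted

variable (L : Type) [Field L] [Algebra ℚ L] {H : Type} [Group H]
  (ι : H →* (L ≃ₐ[ℚ] L))

/-- a class of `H²(H, I(L))` dying in `H²(H, J_q(L))`: the `q`-component of a representing cocycle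
is a coboundary -/
theorem exists_local_coboundary (c : cocycles₂ (resMulRep (A := Idele L) ι)) (q : Nat.Primes)
    (h : (groupCohomology.functor ℤ H 2).map
      ((Rep.resFunctor ι).map (ideleProjRep L q)) (H2π (resMulRep (A := Idele L) ι) c) = 0) :
    ∃ b : H → Jq (q : ℕ) L, ∀ g h : H,
      (ofV ι ((c : H × H → (resMulRep (A := Idele L) ι).V) (g, h))).1 q =
        ι g • b h / b (g * h) * b g := by
  have h1 := map_mulRepHom_H2π ι (Idele.proj L q) (fun _ _ => rfl) c
  have h0 := h1.symm.trans h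
  obtain ⟨b, hb⟩ := (H2π_eq_zero_iff_mul ι _).1 h0
  exact ⟨b, fun g h => hb g h⟩

/-- if the `q`-component of an idele cocycle is unit-valued and `H²(H, U_q(L)) = 0`, then it is the
coboundary of a unit-valued cochain -/
theorem exists_unit_coboundary (c : cocycles₂ (resMulRep (A := Idele L) ι)) (q : Nat.Primes)
    (hsub : Subsingleton (groupCohomology (Rep.res ι (uqRep L q)) 2))
    (hmem : ∀ p : H × H,
      (ofV ι ((c : H × H → (resMulRep (A := Idele L) ι).V) p)).1 q ∈ Uq (q : ℕ) L) :
    ∃ b : H → Jq (q : ℕ) L, (∀ g, b g ∈ Uq (q : ℕ) L) ∧ ∀ g h : H,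
      (ofV ι ((c : H × H → (resMulRep (A := Idele L) ι).V) (g, h))).1 q =
        ι g • b h / b (g * h) * b g := by
  have hcoc : ∀ g h j : H,
      (⟨(ofV ι ((c : H × H → (resMulRep (A := Idele L) ι).V) (g * h, j))).1 q, hmem _⟩ :
        Uq (q : ℕ) L) *
        ⟨(ofV ι ((c : H × H → (resMulRep (A := Idele L) ι).V) (g, h))).1 q, hmem _⟩ =
      ι g • ⟨(ofV ι ((c : H × H → (resMulRep (A := Idele L) ι).V) (h, j))).1 q, hmem _⟩ *
          ⟨(ofV ι ((c : H × H → (resMulRep (A := Idele L) ι).V) (g, h * j))).1 q, hmem _⟩ := by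
    intro g h j
    apply Subtype.ext
    have := cocycle₂_mul ι c g h j
    exact congrArg (fun y : Idele L => y.1 q) this
  have h0 : H2π (resMulRep (A := Uq (q : ℕ) L) ι)
      (mkCocycle₂ ι (fun p => (⟨(ofV ι ((c : H × H → (resMulRep (A := Idele L) ι).V) p)).1 q,
        hmem p⟩ : Uq (q : ℕ) L)) hcoc) = 0 :=
    Subsingleton.elim _ _
  obtain ⟨b, hb⟩ := (H2π_eq_zero_iff_mul ι _).1 h0
  refine ⟨fun g => (b g).1, fun g => (b g).2, fun g h => ?_⟩
  exact congrArg Subtype.val (hb g h)

variable [Finite H]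

/-- **`H²(H, I(L)) → ∏_q H²(H, J_q(L))` is injective** as soon as `H²(H, U_q(L)) = 0` for almost
all `q` (restricted product argument on cocycles). -/
theorem idele_H2_eq_zero_of_local
    (hU : {q : Nat.Primes | ¬ Subsingleton (groupCohomology (Rep.res ι (uqRep L q)) 2)}.Finite)
    (x : groupCohomology (Rep.res ι (ideleRep L)) 2)
    (hx : ∀ q : Nat.Primes, (groupCohomology.functor ℤ H 2).map
      ((Rep.resFunctor ι).map (ideleProjRep L q)) x = 0) : x = 0 := by
  classical
  induction x using H2_induction_on with | @h c =>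
  -- the bad set
  obtain ⟨T₀, hT₀def⟩ : ∃ T₀ : Set Nat.Primes, T₀ =
      {q : Nat.Primes | ¬ Subsingleton (groupCohomology (Rep.res ι (uqRep L q)) 2)} ∪
        ⋃ p : H × H, {q : Nat.Primes |
          (ofV ι ((c : H × H → (resMulRep (A := Idele L) ι).V) p)).1 q ∉ Uq (q : ℕ) L} :=
    ⟨_, rfl⟩
  have hT₀ : T₀.Finite := by
    rw [hT₀def]
    exact hU.union (Set.finite_iUnion fun p =>
      (ofV ι ((c : H × H → (resMulRep (A := Idele L) ι).V) p)).2)
  have hloc := fun q : Nat.Primes => exists_local_coboundary L ι c q (hx q)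
  have hunit : ∀ q : Nat.Primes, q ∉ T₀ → ∃ b : H → Jq (q : ℕ) L,
      (∀ g, b g ∈ Uq (q : ℕ) L) ∧ ∀ g h : H,
      (ofV ι ((c : H × H → (resMulRep (A := Idele L) ι).V) (g, h))).1 q =
        ι g • b h / b (g * h) * b g := by
    intro q hq
    rw [hT₀def] at hq
    apply exists_unit_coboundary L ι c q
    · by_contra h
      exact hq (Or.inl h)
    · intro p
      by_contra h
      exact hq (Or.inr (Set.mem_iUnion.2 ⟨p, h⟩))
  choose b hb using hloc
  choose b' hb'1 hb'2 using hunit
  -- glue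
  have hfin : ∀ g : H, {q : Nat.Primes | (fun q : Nat.Primes =>
      if hq : q ∈ T₀ then b q g else b' q hq g) q ∉ Uq (q : ℕ) L}.Finite := by
    intro g
    refine hT₀.subset ?_
    intro q hq
    by_contra hcon
    apply hq
    show (if hq : q ∈ T₀ then b q g else b' q hq g) ∈ Uq (q : ℕ) L
    rw [dif_neg hcon]
    exact hb'1 q hcon g
  apply (H2π_eq_zero_iff_mul ι c).2
  refine ⟨fun g => ⟨fun q => if hq : q ∈ T₀ then b q g else b' q hq g, hfin g⟩, fun g h => ?_⟩
  apply Idele.ext
  intro q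
  rw [Idele.mul_apply, Idele.div_apply, Idele.smul_apply]
  show (ofV ι ((c : H × H → (resMulRep (A := Idele L) ι).V) (g, h))).1 q =
    ι g • (if hq : q ∈ T₀ then b q h else b' q hq h) /
    (if hq : q ∈ T₀ then b q (g * h) else b' q hq (g * h)) *
    (if hq : q ∈ T₀ then b q g else b' q hq g)
  by_cases hq : q ∈ T₀
  · rw [dif_pos hq, dif_pos hq, dif_pos hq]
    exact hb q g h
  · rw [dif_neg hq, dif_neg hq, dif_neg hq]
    exact hb'2 q hq g h

end Restricted

section HassePrinciple

variable (L : Type) [Field L] [Algebra ℚ L] [Algebra.IsAlgebraic ℚ L] {H : Type} [Group H]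
  [Finite H] (ι : H →* (L ≃ₐ[ℚ] L))

/-- **Hasse principle, abstract `p`-primary form**: if `H¹(H, C(L))` has no `p`-torsion and
`H²(H, U_q(L)) = 0` for almost all `q`, then a `p`-primary class of `H²(H, Lˣ)` which dies in
`H²(H, J_q(L))` for every `q` is zero. -/
theorem hasse_principle_of_class_H1 (p : ℕ) [Fact p.Prime]
    (hC : ∀ (c : groupCohomology (Rep.res ι (classRep L)) 1) (m : ℕ), p ^ m • c = 0 → c = 0)
    (hU : {q : Nat.Primes | ¬ Subsingleton (groupCohomology (Rep.res ι (uqRep L q)) 2)}.Finite)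
    (β : groupCohomology (Rep.res ι (Rep.ofAlgebraAutOnUnits ℚ L)) 2) (m : ℕ)
    (hβ : p ^ m • β = 0)
    (hloc : ∀ q : Nat.Primes, (groupCohomology.functor ℤ H 2).map
      ((Rep.resFunctor ι).map (diagRep L ≫ ideleProjRep L q)) β = 0) : β = 0 := by
  have hX : ((ideleSeq L).map (Rep.resFunctor ι)).ShortExact :=
    (Rep.shortExact_res ι).2 (ideleSeq_shortExact L)
  apply eq_zero_of_map_eq_zero_of_pPrimary hX p hC β m hβ
  apply idele_H2_eq_zero_of_local L ι hU
  intro q
  have h := hloc q
  rw [Functor.map_comp, Functor.map_comp] at h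
  exact h

/-- **Hasse principle (`p`-primary part)** from the two inequalities: `L ∋ ζ_p` a number field,
`H → Aut(L/ℚ)` injective, `H²(H, U_q(L)) = 0` for almost all `q`. -/
theorem hasse_principle {p : ℕ} [Fact p.Prime] (hlayers : GlobalCyclicLayers p)
    (L : Type) [Field L] [NumberField L] {ζ : L} (hζ : IsPrimitiveRoot ζ p)
    {H : Type} [Group H] [Finite H] (ι : H →* (L ≃ₐ[ℚ] L)) (hι : Function.Injective ι)
    (hU : {q : Nat.Primes | ¬ Subsingleton (groupCohomology (Rep.res ι (uqRep L q)) 2)}.Finite)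
    (β : groupCohomology (Rep.res ι (Rep.ofAlgebraAutOnUnits ℚ L)) 2) (m : ℕ)
    (hβ : p ^ m • β = 0)
    (hloc : ∀ q : Nat.Primes, (groupCohomology.functor ℤ H 2).map
      ((Rep.resFunctor ι).map (diagRep L ≫ ideleProjRep L q)) β = 0) : β = 0 :=
  hasse_principle_of_class_H1 L ι p (classGroup_cohomology hlayers L hζ ι hι).1 hU β m hβ hloc

/-- the hypothesis on the units from cohomological triviality -/
theorem finite_not_subsingleton_of_isCohTrivial (hι : Function.Injective ι)
    (hU : {q : Nat.Primes | ¬ IsCohTrivial (uqRep L q)}.Finite) :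
    {q : Nat.Primes | ¬ Subsingleton (groupCohomology (Rep.res ι (uqRep L q)) 2)}.Finite := by
  refine hU.subset ?_
  intro q hq hcon
  exact hq (hcon.of_injective ι hι 1)

end HassePrinciple

end Fermat.Agent.S55lib.Dev
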