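/-
S55 sprint, block (IV-dev) "devissage", file 27: **cohomological triviality of the units at the
unramified primes**, and the resulting hypothesis-free Hasse principle.

* `isCohTrivial_fieldUnitsRep` : the norm-one units of a finite normal unramified `E/ℚ_q` are
  cohomologically trivial (helper2's two elementwise facts + `Dev/CyclicTriv`);
* `isCohTrivial_uqRep_of_unramAt` : hence `U_q(L)` is cohomologically trivial (Shapiro);
* `finite_not_isCohTrivial_uqRep` : for `L/ℚ` finite Galois this holds for almost all `q`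
  (lead's `Places.exists_nat_forall_unramAt`);
* `hasse_principle_galois` : the `p`-primary Hasse principle without the unit hypothesis.
-/
import Mathlib
import Fermat.Agent.S55lib.FirstIneq.UnitsCohTriv
import Fermat.Agent.S55lib.Places.Unram
import Fermat.Agent.S55lib.Dev.CyclicTriv
import Fermat.Agent.S55lib.Dev.Hasse

set_option autoImplicit false
set_option linter.unusedSectionVars false

noncomputable section

namespace Fermat.Agent.S55lib.Dev

open Fermat.Agent.S55lib Fermat.Agent.S55lib.Recip CategoryTheory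

section Local

variable {q : ℕ} [Fact q.Prime]

/-- **the local units of an unramified extension are cohomologically trivial** -/
theorem isCohTrivial_fieldUnitsRep (E : IntermediateField ℚ_[q] (PadicAlgCl q))
    [FiniteDimensional ℚ_[q] E] [Normal ℚ_[q] E] (hE : FirstIneq.UnramAt q E) :
    IsCohTrivial (fieldUnitsRep E) := by
  have : IsCyclic (E ≃ₐ[ℚ_[q]] E) := FirstIneq.isCyclic_aut_of_unramAt E hE
  have : Finite (E ≃ₐ[ℚ_[q]] E) := inferInstance
  apply isCohTrivial_of_cyclic_mul
  · intro c u hN
    obtain ⟨w, hw⟩ := FirstIneq.fieldUnits_exists_smul_div_eq E hE c u hN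
    exact ⟨w, hw.symm⟩
  · intro c u hcu
    obtain ⟨w, hw⟩ := FirstIneq.fieldUnits_exists_prod_smul_eq E hE c u hcu
    exact ⟨w, hw.symm⟩

variable {L : Type} [Field L] [Algebra ℚ L] [Normal ℚ L] [FiniteDimensional ℚ L]

/-- `U_q(L)` is cohomologically trivial when `L` is unramified at (one place above) `q` -/
theorem isCohTrivial_uq_of_unramAt (ι : Emb q L)
    (h : FirstIneq.UnramAt q (localField q L ι)) :
    IsCohTrivial (Rep.ofMulDistribMulAction (L ≃ₐ[ℚ] L) (Uq q L)) :=
  isCohTrivial_uq_of_local ι
    ((isCohTrivial_fieldUnitsRep _ h).res (decompEquiv ι).symm.toMonoidHom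
      (decompEquiv ι).symm.injective)

end Local

section Global

variable (L : Type) [Field L] [NumberField L] [IsGalois ℚ L]

/-- **`U_q(L)` is cohomologically trivial for almost all `q`** -/
theorem finite_not_isCohTrivial_uqRep :
    {q : Nat.Primes | ¬ IsCohTrivial (uqRep L q)}.Finite := by
  obtain ⟨n, hn, h⟩ := Places.exists_nat_forall_unramAt L
  have hfin : {q : Nat.Primes | (q : ℕ) ∣ n}.Finite := by
    have h1 : {d : ℕ | d ∣ n}.Finite := (Finset.finite_toSet (Nat.divisors n)).subset (by
      intro d hd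
      exact Finset.mem_coe.2 (Nat.mem_divisors.2 ⟨hd, hn⟩))
    have e : {q : Nat.Primes | (q : ℕ) ∣ n} = (fun q : Nat.Primes => (q : ℕ)) ⁻¹' {d : ℕ | d ∣ n} :=
      rfl
    rw [e]
    exact h1.preimage (fun a _ b _ hab => Subtype.ext hab)
  refine hfin.subset ?_
  intro q hq
  by_contra hcon
  apply hq
  have hne : Nonempty (Emb (q : ℕ) L) := ⟨IsAlgClosed.lift⟩
  obtain ⟨ι⟩ := hne
  exact isCohTrivial_uq_of_unramAt ι (h (q : ℕ) hcon ι)

/-- **Hasse principle, `p`-primary part** for `L/ℚ` finite Galois containing `ζ_p`: a `p`-primary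
class of `H²(H, Lˣ)` which dies in `H²(H, J_q(L))` for all primes `q` is zero. -/
theorem hasse_principle_galois {p : ℕ} [Fact p.Prime] (hlayers : GlobalCyclicLayers p)
    {ζ : L} (hζ : IsPrimitiveRoot ζ p)
    {H : Type} [Group H] [Finite H] (ι : H →* (L ≃ₐ[ℚ] L)) (hι : Function.Injective ι)
    (β : groupCohomology (Rep.res ι (Rep.ofAlgebraAutOnUnits ℚ L)) 2) (m : ℕ)
    (hβ : p ^ m • β = 0)
    (hloc : ∀ q : Nat.Primes, (groupCohomology.functor ℤ H 2).map
      ((Rep.resFunctor ι).map (diagRep L ≫ ideleProjRep L q)) β = 0) : β = 0 :=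
  hasse_principle hlayers L hζ ι hι
    (finite_not_subsingleton_of_isCohTrivial L ι hι (finite_not_isCohTrivial_uqRep L)) β m hβ hloc

end Global

end Fermat.Agent.S55lib.Dev
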