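/-
S55 sprint, block (IV-dev) "devissage", file 29: **K8 for the class modules `𝒞_T(L)`**.
For `L/ℚ` finite Galois containing `ζ_p`, unramified outside a nonempty set `T` of primes, and
`H → Aut(L/ℚ)` injective: `H¹(H, 𝒞_T(L))` has no `p`-torsion and the `p`-primary part of
`H²(H, 𝒞_T(L))` has order dividing the `p`-part of `|H|`.
-/
import Mathlib
import Fermat.Agent.S55lib.Dev.CompareS
import Fermat.Agent.S55lib.Dev.UnitsLocalTriv

set_option autoImplicit false
set_option linter.unusedSectionVars false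

noncomputable section

namespace Fermat.Agent.S55lib.Dev

open Fermat.Agent.S55lib CategoryTheory groupCohomology

section Transfer

variable {X Y : Type*} [AddCommGroup X] [AddCommGroup Y] (f : X →+ Y) (hf : Function.Bijective f)

include hf in
theorem card_pPrimary_eq_of_bijective (p : ℕ) :
    Nat.card (pPrimary p X) = Nat.card (pPrimary p Y) := by
  apply Nat.card_congr
  refine Equiv.subtypeEquiv (Equiv.ofBijective f hf) ?_
  intro x
  constructor
  · rintro ⟨m, hm⟩
    exact ⟨m, by rw [Equiv.ofBijective_apply, ← map_nsmul, hm, map_zero]⟩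
  · rintro ⟨m, hm⟩
    refine ⟨m, hf.1 ?_⟩
    rw [map_nsmul, map_zero]
    exact hm

include hf in
theorem no_pTorsion_of_bijective (p : ℕ) (h : ∀ (x : X) (m : ℕ), p ^ m • x = 0 → x = 0)
    (y : Y) (m : ℕ) (hy : p ^ m • y = 0) : y = 0 := by
  obtain ⟨x, rfl⟩ := hf.2 y
  rw [h x m (hf.1 (by rw [map_nsmul, map_zero]; exact hy)), map_zero]

end Transfer

variable (L : Type) [Field L] [NumberField L] [IsGalois ℚ L] (T : Set Nat.Primes)

/-- `U^T(L)` is cohomologically trivial when `L` is unramified outside `T` -/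
theorem isCohTrivial_unitsOutsideRep_of_unramAt
    (hur : ∀ q : Nat.Primes, q ∉ T → ∀ κ : Emb (q : ℕ) L,
      FirstIneq.UnramAt (q : ℕ) (localField (q : ℕ) L κ)) :
    IsCohTrivial (unitsOutsideRep L T) := by
  apply isCohTrivial_unitsOutsideRep
  intro q hq
  have hne : Nonempty (Emb (q : ℕ) L) := ⟨IsAlgClosed.lift⟩
  obtain ⟨κ⟩ := hne
  exact isCohTrivial_uq_of_unramAt κ (hur q hq κ)

/-- **K8 for `𝒞_T(L)`.** -/
theorem classGroupS_cohomology {p : ℕ} [Fact p.Prime] (hlayers : GlobalCyclicLayers p)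
    {ζ : L} (hζ : IsPrimitiveRoot ζ p) (hT : T.Nonempty)
    (hur : ∀ q : Nat.Primes, q ∉ T → ∀ κ : Emb (q : ℕ) L,
      FirstIneq.UnramAt (q : ℕ) (localField (q : ℕ) L κ))
    {H : Type} [Group H] [Finite H] (ι : H →* (L ≃ₐ[ℚ] L)) (hι : Function.Injective ι) :
    (∀ (x : groupCohomology (Rep.res ι (classRepS L T)) 1) (m : ℕ), p ^ m • x = 0 → x = 0) ∧
      Nat.card (pPrimary p (groupCohomology (Rep.res ι (classRepS L T)) 2)) ∣
        p ^ (Nat.card H).factorization p := by
  have hU := isCohTrivial_unitsOutsideRep_of_unramAt L T hur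
  obtain ⟨h1, h2⟩ := classGroup_cohomology hlayers L hζ ι hι
  have b1 := classToS_cohomology_bijective L T hT hU ι hι 0
  have b2 := classToS_cohomology_bijective L T hT hU ι hι 1
  constructor
  · exact no_pTorsion_of_bijective
      ((groupCohomology.functor ℤ H (0 + 1)).map
        ((Rep.resFunctor ι).map (classToSRep L T))).hom.toAddMonoidHom b1 p h1
  · have e := card_pPrimary_eq_of_bijective
      ((groupCohomology.functor ℤ H (1 + 1)).map
        ((Rep.resFunctor ι).map (classToSRep L T))).hom.toAddMonoidHom b2 p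
    exact e ▸ h2

end Fermat.Agent.S55lib.Dev
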