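/-
S55 sprint, block (IV-dev) "devissage", file 1: the cocycle-level core of the
inflation-restriction sequence in degree 2.

For a normal subgroup `S` of `G`, a `G`-representation `A` with `H¹(S, A) = 0`
(given in raw form: every 1-cocycle `S → A` is a coboundary), every 2-cocycle
`c : G × G → A` whose restriction to `S × S` is a coboundary is cohomologous to a
2-cocycle which factors through `G ⧸ S × G ⧸ S` and takes values in `A^S`.
-/
import Mathlib

set_option autoImplicit false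

namespace Fermat.Agent.S55lib.Dev

open groupCohomology Rep

universe u

variable {k G : Type u} [CommRing k] [Group G] {A : Rep k G}

/-- The raw 2-cocycle condition (Mathlib's convention, see `mem_cocycles₂_iff`). -/
def IsZ2 (c : G × G → A) : Prop :=
  ∀ g h j : G, c (g * h, j) + c (g, h) = A.ρ g (c (h, j)) + c (g, h * j)

/-- The raw coboundary of a 1-cochain. -/
def dOne (φ : G → A) : G × G → A := fun p => A.ρ p.1 (φ p.2) - φ (p.1 * p.2) + φ p.1

@[simp] theorem dOne_apply (φ : G → A) (g h : G) :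
    dOne φ (g, h) = A.ρ g (φ h) - φ (g * h) + φ g := rfl

theorem isZ2_iff_mem (c : G × G → A) : IsZ2 c ↔ c ∈ cocycles₂ A :=
  (mem_cocycles₂_iff c).symm

theorem dOne_eq_d₁₂ (φ : G → A) : dOne φ = (d₁₂ A).hom φ := rfl

theorem isZ2_dOne (φ : G → A) : IsZ2 (dOne φ) := by
  intro g h j
  simp only [dOne_apply, map_add, map_sub, mul_assoc, map_mul, Module.End.mul_apply]
  abel

theorem IsZ2.sub {c c' : G × G → A} (hc : IsZ2 c) (hc' : IsZ2 c') : IsZ2 (c - c') := by
  intro g h j
  have h1 := hc g h j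
  have h2 := hc' g h j
  simp only [Pi.sub_apply, map_sub]
  rw [sub_add_sub_comm, h1, h2, sub_add_sub_comm]

theorem IsZ2.one_fst {c : G × G → A} (hc : IsZ2 c) (g : G) : c (1, g) = c (1, 1) := by
  have := hc 1 1 g
  simpa [eq_comm] using this

theorem IsZ2.one_snd {c : G × G → A} (hc : IsZ2 c) (g : G) : c (g, 1) = A.ρ g (c (1, 1)) := by
  have := hc g 1 1
  simpa using this

section Steps

variable (S : Subgroup G) [S.Normal]

/-- A chosen representative of the coset of `g` modulo `S`. -/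
noncomputable def cosetRep (g : G) : G := (QuotientGroup.mk g : G ⧸ S).out

omit [S.Normal] in
theorem cosetRep_inv_mul_mem (g : G) : (cosetRep S g)⁻¹ * g ∈ S := by
  have h : (QuotientGroup.mk (cosetRep S g) : G ⧸ S) = QuotientGroup.mk g := Quotient.out_eq' _
  exact QuotientGroup.eq.1 h

theorem mul_cosetRep_inv_mem (g : G) : g * (cosetRep S g)⁻¹ ∈ S := by
  have h := cosetRep_inv_mul_mem S g
  have h2 := Subgroup.Normal.conj_mem ‹S.Normal› _ h (cosetRep S g)
  simpa [mul_assoc] using h2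

theorem cosetRep_mul_left {t : G} (ht : t ∈ S) (g : G) : cosetRep S (t * g) = cosetRep S g := by
  unfold cosetRep
  congr 1
  rw [QuotientGroup.eq]
  have h2 := Subgroup.Normal.conj_mem ‹S.Normal› _ (S.inv_mem ht) g⁻¹
  simpa [mul_assoc] using h2

theorem cosetRep_mem_iff (g : G) : cosetRep S g ∈ S ↔ g ∈ S := by
  have h := mul_cosetRep_inv_mem S g
  constructor
  · intro hr
    have := S.mul_mem h hr
    simpa using this
  · intro hg
    have := S.mul_mem (S.inv_mem h) hg
    simpa using this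

/-- **Step 1.** A 2-cocycle vanishing on `S × S` can be modified by a coboundary so that it
vanishes on `S × G`. -/
theorem infRes_step1 {c : G × G → A} (hc : IsZ2 c) (h0 : ∀ s ∈ S, ∀ t ∈ S, c (s, t) = 0) :
    ∃ φ : G → A, ∀ s ∈ S, ∀ g, (c - dOne φ) (s, g) = 0 := by
  refine ⟨fun g => - c (g * (cosetRep S g)⁻¹, cosetRep S g), ?_⟩
  intro t ht g
  have hr : cosetRep S (t * g) = cosetRep S g := cosetRep_mul_left S ht g
  have hs := mul_cosetRep_inv_mem S g
  have htt : c (t * (cosetRep S t)⁻¹, cosetRep S t) = 0 :=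
    h0 _ (mul_cosetRep_inv_mem S t) _ ((cosetRep_mem_iff S t).2 ht)
  have h1 := hc t (g * (cosetRep S g)⁻¹) (cosetRep S g)
  rw [h0 t ht _ hs, add_zero, inv_mul_cancel_right, ← mul_assoc] at h1
  simp only [Pi.sub_apply, dOne_apply, hr, htt, map_neg, neg_zero, add_zero, h1]
  abel

omit [S.Normal] in
/-- Consequence of vanishing on `S × G`. -/
theorem IsZ2.smul_left_of_vanish {c : G × G → A} (hc : IsZ2 c)
    (h1 : ∀ s ∈ S, ∀ g, c (s, g) = 0) {s : G} (hs : s ∈ S) (g h : G) :
    c (s * g, h) = A.ρ s (c (g, h)) := by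
  have := hc s g h
  rwa [h1 s hs, h1 s hs, add_zero, add_zero] at this

/-- The raw form of `H¹(S, A) = 0`: every 1-cocycle on `S` is a coboundary. -/
def RawH1Vanish : Prop :=
  ∀ f : S → A, (∀ s t : S, f (s * t) = A.ρ (s : G) (f t) + f s) →
    ∃ b : A, ∀ s : S, f s = A.ρ (s : G) b - b

/-- **Step 2.** If `H¹(S, A) = 0`, a 2-cocycle vanishing on `S × G` can be modified by a
coboundary so that it vanishes on `S × G` and on `G × S`. -/
theorem infRes_step2 (hH1 : RawH1Vanish (A := A) S) {c : G × G → A} (hc : IsZ2 c)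
    (h1 : ∀ s ∈ S, ∀ g, c (s, g) = 0) :
    ∃ φ : G → A, (∀ s ∈ S, ∀ g, (c - dOne φ) (s, g) = 0) ∧
      (∀ s ∈ S, ∀ g, (c - dOne φ) (g, s) = 0) := by
  classical
  -- the twisted cocycles
  have hw : ∀ g : G, ∃ β : A, ∀ s ∈ S, c (g, s) = A.ρ (g * s * g⁻¹) β - β := by
    intro g
    have hconj : ∀ s : S, g⁻¹ * (s : G) * g ∈ S := fun s =>
      Subgroup.Normal.conj_mem' ‹S.Normal› _ s.2 g
    obtain ⟨β, hβ⟩ := hH1 (fun s => c (g, g⁻¹ * (s : G) * g)) (by
      intro s t
      have h := hc g (g⁻¹ * (s : G) * g) (g⁻¹ * (t : G) * g)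
      rw [h1 _ (hconj s), map_zero, zero_add] at h
      have e1 : g * (g⁻¹ * (s : G) * g) = (s : G) * g := by group
      have e2 : g⁻¹ * (s : G) * g * (g⁻¹ * (t : G) * g) = g⁻¹ * ((s * t : S) : G) * g := by
        simp only [Subgroup.coe_mul]; group
      rw [e1, e2, IsZ2.smul_left_of_vanish S hc h1 s.2] at h
      exact h.symm)
    refine ⟨β, fun s hs => ?_⟩
    have := hβ ⟨g * s * g⁻¹, Subgroup.Normal.conj_mem ‹S.Normal› _ hs g⟩
    simp only at this
    rw [← this]
    congr 2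
    group
  choose β hβ using hw
  -- the corrected choice, equivariant under left multiplication by `S`
  let b : G → A := fun g => if g ∈ S then 0 else
    A.ρ (g * (cosetRep S g)⁻¹) (β (cosetRep S g))
  have P1 : ∀ t ∈ S, b t = 0 := fun t ht => by simp [b, ht]
  have P2 : ∀ t ∈ S, ∀ g, b (t * g) = A.ρ t (b g) := by
    intro t ht g
    by_cases hg : g ∈ S
    · simp [b, hg, S.mul_mem ht hg]
    · have htg : t * g ∉ S := fun h => hg (by simpa using S.mul_mem (S.inv_mem ht) h)
      simp only [b, hg, htg, if_false, cosetRep_mul_left S ht g, map_mul,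
        Module.End.mul_apply]
  have P3 : ∀ g, ∀ s ∈ S, c (g, s) = A.ρ (g * s * g⁻¹) (b g) - b g := by
    intro g s hs
    by_cases hg : g ∈ S
    · simp [b, hg, h1 g hg]
    · have hu := mul_cosetRep_inv_mem S g
      have hg' : g = (g * (cosetRep S g)⁻¹) * cosetRep S g := by group
      have e1 : c (g, s) = A.ρ (g * (cosetRep S g)⁻¹) (c (cosetRep S g, s)) := by
        conv_lhs => rw [hg']
        exact IsZ2.smul_left_of_vanish S hc h1 hu _ _
      rw [e1, hβ _ s hs]
      simp only [b, hg, if_false, map_sub, ← Module.End.mul_apply, ← map_mul]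
      congr 3
      group
  refine ⟨fun g => - b g, ?_, ?_⟩
  · intro t ht g
    simp only [Pi.sub_apply, dOne_apply, h1 t ht, P2 t ht, P1 t ht, map_neg]
    abel
  · intro s hs g
    have e : g * s = (g * s * g⁻¹) * g := by group
    have hb : b (g * s) = A.ρ (g * s * g⁻¹) (b g) := by
      conv_lhs => rw [e]
      exact P2 _ (Subgroup.Normal.conj_mem ‹S.Normal› _ hs g) g
    simp only [Pi.sub_apply, dOne_apply, P3 g s hs, P1 s hs, hb, neg_zero, map_zero]
    abel

omit [S.Normal] in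
/-- **Step 3a.** Invariance in the second variable under right multiplication. -/
theorem IsZ2.snd_mul_right_of_vanish {c : G × G → A} (hc : IsZ2 c)
    (h2 : ∀ s ∈ S, ∀ g, c (g, s) = 0) {s : G} (hs : s ∈ S) (g h : G) :
    c (g, h * s) = c (g, h) := by
  have := hc g h s
  rw [h2 s hs, h2 s hs, map_zero, zero_add, zero_add] at this
  exact this.symm

/-- **Step 3b.** Invariance in the second variable under left multiplication. -/
theorem IsZ2.snd_mul_left_of_vanish {c : G × G → A} (hc : IsZ2 c)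
    (h2 : ∀ s ∈ S, ∀ g, c (g, s) = 0) {s : G} (hs : s ∈ S) (g h : G) :
    c (g, s * h) = c (g, h) := by
  have e : s * h = h * (h⁻¹ * s * h) := by group
  rw [e]
  exact hc.snd_mul_right_of_vanish S h2 (Subgroup.Normal.conj_mem' ‹S.Normal› _ hs h) g h

/-- **Step 3c.** Invariance in the first variable under right multiplication. -/
theorem IsZ2.fst_mul_right_of_vanish {c : G × G → A} (hc : IsZ2 c)
    (h1 : ∀ s ∈ S, ∀ g, c (s, g) = 0)
    (h2 : ∀ s ∈ S, ∀ g, c (g, s) = 0) {s : G} (hs : s ∈ S) (g h : G) :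
    c (g * s, h) = c (g, h) := by
  have := hc g s h
  rw [h2 s hs, h1 s hs, map_zero, zero_add, add_zero, hc.snd_mul_left_of_vanish S h2 hs] at this
  exact this

/-- **Step 3d.** Invariance in the first variable under left multiplication. -/
theorem IsZ2.fst_mul_left_of_vanish {c : G × G → A} (hc : IsZ2 c)
    (h1 : ∀ s ∈ S, ∀ g, c (s, g) = 0)
    (h2 : ∀ s ∈ S, ∀ g, c (g, s) = 0) {s : G} (hs : s ∈ S) (g h : G) :
    c (s * g, h) = c (g, h) := by
  have e : s * g = g * (g⁻¹ * s * g) := by group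
  rw [e]
  exact hc.fst_mul_right_of_vanish S h1 h2 (Subgroup.Normal.conj_mem' ‹S.Normal› _ hs g) g h

/-- **Step 3e.** The values are `S`-invariant. -/
theorem IsZ2.invariant_of_vanish {c : G × G → A} (hc : IsZ2 c)
    (h1 : ∀ s ∈ S, ∀ g, c (s, g) = 0)
    (h2 : ∀ s ∈ S, ∀ g, c (g, s) = 0) {s : G} (hs : s ∈ S) (g h : G) :
    A.ρ s (c (g, h)) = c (g, h) := by
  rw [← IsZ2.smul_left_of_vanish S hc h1 hs, hc.fst_mul_left_of_vanish S h1 h2 hs]

/-- **Raw exactness.** If `H¹(S, A) = 0` and the restriction of the 2-cocycle `c` to `S × S` is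
a coboundary, then `c` is cohomologous to a 2-cocycle vanishing on `S × G` and on `G × S`. -/
theorem infRes_raw_exact (hH1 : RawH1Vanish (A := A) S) {c : G × G → A} (hc : IsZ2 c)
    (φ₀ : S → A)
    (h0 : ∀ s t : S, c ((s : G), (t : G)) = A.ρ (s : G) (φ₀ t) - φ₀ (s * t) + φ₀ s) :
    ∃ Φ : G → A, (∀ s ∈ S, ∀ g, (c - dOne Φ) (s, g) = 0) ∧
      (∀ s ∈ S, ∀ g, (c - dOne Φ) (g, s) = 0) := by
  classical
  -- extend `φ₀` by zero
  let φ₁ : G → A := fun g => if h : g ∈ S then φ₀ ⟨g, h⟩ else 0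
  have hφ₁ : ∀ s : S, φ₁ (s : G) = φ₀ s := fun s => by simp [φ₁]
  have hc1 : IsZ2 (c - dOne φ₁) := hc.sub (isZ2_dOne φ₁)
  have hv1 : ∀ s ∈ S, ∀ t ∈ S, (c - dOne φ₁) (s, t) = 0 := by
    intro s hs t ht
    have := h0 ⟨s, hs⟩ ⟨t, ht⟩
    have e1 := hφ₁ ⟨s, hs⟩
    have e2 := hφ₁ ⟨t, ht⟩
    have e3 := hφ₁ (⟨s, hs⟩ * ⟨t, ht⟩)
    simp only [Subgroup.coe_mul] at this e1 e2 e3
    simp only [Pi.sub_apply, dOne_apply, e1, e2, e3, this, sub_self]
  obtain ⟨φ₂, hφ₂⟩ := infRes_step1 S hc1 hv1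
  have hc2 : IsZ2 (c - dOne φ₁ - dOne φ₂) := hc1.sub (isZ2_dOne φ₂)
  obtain ⟨φ₃, hφ₃, hφ₃'⟩ := infRes_step2 S hH1 hc2 hφ₂
  have key : c - dOne (φ₁ + φ₂ + φ₃) = c - dOne φ₁ - dOne φ₂ - dOne φ₃ := by
    funext ⟨g, h⟩
    simp only [Pi.sub_apply, dOne_apply, Pi.add_apply, map_add]
    abel
  exact ⟨φ₁ + φ₂ + φ₃, by rw [key]; exact hφ₃, by rw [key]; exact hφ₃'⟩

omit [S.Normal] in
theorem dOne_dZero (b : A) : dOne (fun g : G => A.ρ g b - b) = 0 := by
  funext ⟨g, h⟩
  simp only [dOne_apply, map_sub, map_mul, Module.End.mul_apply, Pi.zero_apply]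
  abel

/-- **Raw injectivity.** If `H¹(S, A) = 0` and a 2-cocycle `c` which is right-`S`-invariant in both
variables with `c (1, 1)` an `S`-invariant is the coboundary of `φ`, then it is also the coboundary
of a right-`S`-invariant function with `S`-invariant values. -/
theorem infRes_raw_injective (hH1 : RawH1Vanish (A := A) S) {c : G × G → A} (hc : IsZ2 c)
    (hr1 : ∀ s ∈ S, ∀ g h, c (g * s, h) = c (g, h))
    (hr2 : ∀ s ∈ S, ∀ g h, c (g, h * s) = c (g, h))
    (hinv : ∀ s ∈ S, A.ρ s (c (1, 1)) = c (1, 1))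
    (φ : G → A) (hφ : c = dOne φ) :
    ∃ ψ : G → A, c = dOne ψ ∧ (∀ s ∈ S, ∀ g, ψ (g * s) = ψ g) ∧
      (∀ s ∈ S, ∀ g, A.ρ s (ψ g) = ψ g) := by
  have hcS : ∀ s ∈ S, ∀ t ∈ S, c (s, t) = c (1, 1) := by
    intro s hs t ht
    have e1 := hr1 s hs 1 t
    have e2 := hr2 t ht 1 1
    rw [one_mul] at e1 e2
    rw [e1, e2]
  obtain ⟨b, hb⟩ := hH1 (fun s => φ (s : G) - c (1, 1)) (by
    intro s t
    have e := congrFun hφ ((s : G), (t : G))
    rw [hcS s s.2 t t.2, dOne_apply] at e
    simp only [Subgroup.coe_mul, map_sub, hinv s s.2]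
    linear_combination (norm := abel) e)
  have hψS : ∀ s ∈ S, φ s - (A.ρ s b - b) = c (1, 1) := by
    intro s hs
    have := hb ⟨s, hs⟩
    simp only at this
    rw [← this]
    abel
  have hd : c = dOne (fun g => φ g - (A.ρ g b - b)) := by
    have : (fun g => φ g - (A.ρ g b - b)) = φ - (fun g => A.ρ g b - b) := rfl
    rw [this]
    have h2 : dOne (φ - fun g => A.ρ g b - b) = dOne φ - dOne (fun g => A.ρ g b - b) := by
      funext ⟨g, h⟩
      simp only [dOne_apply, Pi.sub_apply, map_sub]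
      abel
    rw [h2, dOne_dZero, sub_zero, hφ]
  refine ⟨fun g => φ g - (A.ρ g b - b), hd, ?_, ?_⟩
  · intro s hs g
    have h1 : c (g, s) = A.ρ g (c (1, 1)) := by
      have := hr2 s hs g 1
      rw [one_mul] at this
      rw [this, hc.one_snd]
    have h2 := congrFun hd (g, s)
    rw [h1, dOne_apply, hψS s hs] at h2
    beta_reduce at h2 ⊢
    linear_combination (norm := abel) h2
  · intro s hs g
    have h1 : c (s, g) = c (1, 1) := by
      have := hr1 s hs 1 g
      rw [one_mul] at this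
      rw [this, hc.one_fst]
    have h2 := congrFun hd (s, g)
    rw [h1, dOne_apply, hψS s hs] at h2
    -- right invariance of ψ, proved above
    have h3 : φ (s * g) - (A.ρ (s * g) b - b) = φ g - (A.ρ g b - b) := by
      have e : s * g = g * (g⁻¹ * s * g) := by group
      have h4 : c (g, g⁻¹ * s * g) = A.ρ g (c (1, 1)) := by
        have := hr2 _ (Subgroup.Normal.conj_mem' ‹S.Normal› _ hs g) g 1
        rw [one_mul] at this
        rw [this, hc.one_snd]
      have h5 := congrFun hd (g, g⁻¹ * s * g)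
      rw [h4, dOne_apply, hψS _ (Subgroup.Normal.conj_mem' ‹S.Normal› _ hs g), ← e] at h5
      linear_combination (norm := abel) h5
    beta_reduce at h2 ⊢
    rw [h3] at h2
    linear_combination (norm := abel) -h2

end Steps

end Fermat.Agent.S55lib.Dev
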