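/-
S55 sprint, block (IV-dev) "devissage", file 2: the inflation-restriction sequence in degree 2,
`0 → H²(G ⧸ S, A^S) → H²(G, A) → H²(S, A)`, exact whenever `H¹(S, A) = 0`.
-/
import Mathlib
import Fermat.Agent.S55lib.Dev.InfResRaw

set_option autoImplicit false

namespace Fermat.Agent.S55lib.Dev

open CategoryTheory groupCohomology Rep

universe u

variable {k G : Type u} [CommRing k] [Group G] (A : Rep k G) (S : Subgroup G) [S.Normal]

/-- The inflation map `Hⁿ(G ⧸ S, A^S) ⟶ Hⁿ(G, A)`. -/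
noncomputable abbrev inflMap (n : ℕ) :
    groupCohomology (A.quotientToInvariants S) n ⟶ groupCohomology A n :=
  groupCohomology.map (QuotientGroup.mk' S) (ofHom <| A.ρ.quotientToInvariants_lift S) n

omit [S.Normal] in
/-- The restriction map `Hⁿ(G, A) ⟶ Hⁿ(S, A)`. -/
noncomputable abbrev restMap (n : ℕ) :
    groupCohomology A n ⟶ groupCohomology (res S.subtype A) n :=
  groupCohomology.map S.subtype (𝟙 _) n

omit [S.Normal] in
theorem rawH1Vanish_of_subsingleton
    [Subsingleton (groupCohomology (res S.subtype A) 1)] : RawH1Vanish (A := A) S := by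
  intro f hf
  let z : cocycles₁ (res S.subtype A) := ⟨f, (mem_cocycles₁_iff (A := res S.subtype A) f).2 hf⟩
  have h : H1π _ z = 0 := Subsingleton.elim _ _
  rw [H1π_eq_zero_iff] at h
  obtain ⟨b, hb⟩ := h
  exact ⟨b, fun s => (congrFun hb s).symm⟩

/-- Descent of a 2-cocycle vanishing on `S × G` and `G × S` to `G ⧸ S` with values in `A^S`. -/
theorem exists_cocycle_quotient {c : G × G → A} (hc : IsZ2 c)
    (h1 : ∀ s ∈ S, ∀ g, c (s, g) = 0) (h2 : ∀ s ∈ S, ∀ g, c (g, s) = 0) :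
    ∃ cbar : cocycles₂ (A.quotientToInvariants S), ∀ g h : G,
      ((cbar : (G ⧸ S) × (G ⧸ S) → A.quotientToInvariants S)
        ((g : G ⧸ S), (h : G ⧸ S))).1 = c (g, h) := by
  let f : (G ⧸ S) × (G ⧸ S) → A.quotientToInvariants S := fun p =>
    ⟨c (p.1.out, p.2.out), fun s => hc.invariant_of_vanish S h1 h2 s.2 _ _⟩
  have key : ∀ g h : G, (f ((g : G ⧸ S), (h : G ⧸ S))).1 = c (g, h) := by
    intro g h
    obtain ⟨s, hs⟩ := QuotientGroup.mk_out_eq_mul S g
    obtain ⟨t, ht⟩ := QuotientGroup.mk_out_eq_mul S h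
    change c ((g : G ⧸ S).out, (h : G ⧸ S).out) = c (g, h)
    rw [hs, ht, hc.fst_mul_right_of_vanish S h1 h2 s.2, hc.snd_mul_right_of_vanish S h2 t.2]
  refine ⟨⟨f, ?_⟩, key⟩
  rw [mem_cocycles₂_iff]
  intro x y z
  induction x using QuotientGroup.induction_on with | @H g =>
  induction y using QuotientGroup.induction_on with | @H h =>
  induction z using QuotientGroup.induction_on with | @H j =>
  apply Subtype.ext
  have e := hc g h j
  rw [← QuotientGroup.mk_mul, ← QuotientGroup.mk_mul]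
  have e2 : (((A.ρ.quotientToInvariants S) (g : G ⧸ S)) (f ((h : G ⧸ S), (j : G ⧸ S)))).1 =
      A.ρ g (f ((h : G ⧸ S), (j : G ⧸ S))).1 := by
    rw [Representation.quotientToInvariants, Representation.ofQuotient_coe_apply]
    rfl
  simp only [Submodule.coe_add, key, e2]
  exact e

/-- **Inflation-restriction in degree 2, exactness in the middle.** -/
theorem exists_inflMap_eq_of_restMap_eq_zero
    [Subsingleton (groupCohomology (res S.subtype A) 1)]
    (x : groupCohomology A 2) (hx : restMap A S 2 x = 0) :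
    ∃ y, inflMap A S 2 y = x := by
  induction x using H2_induction_on with | @h c =>
  rw [H2π_comp_map_apply, H2π_eq_zero_iff] at hx
  obtain ⟨φ₀, hφ₀⟩ := hx
  have hc : IsZ2 (c : G × G → A) := (isZ2_iff_mem _).2 c.2
  have h0 : ∀ s t : S, (c : G × G → A) ((s : G), (t : G)) =
      A.ρ (s : G) (φ₀ t) - φ₀ (s * t) + φ₀ s := by
    intro s t
    have := congrFun hφ₀ (s, t)
    exact this.symm
  obtain ⟨Φ, hΦ1, hΦ2⟩ := infRes_raw_exact S (rawH1Vanish_of_subsingleton A S) hc φ₀ h0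
  have hc' : IsZ2 ((c : G × G → A) - dOne Φ) := hc.sub (isZ2_dOne Φ)
  obtain ⟨cbar, hcbar⟩ := exists_cocycle_quotient A S hc' hΦ1 hΦ2
  refine ⟨H2π _ cbar, ?_⟩
  rw [H2π_comp_map_apply, H2π_eq_iff]
  refine ⟨-Φ, ?_⟩
  funext ⟨g, h⟩
  have := hcbar g h
  change A.ρ g ((-Φ) h) - (-Φ) (g * h) + (-Φ) g = (cbar ((g : G ⧸ S), (h : G ⧸ S))).1 - c (g, h)
  rw [this]
  simp only [Pi.neg_apply, map_neg, Pi.sub_apply, dOne_apply]
  abel

/-- **Inflation-restriction in degree 2, injectivity of inflation.** -/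
theorem inflMap_two_injective [Subsingleton (groupCohomology (res S.subtype A) 1)] :
    Function.Injective (inflMap A S 2) := by
  rw [injective_iff_map_eq_zero]
  intro x hx
  induction x using H2_induction_on with | @h cbar =>
  rw [H2π_comp_map_apply, H2π_eq_zero_iff] at hx
  obtain ⟨φ, hφ⟩ := hx
  obtain ⟨c, hcdef⟩ : ∃ c : G × G → A, c = fun p : G × G =>
      (cbar ((p.1 : G ⧸ S), (p.2 : G ⧸ S))).1 := ⟨_, rfl⟩
  have hcval : ∀ g h : G, c (g, h) = (cbar ((g : G ⧸ S), (h : G ⧸ S))).1 := fun g h => by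
    rw [hcdef]
  have hφ : (d₁₂ A).hom φ = c := by
    rw [hcdef]
    exact hφ
  have hc : IsZ2 c := by
    rw [← hφ]
    exact isZ2_dOne φ
  have hmk : ∀ s ∈ S, ∀ g : G, ((g * s : G) : G ⧸ S) = (g : G ⧸ S) := by
    intro s hs g
    rw [QuotientGroup.mk_mul, (QuotientGroup.eq_one_iff s).2 hs, mul_one]
  have hinvc : ∀ s ∈ S, A.ρ s (c (1, 1)) = c (1, 1) := by
    intro s hs
    rw [hcval]
    exact (cbar (((1 : G) : G ⧸ S), ((1 : G) : G ⧸ S))).2 ⟨s, hs⟩
  obtain ⟨ψ, hψ, hψ1, hψ2⟩ := infRes_raw_injective S (rawH1Vanish_of_subsingleton A S) hc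
    (fun s hs g h => by rw [hcval, hcval, hmk s hs])
    (fun s hs g h => by rw [hcval, hcval, hmk s hs])
    hinvc φ hφ.symm
  rw [H2π_eq_zero_iff]
  let ψbar : (G ⧸ S) → A.quotientToInvariants S := fun x => ⟨ψ x.out, fun s => hψ2 s.1 s.2 _⟩
  have key : ∀ g : G, (ψbar (g : G ⧸ S)).1 = ψ g := by
    intro g
    obtain ⟨s, hs⟩ := QuotientGroup.mk_out_eq_mul S g
    change ψ ((g : G ⧸ S).out) = ψ g
    rw [hs, hψ1 s s.2]
  refine ⟨ψbar, ?_⟩
  funext ⟨x, y⟩
  induction x using QuotientGroup.induction_on with | @H g =>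
  induction y using QuotientGroup.induction_on with | @H h =>
  apply Subtype.ext
  have e := congrFun hψ (g, h)
  rw [hcval, dOne_apply] at e
  rw [e]
  change ((A.ρ.quotientToInvariants S (g : G ⧸ S)) (ψbar (h : G ⧸ S)) -
    ψbar ((g : G ⧸ S) * (h : G ⧸ S)) + ψbar (g : G ⧸ S)).1 = _
  have e2 : (((A.ρ.quotientToInvariants S) (g : G ⧸ S)) (ψbar (h : G ⧸ S))).1 =
      A.ρ g (ψbar (h : G ⧸ S)).1 := by
    rw [Representation.quotientToInvariants, Representation.ofQuotient_coe_apply]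
    rfl
  rw [← QuotientGroup.mk_mul]
  simp only [Submodule.coe_add, Submodule.coe_sub, key, e2]

end Fermat.Agent.S55lib.Dev
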