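/-
S55 sprint, block (IV-dev) "devissage", file 30: **abstract `p`-class modules** (finite level).
A `Γ`-module `C` (`Γ` finite) with, for every `K → Γ` injective, `H¹(K, C)[p^∞] = 0` and
`|H²(K, C)(p)| ∣ |K|_p` (K8) and a class of `H²(Γ, C)` whose order is divisible by `|Γ|_p` (K9).
Consequences, for every `f : K → Γ` injective:
* `H²(K, C)(p)` is cyclic of order exactly `|K|_p`;
* restriction `H²(Γ, C)(p) → H²(K, C)(p)` is surjective, and kills the classes killed by `[Γ : K]`;
* `H³(K, C)[p^∞] = 0` (Tate);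
* `H¹(K, C)` is `p`-divisible.
-/
import Mathlib
import Fermat.Agent.S55lib.Dev.Hasse
import Fermat.Agent.S55lib.Recip.ClassTop
import Fermat.Agent.S55lib.TateCoh.ClassModule

set_option autoImplicit false
set_option linter.unusedSectionVars false

noncomputable section

namespace Fermat.Agent.S55lib.Dev

open Fermat.Agent.S55lib CategoryTheory groupCohomology Fermat.Agent.S55lib.Recip
  Fermat.Agent.S55lib.TateCoh Limits

section Basic

variable {k : Type} [CommRing k] {Γ : Type} [Group Γ] (C : Rep.{0} k Γ)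

/-- restriction along an arbitrary homomorphism -/
abbrev resMap {K : Type} [Group K] (f : K →* Γ) (n : ℕ) :
    groupCohomology C n ⟶ groupCohomology (Rep.res f C) n :=
  groupCohomology.map f (𝟙 (Rep.res f C)) n

/-- restriction in stages -/
theorem resMap_comp {K K' : Type} [Group K] [Group K'] (f : K →* Γ) (g : K' →* K) (n : ℕ)
    (x : groupCohomology C n) :
    resMap (Rep.res f C) g n (resMap C f n x) = resMap C (f.comp g) n x := by
  have h := groupCohomology.map_comp (A := C) f g (𝟙 (Rep.res f C))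
    (𝟙 (Rep.res g (Rep.res f C))) n
  have h2 : groupCohomology.map (f.comp g) ((Rep.resFunctor g).map (𝟙 (Rep.res f C)) ≫
      𝟙 (Rep.res g (Rep.res f C))) n = resMap C (f.comp g) n := by
    apply groupCohomology.map_congr rfl
    rfl
  rw [h2] at h
  have := congrArg (fun F => F.hom x) h
  simpa using this.symm

/-- restriction along an injective homomorphism vanishes iff restriction to the range does -/
theorem resMap_eq_zero_iff_range {K : Type} [Group K] (f : K →* Γ) (hf : Function.Injective f)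
    (n : ℕ) (x : groupCohomology C n) :
    resMap C f n x = 0 ↔ restMap C f.range n x = 0 := by
  have hbij : Function.Bijective f.rangeRestrict :=
    ⟨MonoidHom.rangeRestrict_injective_iff.2 hf, f.rangeRestrict_surjective⟩
  let φ : Rep.res f.rangeRestrict (Rep.res f.range.subtype C) ⟶ Rep.res f C :=
    Rep.ofHom ⟨LinearMap.id, fun g => rfl⟩
  have key : resMap C f n x =
      (groupCohomology.map f.rangeRestrict φ n) (restMap C f.range n x) := by
    exact (resMap_comp C f.range.subtype f.rangeRestrict n x).symm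
  have hiso := isIso_map_of_bijective f.rangeRestrict hbij
    (A := Rep.res f.range.subtype C) φ Function.bijective_id n
  have hinj : Function.Injective (groupCohomology.map f.rangeRestrict φ n) :=
    (ConcreteCategory.bijective_of_isIso _).1
  rw [key]
  constructor
  · intro h
    apply hinj
    rw [h, map_zero]
  · intro h
    rw [h, map_zero]

/-- transport of finiteness to the range -/
theorem finite_H2_range {K : Type} [Group K] (f : K →* Γ) (hf : Function.Injective f)
    [Finite (H2 (Rep.res f C))] : Finite (H2 (Rep.res f.range.subtype C)) := by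
  have hbij : Function.Bijective f.rangeRestrict :=
    ⟨MonoidHom.rangeRestrict_injective_iff.2 hf, f.rangeRestrict_surjective⟩
  let φ : Rep.res f.rangeRestrict (Rep.res f.range.subtype C) ⟶ Rep.res f C :=
    Rep.ofHom ⟨LinearMap.id, fun g => rfl⟩
  have hiso := isIso_map_of_bijective f.rangeRestrict hbij
    (A := Rep.res f.range.subtype C) φ Function.bijective_id 2
  have hinj : Function.Injective (groupCohomology.map f.rangeRestrict φ 2) :=
    (ConcreteCategory.bijective_of_isIso _).1
  exact Finite.of_injective _ hinj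

/-- **transfer, homomorphism form**: the kernel of the restriction along an injective `f : K → Γ`
is killed by the index of the image (degree `2`, `H²(K, C)` finite). -/
theorem index_nsmul_eq_zero_of_resMap_eq_zero [Finite Γ] {K : Type} [Group K] (f : K →* Γ)
    (hf : Function.Injective f) [Finite (H2 (Rep.res f C))] (x : H2 C)
    (hx : resMap C f 2 x = 0) : f.range.index • x = 0 := by
  have := finite_H2_range C f hf
  exact index_nsmul_eq_zero_of_restMap_eq_zero C f.range x
    ((resMap_eq_zero_iff_range C f hf 2 x).1 hx)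

theorem index_range_mul_card [Finite Γ] {K : Type} [Group K] (f : K →* Γ)
    (hf : Function.Injective f) : f.range.index * Nat.card K = Nat.card Γ := by
  rw [Nat.card_congr (MonoidHom.ofInjective hf).toEquiv]
  exact Subgroup.index_mul_card f.range

end Basic

section Arith

/-- the positive-degree cohomology of a finite `p`-group is `p`-primary -/
theorem mem_pPrimary_of_isPGroup {p : ℕ} [hp : Fact p.Prime] {G : Type} [Group G] [Finite G]
    (hG : IsPGroup p G) (A : Rep.{0} ℤ G) (n : ℕ) (x : groupCohomology A (n + 1)) :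
    x ∈ pPrimary p (groupCohomology A (n + 1)) := by
  obtain ⟨b, hb⟩ := hG.exists_card_eq
  exact ⟨b, by rw [← hb]; exact card_nsmul_eq_zero A n x⟩

theorem card_pPrimary_eq_of_forall_mem {p : ℕ} {X : Type*} [AddCommGroup X]
    (h : ∀ x : X, x ∈ pPrimary p X) : Nat.card (pPrimary p X) = Nat.card X :=
  Nat.card_congr (Equiv.subtypeUnivEquiv h)

/-- `v_p` of a product with a number whose `p`-part is known -/
theorem pow_dvd_of_pow_dvd_mul {p : ℕ} (hp : p.Prime) {a b i m : ℕ} (hi : i ≠ 0)
    (hfac : i.factorization p + b = a) (h : p ^ a ∣ i * m) : p ^ b ∣ m := by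
  rcases Nat.eq_zero_or_pos m with rfl | hm
  · exact dvd_zero _
  have h1 := (hp.pow_dvd_iff_le_factorization (Nat.mul_ne_zero hi hm.ne')).1 h
  rw [Nat.factorization_mul hi hm.ne'] at h1
  have h2 : b ≤ m.factorization p := by
    simp only [Finsupp.coe_add, Pi.add_apply] at h1
    omega
  exact (hp.pow_dvd_iff_le_factorization hm.ne').2 h2

/-- a subgroup of order dividing `q` containing an element of order divisible by `q` is cyclic of
order `q`, generated by that element -/
theorem exists_nsmul_eq_of_card_dvd {X : Type*} [AddCommGroup X] (Z : AddSubgroup X) {q : ℕ}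
    (hq : q ≠ 0) (hZ : Nat.card Z ∣ q) {w : X} (hw : w ∈ Z)
    (hord : ∀ m : ℕ, m • w = 0 → q ∣ m) :
    (∀ y ∈ Z, ∃ n : ℕ, y = n • w) ∧ Nat.card Z = q ∧ addOrderOf w = q := by
  have hfin : Finite Z := by
    apply Nat.finite_of_card_ne_zero
    intro h0
    rw [h0] at hZ
    exact hq (Nat.eq_zero_of_zero_dvd hZ)
  have h1 : addOrderOf w ∣ Nat.card Z := by
    have := addOrderOf_dvd_natCard (⟨w, hw⟩ : Z)
    rwa [← AddSubgroup.addOrderOf_coe] at this
  have h2 : q ∣ addOrderOf w := hord _ (addOrderOf_nsmul_eq_zero w)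
  have e1 : addOrderOf w = q := Nat.dvd_antisymm (h1.trans hZ) h2
  have e2 : Nat.card Z = q := Nat.dvd_antisymm hZ (e1 ▸ h1)
  refine ⟨fun y hy => ?_, e2, e1⟩
  have htop : AddSubgroup.zmultiples (⟨w, hw⟩ : Z) = ⊤ := by
    apply AddSubgroup.eq_top_of_le_card
    rw [Nat.card_zmultiples, AddSubgroup.addOrderOf_mk, e1, e2]
  have hy' : (⟨y, hy⟩ : Z) ∈ AddSubgroup.zmultiples (⟨w, hw⟩ : Z) := by
    rw [htop]
    trivial
  have hfo : IsOfFinAddOrder (⟨w, hw⟩ : Z) := isOfFinAddOrder_of_finite _
  rw [← hfo.mem_multiples_iff_mem_zmultiples] at hy'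
  obtain ⟨n, hn⟩ := (AddSubmonoid.mem_multiples_iff _ _).1 hy'
  exact ⟨n, (congrArg Subtype.val hn).symm⟩

/-- an element killed by `r` is divisible by any `p` prime to `r` -/
theorem exists_nsmul_eq_of_coprime {X : Type*} [AddCommGroup X] {p r : ℕ}
    (hcop : Nat.Coprime p r) (x : X) (hrx : r • x = 0) : ∃ y : X, p • y = x := by
  obtain ⟨a, b, hab⟩ := Nat.isCoprime_iff_coprime.2 hcop
  refine ⟨a • x, ?_⟩
  have e1 : x = (a * (p : ℤ) + b * (r : ℤ)) • x := by rw [hab, one_zsmul]
  have e2 : (a * (p : ℤ) + b * (r : ℤ)) • x = p • (a • x) := by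
    rw [add_zsmul, mul_zsmul, mul_zsmul, natCast_zsmul, natCast_zsmul, hrx, zsmul_zero, add_zero,
      ← natCast_zsmul, ← natCast_zsmul, smul_comm]
  rw [← e2, ← e1]

/-- torsion elements split into a `p`-primary part and a part of order prime to `p` -/
theorem exists_add_of_nsmul_eq_zero {X : Type*} [AddCommGroup X] {p : ℕ} (hp : p.Prime) {N : ℕ}
    (hN : N ≠ 0) (x : X) (hx : N • x = 0) :
    ∃ y z : X, x = y + z ∧ y ∈ pPrimary p X ∧ ∃ r : ℕ, Nat.Coprime p r ∧ r • z = 0 := by
  have hmul := Nat.ordProj_mul_ordCompl_eq_self N p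
  have hr := Nat.not_dvd_ordCompl hp hN
  set r := N / p ^ N.factorization p with hrdef
  have hcop : Nat.Coprime (p ^ N.factorization p) r :=
    Nat.Coprime.pow_left _ ((Nat.Prime.coprime_iff_not_dvd hp).2 hr)
  obtain ⟨a, b, hab⟩ := Nat.isCoprime_iff_coprime.2 hcop
  refine ⟨(b * (r : ℤ)) • x, (a * ((p ^ N.factorization p : ℕ) : ℤ)) • x, ?_, ?_, r,
    (Nat.Prime.coprime_iff_not_dvd hp).2 hr, ?_⟩
  · rw [← add_zsmul, add_comm, hab, one_zsmul]
  · refine ⟨N.factorization p, ?_⟩
    rw [← natCast_zsmul, ← mul_zsmul, mul_comm, mul_assoc, mul_zsmul, ← Nat.cast_mul, mul_comm r,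
      hmul, natCast_zsmul, hx, zsmul_zero]
  · rw [← natCast_zsmul, ← mul_zsmul, mul_comm, mul_assoc, mul_zsmul, ← Nat.cast_mul, hmul,
      natCast_zsmul, hx, zsmul_zero]

end Arith

section PClass

variable {Γ : Type} [Group Γ] [Finite Γ] (C : Rep.{0} ℤ Γ) (p : ℕ) [hp : Fact p.Prime]

/-- **`p`-class module**: K8-type bounds for all `K → Γ` injective and a class of full `p`-order
in `H²(Γ, C)`. -/
structure PClassModule : Prop where
  /-- `H¹(K, C)` has no `p`-torsion -/
  h1 : ∀ (K : Type) [Group K] [Finite K] (f : K →* Γ), Function.Injective f →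
    ∀ (x : groupCohomology (Rep.res f C) 1) (m : ℕ), p ^ m • x = 0 → x = 0
  /-- `|H²(K, C)(p)|` divides `|K|_p` -/
  h2 : ∀ (K : Type) [Group K] [Finite K] (f : K →* Γ), Function.Injective f →
    Nat.card (pPrimary p (groupCohomology (Rep.res f C) 2)) ∣ p ^ (Nat.card K).factorization p
  /-- a class whose order is divisible by `|Γ|_p` -/
  top : ∃ u : groupCohomology C 2, ∀ m : ℕ, m • u = 0 → p ^ (Nat.card Γ).factorization p ∣ m

namespace PClassModule

variable {C p} (h : PClassModule C p)

include h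

/-- `H¹(P, C) = 0` for `p`-groups `P` -/
theorem subsingleton_H1 {P : Type} [Group P] [Finite P] (hP : IsPGroup p P) (g : P →* Γ)
    (hg : Function.Injective g) : Subsingleton (groupCohomology (Rep.res g C) 1) := by
  refine ⟨fun x y => ?_⟩
  have key : ∀ z : groupCohomology (Rep.res g C) 1, z = 0 := by
    intro z
    obtain ⟨m, hm⟩ := mem_pPrimary_of_isPGroup hP (Rep.res g C) 0 z
    exact h.h1 P g hg z m hm
  rw [key x, key y]

/-- `|H²(P, C)|` divides `|P|` for `p`-groups `P` -/
theorem card_H2_dvd {P : Type} [Group P] [Finite P] (hP : IsPGroup p P) (g : P →* Γ)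
    (hg : Function.Injective g) : Nat.card (H2 (Rep.res g C)) ∣ Nat.card P := by
  have h2 := h.h2 P g hg
  rw [card_pPrimary_eq_of_forall_mem (mem_pPrimary_of_isPGroup hP (Rep.res g C) 1)] at h2
  obtain ⟨b, hb⟩ := hP.exists_card_eq
  have e : (p ^ b).factorization p = b := by
    rw [Nat.factorization_pow, Finsupp.smul_apply, hp.out.factorization_self, smul_eq_mul, mul_one]
  rw [hb, e] at h2
  rw [hb]
  exact h2

theorem finite_H2 {P : Type} [Group P] [Finite P] (hP : IsPGroup p P) (g : P →* Γ)
    (hg : Function.Injective g) : Finite (H2 (Rep.res g C)) := by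
  apply Nat.finite_of_card_ne_zero
  intro h0
  have := h.card_H2_dvd hP g hg
  rw [h0] at this
  exact Nat.card_pos.ne' (Nat.eq_zero_of_zero_dvd this)

/-- the restriction of a class of full `p`-order has full `p`-order -/
theorem top_resMap {u : groupCohomology C 2}
    (hu : ∀ m : ℕ, m • u = 0 → p ^ (Nat.card Γ).factorization p ∣ m)
    {K : Type} [Group K] [Finite K] (f : K →* Γ) (hf : Function.Injective f) (m : ℕ)
    (hm : m • resMap C f 2 u = 0) : p ^ (Nat.card K).factorization p ∣ m := by
  obtain ⟨P⟩ : Nonempty (Sylow p K) := inferInstance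
  have hg : Function.Injective (f.comp P.1.subtype) := hf.comp Subtype.val_injective
  have := h.finite_H2 P.isPGroup' (f.comp P.1.subtype) hg
  have h0 : resMap C (f.comp P.1.subtype) 2 (m • u) = 0 := by
    rw [← resMap_comp, map_nsmul, hm, map_zero]
  have h1 := index_nsmul_eq_zero_of_resMap_eq_zero C (f.comp P.1.subtype) hg (m • u) h0
  rw [← mul_nsmul'] at h1
  have h2 := hu _ h1
  have hcard := index_range_mul_card (f.comp P.1.subtype) hg
  have hP : Nat.card P.1 = p ^ (Nat.card K).factorization p := P.card_eq_multiplicity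
  have hidx : (f.comp P.1.subtype).range.index ≠ 0 := Subgroup.index_ne_zero_of_finite
  refine pow_dvd_of_pow_dvd_mul hp.out hidx ?_ h2
  rw [← hcard, hP, Nat.factorization_mul hidx (pow_ne_zero _ hp.out.ne_zero),
    Nat.factorization_pow]
  simp [hp.out.factorization_self]

/-- a `p`-class module restricts to a `p`-class module -/
theorem res {K : Type} [Group K] [Finite K] (f : K →* Γ) (hf : Function.Injective f) :
    PClassModule (Rep.res f C) p where
  h1 K' _ _ g hg := h.h1 K' (f.comp g) (hf.comp hg)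
  h2 K' _ _ g hg := h.h2 K' (f.comp g) (hf.comp hg)
  top := by
    obtain ⟨u, hu⟩ := h.top
    exact ⟨resMap C f 2 u, fun m hm => h.top_resMap hu f hf m hm⟩

end PClassModule

/-- restriction of the class of a cocycle -/
theorem restMap_H2π' (u : cocycles₂ C) (H : Subgroup Γ) :
    restMap C H 2 (H2π C u) = H2π _ (resCocycle₂ C u H.subtype) := by
  have h := H2π_comp_map_apply H.subtype (𝟙 (Rep.res H.subtype C)) u
  refine h.trans ?_
  congr 1

namespace PClassModule

variable {C p} (h : PClassModule C p)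

include h

/-- over a `p`-group, a `p`-class module has a fundamental cocycle in helper8's sense -/
theorem exists_isFundamental [Fintype Γ] (hΓ : IsPGroup p Γ) :
    ∃ u₀ : cocycles₂ C, IsFundamental C u₀ := by
  obtain ⟨u, hu⟩ := h.top
  obtain ⟨u₀, hu₀⟩ : ∃ u₀ : cocycles₂ C, H2π C u₀ = u :=
    H2_induction_on (C := fun x => ∃ u₀ : cocycles₂ C, H2π C u₀ = x) u (fun x => ⟨x, rfl⟩)
  have hK8 : ∀ H : Subgroup Γ, IsPGroup p H →
      Nat.card (H2 (Rep.res H.subtype C)) ∣ Nat.card H := fun H hH =>
    h.card_H2_dvd hH H.subtype Subtype.val_injective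
  refine ⟨u₀, IsFundamental.of_subgroups (fun H => ?_) (fun H x => ?_) (fun H c hc => ?_)⟩
  · have := h.subsingleton_H1 (hΓ.to_subgroup H) H.subtype Subtype.val_injective
    exact ModuleCat.isZero_of_subsingleton _
  · obtain ⟨hgen, -⟩ := generator_of_top C p hK8 u hu H (hΓ.to_subgroup H)
    obtain ⟨n, hn⟩ := hgen x
    refine ⟨n, ?_⟩
    rw [hn, ← hu₀, restMap_H2π']
    exact (int_smul_eq_zsmul _ n _).symm
  · obtain ⟨-, hord⟩ := generator_of_top C p hK8 u hu H (hΓ.to_subgroup H)
    rw [← restMap_H2π', hu₀] at hc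
    have hc' := (int_smul_eq_zsmul inferInstance c (restMap C H 2 u)).symm.trans hc
    have hdvd : (addOrderOf (restMap C H 2 u) : ℤ) ∣ c :=
      (addOrderOf_dvd_iff_zsmul_eq_zero).mpr hc'
    rw [hord] at hdvd
    obtain ⟨c', hc'⟩ := hdvd
    exact ⟨c', by rw [hc', mul_comm]⟩

/-- **Tate, `H³`**: a `p`-class module has no `p`-torsion in `H³(Γ, C)`. -/
theorem H3_eq_zero_of_pow_nsmul_eq_zero (x : groupCohomology C 3) (m : ℕ)
    (hx : p ^ m • x = 0) : x = 0 := by
  classical
  obtain ⟨P⟩ : Nonempty (Sylow p Γ) := inferInstance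
  let _ : Fintype P.1 := Fintype.ofFinite _
  have hP := h.res P.1.subtype Subtype.val_injective
  obtain ⟨u₀, hfund⟩ := hP.exists_isFundamental P.isPGroup'
  have htf : ∀ (n : ℕ) (a : ℤ), n ≠ 0 → n • a = 0 → a = 0 := by
    intro n a hn ha
    rcases smul_eq_zero.mp ha with h0 | h0
    · exact absurd h0 hn
    · exact h0
  have hz : IsZero (groupCohomology (Rep.res P.1.subtype C) 3) :=
    hfund.isZero_H3 htf (p := p) P.isPGroup'
  refine eq_zero_of_shapiroRes_eq_zero_of_pow_nsmul C p P 3 m x ?_ hx
  have := ModuleCat.subsingleton_of_isZero hz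
  exact Subsingleton.elim _ _

/-- the `p`-primary component of a class of full `p`-order -/
theorem exists_pPrimary_top : ∃ u : groupCohomology C 2,
    u ∈ pPrimary p (groupCohomology C 2) ∧
      ∀ m : ℕ, m • u = 0 → p ^ (Nat.card Γ).factorization p ∣ m := by
  obtain ⟨u, hu⟩ := h.top
  have hN : Nat.card Γ ≠ 0 := Nat.card_pos.ne'
  have hmul := Nat.ordProj_mul_ordCompl_eq_self (Nat.card Γ) p
  have hr := Nat.not_dvd_ordCompl hp.out hN
  refine ⟨(Nat.card Γ / p ^ (Nat.card Γ).factorization p) • u,
    ⟨(Nat.card Γ).factorization p, ?_⟩, fun m hm => ?_⟩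
  · rw [smul_smul, hmul]
    exact card_nsmul_eq_zero C 1 u
  · rw [smul_smul] at hm
    have h1 := hu _ hm
    exact (Nat.Coprime.pow_left _
      ((Nat.Prime.coprime_iff_not_dvd hp.out).2 hr)).dvd_of_dvd_mul_right h1

/-- **`H²(Γ, C)(p)` is cyclic of order `|Γ|_p`.** -/
theorem exists_generator : ∃ u : groupCohomology C 2,
    u ∈ pPrimary p (groupCohomology C 2) ∧
    (∀ m : ℕ, m • u = 0 → p ^ (Nat.card Γ).factorization p ∣ m) ∧
    (∀ y ∈ pPrimary p (groupCohomology C 2), ∃ n : ℕ, y = n • u) ∧
    Nat.card (pPrimary p (groupCohomology C 2)) = p ^ (Nat.card Γ).factorization p ∧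
    addOrderOf u = p ^ (Nat.card Γ).factorization p := by
  obtain ⟨u, hu1, hu2⟩ := h.exists_pPrimary_top
  have h2 := h.h2 Γ (MonoidHom.id Γ) Function.injective_id
  obtain ⟨g1, g2, g3⟩ := exists_nsmul_eq_of_card_dvd (pPrimary p (groupCohomology C 2))
    (pow_ne_zero _ hp.out.ne_zero) h2 hu1 hu2
  exact ⟨u, hu1, hu2, g1, g2, g3⟩

/-- (CF2b, finite level) a `p`-primary class of `H²(Γ, C)` killed by the index of `K` restricts
to zero on `K`. -/
theorem resMap_eq_zero_of_index_nsmul {K : Type} [Group K] [Finite K] (f : K →* Γ)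
    (hf : Function.Injective f) (x : groupCohomology C 2)
    (hx : x ∈ pPrimary p (groupCohomology C 2)) (hidx : f.range.index • x = 0) :
    resMap C f 2 x = 0 := by
  obtain ⟨u, hu1, hu2, hgen, -, -⟩ := h.exists_generator
  obtain ⟨n, rfl⟩ := hgen x hx
  rw [smul_smul] at hidx
  have h1 := hu2 _ hidx
  have hcard := index_range_mul_card f hf
  have hi0 : f.range.index ≠ 0 := Subgroup.index_ne_zero_of_finite
  have hK0 : Nat.card K ≠ 0 := Nat.card_pos.ne'
  have hn : p ^ (Nat.card K).factorization p ∣ n := by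
    refine pow_dvd_of_pow_dvd_mul hp.out hi0 ?_ h1
    rw [← hcard, Nat.factorization_mul hi0 hK0]
    rfl
  -- the restriction of `u` is killed by `|K|_p`
  have hy : resMap C f 2 u ∈ pPrimary p (groupCohomology (Rep.res f C) 2) := by
    obtain ⟨m, hm⟩ := hu1
    exact ⟨m, by rw [← map_nsmul, hm, map_zero]⟩
  have h2 := h.h2 K f hf
  have hfin : Finite (pPrimary p (groupCohomology (Rep.res f C) 2)) := by
    apply Nat.finite_of_card_ne_zero
    intro h0
    rw [h0] at h2
    exact (pow_ne_zero _ hp.out.ne_zero) (Nat.eq_zero_of_zero_dvd h2)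
  have h3 : Nat.card (pPrimary p (groupCohomology (Rep.res f C) 2)) •
      (⟨resMap C f 2 u, hy⟩ : pPrimary p (groupCohomology (Rep.res f C) 2)) = 0 :=
    card_nsmul_eq_zero'
  have h4 : p ^ (Nat.card K).factorization p • resMap C f 2 u = 0 := by
    obtain ⟨c, hc⟩ := h2
    have := congrArg Subtype.val h3
    rw [hc, mul_comm, mul_smul]
    simp only [AddSubgroup.coe_nsmul, ZeroMemClass.coe_zero] at this
    rw [this, smul_zero]
  obtain ⟨c, rfl⟩ := hn
  rw [map_nsmul, mul_comm, mul_smul, h4, smul_zero]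

/-- (CF2c, finite level) restriction is surjective on `p`-primary parts of `H²`. -/
theorem exists_resMap_eq {K : Type} [Group K] [Finite K] (f : K →* Γ)
    (hf : Function.Injective f) (y : groupCohomology (Rep.res f C) 2)
    (hy : y ∈ pPrimary p (groupCohomology (Rep.res f C) 2)) :
    ∃ x ∈ pPrimary p (groupCohomology C 2), resMap C f 2 x = y := by
  obtain ⟨u, hu1, hu2, -, -, -⟩ := h.exists_generator
  have hw : resMap C f 2 u ∈ pPrimary p (groupCohomology (Rep.res f C) 2) := by
    obtain ⟨m, hm⟩ := hu1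
    exact ⟨m, by rw [← map_nsmul, hm, map_zero]⟩
  obtain ⟨g1, -, -⟩ := exists_nsmul_eq_of_card_dvd
    (pPrimary p (groupCohomology (Rep.res f C) 2)) (pow_ne_zero _ hp.out.ne_zero)
    (h.h2 K f hf) hw (fun m hm => h.top_resMap hu2 f hf m hm)
  obtain ⟨n, hn⟩ := g1 y hy
  refine ⟨n • u, (pPrimary p (groupCohomology C 2)).nsmul_mem hu1 n, ?_⟩
  rw [map_nsmul, hn]

/-- (CF1-div, finite level) `H¹(Γ, C)` is `p`-divisible. -/
theorem exists_nsmul_eq_H1 (x : groupCohomology C 1) : ∃ y : groupCohomology C 1, p • y = x := by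
  have hN : Nat.card Γ ≠ 0 := Nat.card_pos.ne'
  have hmul := Nat.ordProj_mul_ordCompl_eq_self (Nat.card Γ) p
  have hr := Nat.not_dvd_ordCompl hp.out hN
  set r := Nat.card Γ / p ^ (Nat.card Γ).factorization p with hrdef
  have hrx : r • x = 0 := by
    apply h.h1 Γ (MonoidHom.id Γ) Function.injective_id (r • x) ((Nat.card Γ).factorization p)
    rw [smul_smul, hmul]
    exact card_nsmul_eq_zero C 0 x
  have hcop : Nat.Coprime p r := (Nat.Prime.coprime_iff_not_dvd hp.out).2 hr
  exact exists_nsmul_eq_of_coprime hcop x hrx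

/-- (CF2a, finite level) a `p`-primary class of `H²(Γ, C)` killed by `p^a` with `a < v_p |Γ|` is
divisible by `p` (inside the `p`-primary part). -/
theorem exists_nsmul_eq_H2 (x : groupCohomology C 2) {a : ℕ}
    (ha : a < (Nat.card Γ).factorization p) (hxa : p ^ a • x = 0) :
    ∃ y ∈ pPrimary p (groupCohomology C 2), p • y = x := by
  obtain ⟨u, hu1, hu2, hgen, -, -⟩ := h.exists_generator
  obtain ⟨n, rfl⟩ := hgen x ⟨a, hxa⟩
  rw [smul_smul] at hxa
  have h1 := hu2 _ hxa
  have h2 : p ^ ((Nat.card Γ).factorization p - a) ∣ n := by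
    have e : p ^ (Nat.card Γ).factorization p = p ^ a * p ^ ((Nat.card Γ).factorization p - a) := by
      rw [← pow_add]
      congr 1
      omega
    rw [e] at h1
    exact Nat.dvd_of_mul_dvd_mul_left (pow_pos hp.out.pos a) h1
  have h3 : p ∣ n := by
    refine dvd_trans ?_ h2
    exact dvd_pow_self p (by omega)
  obtain ⟨c, rfl⟩ := h3
  exact ⟨c • u, (pPrimary p (groupCohomology C 2)).nsmul_mem hu1 c, by rw [mul_smul]⟩

/-- ((T), finite level) `H²(Γ, C)[p]` has at most `p` elements. -/
theorem card_le_of_nsmul_eq_zero (T : Finset (groupCohomology C 2))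
    (hT : ∀ y ∈ T, p • y = 0) : T.card ≤ p := by
  classical
  obtain ⟨u, hu1, hu2, hgen, -, hord⟩ := h.exists_generator
  set a := (Nat.card Γ).factorization p with ha
  have hsub : T ⊆ (Finset.range p).image (fun k : ℕ => (k * p ^ (a - 1)) • u) := by
    intro y hy
    have hy0 := hT y hy
    obtain ⟨n, rfl⟩ := hgen y ⟨1, by rwa [pow_one]⟩
    rw [smul_smul] at hy0
    have h1 := hu2 _ hy0
    rw [Finset.mem_image]
    rcases Nat.eq_zero_or_pos a with h0 | hpos
    · -- trivial `p`-part
      refine ⟨0, Finset.mem_range.2 hp.out.pos, ?_⟩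
      have : u = 0 := by
        have := addOrderOf_nsmul_eq_zero u
        rw [hord, h0, pow_zero, one_smul] at this
        exact this
      rw [this, smul_zero, smul_zero]
    · have e : p ^ a = p * p ^ (a - 1) := by
        rw [← pow_succ']
        congr 1
        omega
      rw [e] at h1
      have h2 : p ^ (a - 1) ∣ n := Nat.dvd_of_mul_dvd_mul_left hp.out.pos h1
      obtain ⟨c, rfl⟩ := h2
      refine ⟨c % p, Finset.mem_range.2 (Nat.mod_lt _ hp.out.pos), ?_⟩
      -- `c = p * (c / p) + c % p`
      have hc : c = c % p + p * (c / p) := (Nat.mod_add_div c p).symm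
      have hpu : (p * p ^ (a - 1)) • u = 0 := by
        rw [← e, ← hord]
        exact addOrderOf_nsmul_eq_zero u
      have e3 : p ^ (a - 1) * c = c % p * p ^ (a - 1) + (c / p) * (p * p ^ (a - 1)) := by
        conv_lhs => rw [hc]
        ring
      rw [e3, add_smul, mul_smul (c / p), hpu, smul_zero, add_zero]
  calc T.card ≤ ((Finset.range p).image (fun k : ℕ => (k * p ^ (a - 1)) • u)).card :=
        Finset.card_le_card hsub
    _ ≤ (Finset.range p).card := Finset.card_image_le
    _ = p := Finset.card_range p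

end PClassModule

end PClass

end Fermat.Agent.S55lib.Dev
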