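/-
S55 sprint, block (IV-dev) "devissage", file 31: **Δ5 — the global class formation axioms
(CF1)–(CF3) and (T) for `(G_ℚ, unrBasis S, CSfull S)` in the limit**, from K8 (for `𝒞_S(L)`), the
abstract `p`-class modules of `Dev/PClass.lean`, the existence of top classes (K9b-min, hypothesis
`TopClassStatement`) and helper4's dictionary `Iface/ClassDict.lean`.
-/
import Mathlib
import Fermat.Agent.S55lib.Iface.ClassDict
import Fermat.Agent.S55lib.Iface.RamBridge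
import Fermat.Agent.S55lib.Iface.CycloLevels
import Fermat.Agent.S55lib.CFDual.Hyp
import Fermat.Agent.S55lib.Dev.PClass
import Fermat.Agent.S55lib.Dev.K8S

set_option autoImplicit false
set_option linter.unusedSectionVars false

noncomputable section

namespace Fermat.Agent.S55lib.Dev

open Fermat.Agent.S55lib CategoryTheory groupCohomology

/-- **K9b-min**: for every normal `L ⊂ ℚ_S` containing `ζ_p` there is a class in
`H²(Aut(L/ℚ), 𝒞_S(L))` whose order is divisible by the `p`-part of `[L : ℚ]`. -/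
def TopClassStatement (p : ℕ) (S : Finset Nat.Primes) : Prop :=
  ∀ (L : FieldQ) [Normal ℚ L], L.IsUnramifiedOutside S → (∃ ζ : ↥L, IsPrimitiveRoot ζ p) →
    ∃ u : groupCohomology (classRepS ↥L (S : Set Nat.Primes)) 2,
      ∀ m : ℕ, m • u = 0 → p ^ (Nat.card (↥L ≃ₐ[ℚ] ↥L)).factorization p ∣ m

section Level

variable {S : Finset Nat.Primes}

theorem numberField_of_isUnramifiedOutside {L : FieldQ} (hL : L.IsUnramifiedOutside S) :
    NumberField ↥L := by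
  have := hL.1
  exact { to_charZero := inferInstance, to_finiteDimensional := inferInstance }

theorem finite_aut_of_isUnramifiedOutside {L : FieldQ} (hL : L.IsUnramifiedOutside S) :
    Finite (↥L ≃ₐ[ℚ] ↥L) := by
  have := hL.1
  infer_instance

variable {p : ℕ} [Fact p.Prime]

/-- **`𝒞_S(L)` is a `p`-class module for `Aut(L/ℚ)`** (K8 + top class). -/
theorem pClassModule_classRepS (hlayers : GlobalCyclicLayers p) (htop : TopClassStatement p S)
    (hS : S.Nonempty) (L : FieldQ) [Normal ℚ L] (hL : L.IsUnramifiedOutside S)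
    (hζ : ∃ ζ : ↥L, IsPrimitiveRoot ζ p) :
    haveI := finite_aut_of_isUnramifiedOutside hL
    PClassModule (classRepS ↥L (S : Set Nat.Primes)) p := by
  have := finite_aut_of_isUnramifiedOutside hL
  have : NumberField ↥L := numberField_of_isUnramifiedOutside hL
  have : IsGalois ℚ ↥L := IsGalois.mk
  obtain ⟨ζ, hζ'⟩ := hζ
  have hSne : (S : Set Nat.Primes).Nonempty := hS
  refine ⟨fun K _ _ f hf => ?_, fun K _ _ f hf => ?_, htop L hL ⟨ζ, hζ'⟩⟩
  · exact (classGroupS_cohomology (↥L) (S : Set Nat.Primes) hlayers hζ' hSne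
      (fun q hq κ => unramAt_localField S L hL q hq κ) f hf).1
  · exact (classGroupS_cohomology (↥L) (S : Set Nat.Primes) hlayers hζ' hSne
      (fun q hq κ => unramAt_localField S L hL q hq κ) f hf).2

/-- **(G)**: for every number field `L`, Galois over `ℚ` and containing `ζ_p`, there is a class in
`H²(Aut(L/ℚ), C(L))` whose order is divisible by the `p`-part of `[L : ℚ]`. -/
def FundClassStatement (p : ℕ) : Prop :=
  ∀ (L : Type) [Field L] [NumberField L] [IsGalois ℚ L] (ζ : L), IsPrimitiveRoot ζ p →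
    ∃ u : groupCohomology (classRep L) 2,
      ∀ m : ℕ, m • u = 0 → p ^ (Nat.card (L ≃ₐ[ℚ] L)).factorization p ∣ m

/-- `H²(Aut(L/ℚ), C(L)) → H²(Aut(L/ℚ), 𝒞_T(L))` is injective when `L` is unramified outside `T` -/
theorem classToS_H2_injective (L : Type) [Field L] [NumberField L] [IsGalois ℚ L]
    (T : Set Nat.Primes) (hT : T.Nonempty)
    (hur : ∀ q : Nat.Primes, q ∉ T → ∀ κ : Emb (q : ℕ) L,
      FirstIneq.UnramAt (q : ℕ) (localField (q : ℕ) L κ)) :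
    Function.Injective ((groupCohomology.functor ℤ (L ≃ₐ[ℚ] L) 2).map (classToSRep L T)) := by
  have hU := isCohTrivial_unitsOutsideRep_of_unramAt L T hur
  exact (classToS_cohomology_bijective L T hT hU (MonoidHom.id _) Function.injective_id 1).1

theorem nsmul_eq_zero_of_injective {A B : Type*} [AddCommGroup A] [AddCommGroup B] (f : A →+ B)
    (hf : Function.Injective f) {n : ℕ} {x : A} (h : n • f x = 0) : n • x = 0 := by
  apply hf
  rw [map_nsmul, h, map_zero]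

/-- **(G) ⇒ K9b-min** -/
theorem topClassStatement_of_fundClass (hG : FundClassStatement p) (hS : S.Nonempty) :
    TopClassStatement p S := by
  intro L _ hL hζ
  have : NumberField ↥L := numberField_of_isUnramifiedOutside hL
  have : IsGalois ℚ ↥L := IsGalois.mk
  obtain ⟨ζ, hζ'⟩ := hζ
  obtain ⟨u, hu⟩ := hG ↥L ζ hζ'
  have hSne : (S : Set Nat.Primes).Nonempty := hS
  have hinj := classToS_H2_injective ↥L (S : Set Nat.Primes) hSne
    (fun q hq κ => unramAt_localField S L hL q hq κ)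
  refine ⟨(groupCohomology.functor ℤ (↥L ≃ₐ[ℚ] ↥L) 2).map (classToSRep ↥L (S : Set Nat.Primes)) u,
    fun m hm => hu m (nsmul_eq_zero_of_injective
      ((groupCohomology.functor ℤ (↥L ≃ₐ[ℚ] ↥L) 2).map
        (classToSRep ↥L (S : Set Nat.Primes))).hom.toAddMonoidHom hinj hm)⟩

end Level

section Limit

variable {S : Finset Nat.Primes} {p : ℕ} [hp : Fact p.Prime]

/-- a subfield of `ℚ̄` whose Galois group fixes `ζ` contains `ζ` -/
theorem mem_of_fixingSubgroup_le {ζ : Qbar} (L : FieldQ) (U₀ : Subgroup GQ)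
    (hU₀ : ∀ v ∈ U₀, v ζ = ζ) (hle : L.fixingSubgroup ≤ U₀) : ζ ∈ L := by
  rw [← InfiniteGalois.fixedField_fixingSubgroup L, IntermediateField.mem_fixedField_iff]
  exact fun v hv => hU₀ v (hle hv)

theorem exists_primitiveRoot_of_mem {ζ : Qbar} (hζ : IsPrimitiveRoot ζ p) (L : FieldQ)
    (hmem : ζ ∈ L) : ∃ ζ' : ↥L, IsPrimitiveRoot ζ' p :=
  ⟨⟨ζ, hmem⟩, IsPrimitiveRoot.of_map_of_injective (f := algebraMap ↥L Qbar)
    (by exact hζ) (algebraMap ↥L Qbar).injective⟩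

variable {W : Type} [Group W] {f : W →* GQ}

theorem finite_gam (𝓛 : ClsLevel S f) : Finite ↥𝓛.Gam := by
  have := finite_aut_of_isUnramifiedOutside 𝓛.unr
  infer_instance

/-- **the module of a level containing `ζ_p` is a `p`-class module** -/
theorem pClassModule_modB (hlayers : GlobalCyclicLayers p) (htop : TopClassStatement p S)
    (hS : S.Nonempty) (𝓛 : ClsLevel S f) (hζ : ∃ ζ : ↥𝓛.L, IsPrimitiveRoot ζ p) :
    haveI := finite_gam 𝓛
    PClassModule 𝓛.modB p := by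
  have := finite_aut_of_isUnramifiedOutside 𝓛.unr
  have := finite_gam 𝓛
  exact (pClassModule_classRepS hlayers htop hS 𝓛.L 𝓛.unr hζ).res 𝓛.Gam.subtype
    Subtype.val_injective

section OpenSubgroup

variable (hlayers : GlobalCyclicLayers p) (htop : TopClassStatement p S) (hS : S.Nonempty)
  {ζ : Qbar} (hζ : IsPrimitiveRoot ζ p) (U₀ : Subgroup GQ) (hU₀ : ∀ v ∈ U₀, v ζ = ζ)
  (V : Subgroup GQ) (hV : (unrBasis S).IsOpen V) (hVU : V ≤ U₀)

include hζ hU₀ hVU in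
theorem exists_primitiveRoot_level (𝓛 : ClsLevel S V.subtype) :
    ∃ ζ' : ↥𝓛.L, IsPrimitiveRoot ζ' p :=
  exists_primitiveRoot_of_mem hζ 𝓛.L
    (mem_of_fixingSubgroup_le 𝓛.L U₀ hU₀ ((𝓛.fixingSubgroup_le V).trans hVU))

include hlayers htop hS hζ hU₀ hV hVU

/-- **(CF1, injectivity)** `H¹(V, C_S)` has no `p`-torsion. -/
theorem cf1_inj_global
    (x : Hsm ((unrBasis S).comap V.subtype) (Rep.res V.subtype (CSfull S)) 1)
    (hx : p • x = 0) : x = 0 := by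
  obtain ⟨𝓛₀⟩ := exists_clsLevel_of_isOpen hV
  obtain ⟨𝓛, -, y, rfl, hy⟩ :=
    (clsSystem hS (clsBasis_subtype S V)).exists_inflH_eq_of_nsmul_eq_zero 𝓛₀ p x hx
  have := finite_gam 𝓛
  have hP := pClassModule_modB hlayers htop hS 𝓛 (exists_primitiveRoot_level hζ U₀ hU₀ V hVU 𝓛)
  have hy0 : y = 0 :=
    hP.h1 ↥𝓛.Gam (MonoidHom.id _) Function.injective_id y 1 (by rw [pow_one]; exact hy)
  rw [hy0, map_zero]

/-- **(CF1, divisibility)** `H¹(V, C_S)` is `p`-divisible. -/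
theorem cf1_div_global
    (x : Hsm ((unrBasis S).comap V.subtype) (Rep.res V.subtype (CSfull S)) 1) :
    ∃ y : Hsm ((unrBasis S).comap V.subtype) (Rep.res V.subtype (CSfull S)) 1, p • y = x := by
  obtain ⟨𝓛₀⟩ := exists_clsLevel_of_isOpen hV
  obtain ⟨𝓛, -, y, rfl⟩ := (clsSystem hS (clsBasis_subtype S V)).exists_inflH_eq 𝓛₀ x
  have := finite_gam 𝓛
  have hP := pClassModule_modB hlayers htop hS 𝓛 (exists_primitiveRoot_level hζ U₀ hU₀ V hVU 𝓛)
  obtain ⟨z, hz⟩ : ∃ z : groupCohomology ((clsSystem hS (clsBasis_subtype S V)).lvl 𝓛).B 1,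
      p • z = y := hP.exists_nsmul_eq_H1 y
  exact ⟨((clsSystem hS (clsBasis_subtype S V)).lvl 𝓛).inflH 1 z, by rw [← hz, map_nsmul]⟩

/-- **(CF3)** `H³(V, C_S)` has no `p`-torsion. -/
theorem cf3_global
    (x : Hsm ((unrBasis S).comap V.subtype) (Rep.res V.subtype (CSfull S)) 3)
    (hx : p • x = 0) : x = 0 := by
  obtain ⟨𝓛₀⟩ := exists_clsLevel_of_isOpen hV
  obtain ⟨𝓛, -, y, rfl, hy⟩ :=
    (clsSystem hS (clsBasis_subtype S V)).exists_inflH_eq_of_nsmul_eq_zero 𝓛₀ p x hx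
  have := finite_gam 𝓛
  have hP := pClassModule_modB hlayers htop hS 𝓛 (exists_primitiveRoot_level hζ U₀ hU₀ V hVU 𝓛)
  have hy0 : y = 0 := hP.H3_eq_zero_of_pow_nsmul_eq_zero y 1 (by rw [pow_one]; exact hy)
  rw [hy0, map_zero]

/-- **(T)** `H²(V, C_S)[p]` has at most `p` elements. -/
theorem card_torsion_le_global
    (T : Finset (Hsm ((unrBasis S).comap V.subtype) (Rep.res V.subtype (CSfull S)) 2))
    (hT : ∀ y ∈ T, p • y = 0) : T.card ≤ p := by
  obtain ⟨𝓛₀⟩ := exists_clsLevel_of_isOpen hV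
  refine (clsSystem hS (clsBasis_subtype S V)).card_le_of_forall_level 𝓛₀ p p ?_ T hT
  intro 𝓛 _ T' hT'
  have := finite_gam 𝓛
  have hP := pClassModule_modB hlayers htop hS 𝓛 (exists_primitiveRoot_level hζ U₀ hU₀ V hVU 𝓛)
  exact hP.card_le_of_nsmul_eq_zero T' hT'

end OpenSubgroup

section Whole

theorem gcd_nsmul_eq_zero {X : Type*} [AddCommGroup X] {a b : ℕ} {x : X} (ha : a • x = 0)
    (hb : b • x = 0) : Nat.gcd a b • x = 0 :=
  addOrderOf_dvd_iff_nsmul_eq_zero.1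
    (Nat.dvd_gcd (addOrderOf_dvd_of_nsmul_eq_zero ha) (addOrderOf_dvd_of_nsmul_eq_zero hb))

theorem nsmul_map_eq_zero {A B : Type*} [AddCommGroup A] [AddCommGroup B] (f : A →+ B) {n : ℕ}
    {x : A} (h : n • x = 0) : n • f x = 0 := by
  rw [← map_nsmul, h, map_zero]

theorem nsmul_map_eq {A B : Type*} [AddCommGroup A] [AddCommGroup B] (f : A →+ B) {n : ℕ}
    {x y : A} (h : n • x = y) : n • f x = f y := by
  rw [← map_nsmul, h]

theorem index_range_inclusion_of_eq_top {G : Type*} [Group G] {H K : Subgroup G} (hle : H ≤ K)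
    (hK : K = ⊤) : (Subgroup.inclusion hle).range.index = H.index := by
  subst hK
  rw [Subgroup.inclusion_range, ← Subgroup.relIndex, Subgroup.relIndex_top_right]

/-- the `G_ℚ`-level above a `V`-level -/
abbrev upLevel (V : Subgroup GQ) (𝓛 : ClsLevel S V.subtype) : ClsLevel S (MonoidHom.id GQ) :=
  ClsLevel.push (f := MonoidHom.id GQ) V.subtype 𝓛

/-- the inclusion `Γ_L(V) → Γ_L(G_ℚ) = Aut(L/ℚ)` -/
abbrev upIncl (V : Subgroup GQ) (𝓛 : ClsLevel S V.subtype) : ↥𝓛.Gam →* ↥(upLevel V 𝓛).Gam :=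
  Subgroup.inclusion (ClsLevel.gam_le_push (f := MonoidHom.id GQ) V.subtype 𝓛)

/-- `[Aut(L/ℚ) : Γ_L(V)] = [G_ℚ : V]`, in the form needed for `PClassModule` -/
theorem index_range_upIncl (V : Subgroup GQ) (𝓛 : ClsLevel S V.subtype) :
    (upIncl V 𝓛).range.index = V.index :=
  (index_range_inclusion_of_eq_top _ (ClsLevel.gam_id_eq_top _)).trans (ClsLevel.index_gam V 𝓛)

/-- the restriction `Hⁿ(Aut(L/ℚ), 𝒞_S(L)) → Hⁿ(Γ_L(V), 𝒞_S(L))` at a level -/
abbrev upRes (V : Subgroup GQ) (𝓛 : ClsLevel S V.subtype) (n : ℕ) :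
    groupCohomology (upLevel V 𝓛).modB n →+ groupCohomology 𝓛.modB n :=
  (groupCohomology.map (A := (upLevel V 𝓛).modB) (B := 𝓛.modB) (upIncl V 𝓛)
    (𝟙 𝓛.modB) n).hom.toAddMonoidHom

variable (hlayers : GlobalCyclicLayers p) (htop : TopClassStatement p S) (hS : S.Nonempty)
  {ζ : Qbar} (hζ : IsPrimitiveRoot ζ p) (U₀ : Subgroup GQ) (hU₀ : ∀ v ∈ U₀, v ζ = ζ)
  (V : Subgroup GQ) (hV : (unrBasis S).IsOpen V) (hVU : V ≤ U₀)

include hlayers htop hS hζ hU₀ hVU in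
theorem pClassModule_upLevel (𝓛 : ClsLevel S V.subtype) :
    haveI := finite_gam (upLevel V 𝓛)
    PClassModule (upLevel V 𝓛).modB p :=
  pClassModule_modB hlayers htop hS (upLevel V 𝓛) (exists_primitiveRoot_level hζ U₀ hU₀ V hVU 𝓛)

include hlayers htop hS hζ hU₀ hVU in
/-- finite level form of (CF2b) -/
theorem upRes_eq_zero (𝓛 : ClsLevel S V.subtype) (y : groupCohomology (upLevel V 𝓛).modB 2)
    (m : ℕ) (hyp : p ^ m • y = 0) (hyi : V.index • y = 0) : upRes V 𝓛 2 y = 0 := by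
  have := finite_gam (upLevel V 𝓛)
  have := finite_gam 𝓛
  have hP := pClassModule_upLevel hlayers htop hS hζ U₀ hU₀ V hVU 𝓛
  exact hP.resMap_eq_zero_of_index_nsmul (upIncl V 𝓛) (Subgroup.inclusion_injective _) y ⟨m, hyp⟩
    (by rw [index_range_upIncl]; exact hyi)

include hlayers htop hS hζ hU₀ hVU in
/-- finite level form of (CF2c) -/
theorem exists_upRes_eq (𝓛 : ClsLevel S V.subtype) (y : groupCohomology 𝓛.modB 2)
    (m : ℕ) (hyp : p ^ m • y = 0) :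
    ∃ x : groupCohomology (upLevel V 𝓛).modB 2, (∃ k : ℕ, p ^ k • x = 0) ∧ upRes V 𝓛 2 x = y := by
  have := finite_gam (upLevel V 𝓛)
  have := finite_gam 𝓛
  have hP := pClassModule_upLevel hlayers htop hS hζ U₀ hU₀ V hVU 𝓛
  obtain ⟨x, hx, hxy⟩ := hP.exists_resMap_eq (upIncl V 𝓛) (Subgroup.inclusion_injective _) y
    ⟨m, hyp⟩
  exact ⟨x, hx, hxy⟩

include hlayers htop hS hζ hU₀ hV hVU

/-- **(CF2b)** a `p`-primary class of `H²(G_ℚ, C_S)` killed by `[G_ℚ : V]` restricts to `0` on `V`. -/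
theorem cf2_res_global (x : Hsm (unrBasis S) (CSfull S) 2) (hxp : ∃ m : ℕ, (p ^ m) • x = 0)
    (hidx : V.index • x = 0) : (CFDual.resHom (unrBasis S) V (CSfull S)).mapH 2 x = 0 := by
  obtain ⟨m, hm⟩ := hxp
  have hd := gcd_nsmul_eq_zero hm hidx
  obtain ⟨𝓛₀⟩ := exists_clsLevel_of_isOpen hV
  obtain ⟨𝓛, hle, y, hyx, hy⟩ :=
    (clsSystem (f := MonoidHom.id GQ) hS (clsBasis_id S)).exists_inflH_eq_of_nsmul_eq_zero
      (upLevel V 𝓛₀) (Nat.gcd (p ^ m) V.index) x hd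
  change ClsLevel S (MonoidHom.id GQ) at 𝓛
  have hleV : 𝓛.L.fixingSubgroup ≤ V :=
    (IntermediateField.fixingSubgroup_antitone hle).trans (𝓛₀.fixingSubgroup_le V)
  obtain ⟨𝓛ᵥ, h𝓛ᵥ⟩ : ∃ 𝓛ᵥ : ClsLevel S V.subtype, upLevel V 𝓛ᵥ = 𝓛 :=
    ⟨@ClsLevel.ofLE S V 𝓛.L 𝓛.normal 𝓛.unr hleV, rfl⟩
  subst h𝓛ᵥ
  have hyp : p ^ m • y = 0 := by
    obtain ⟨c, hc⟩ := Nat.gcd_dvd_left (p ^ m) V.index
    rw [hc, mul_comm, mul_smul, hy, smul_zero]
  have hyi : V.index • y = 0 := by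
    obtain ⟨c, hc⟩ := Nat.gcd_dvd_right (p ^ m) V.index
    rw [hc, mul_comm, mul_smul, hy, smul_zero]
  have h1 := ClsLevel.resHom_inflH hS V 𝓛ᵥ y
  have h3 := upRes_eq_zero hlayers htop hS hζ U₀ hU₀ V hVU 𝓛ᵥ y m hyp hyi
  rw [← hyx]
  refine h1.trans ?_
  have h4 : groupCohomology.map (A := (upLevel V 𝓛ᵥ).modB) (B := 𝓛ᵥ.modB) (upIncl V 𝓛ᵥ)
      (𝟙 𝓛ᵥ.modB) 2 y = 0 := h3
  rw [h4]
  exact map_zero _

/-- **(CF2c)** restriction `H²(G_ℚ, C_S) → H²(V, C_S)` is surjective on `p`-primary parts. -/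
theorem cf2_surj_global
    (y : Hsm ((unrBasis S).comap V.subtype) (Rep.res V.subtype (CSfull S)) 2)
    (hy : ∃ m : ℕ, (p ^ m) • y = 0) :
    ∃ x : Hsm (unrBasis S) (CSfull S) 2, (∃ m : ℕ, (p ^ m) • x = 0) ∧
      (CFDual.resHom (unrBasis S) V (CSfull S)).mapH 2 x = y := by
  obtain ⟨m, hm⟩ := hy
  obtain ⟨𝓛₀⟩ := exists_clsLevel_of_isOpen hV
  obtain ⟨𝓛ᵥ, -, y', hy'y, hy'⟩ :=
    (clsSystem hS (clsBasis_subtype S V)).exists_inflH_eq_of_nsmul_eq_zero 𝓛₀ (p ^ m) y hm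
  change ClsLevel S V.subtype at 𝓛ᵥ
  obtain ⟨x', ⟨k, hk⟩, hx'⟩ :=
    exists_upRes_eq hlayers htop hS hζ U₀ hU₀ V hVU 𝓛ᵥ y' m hy'
  refine ⟨((upLevel V 𝓛ᵥ).lvl hS (clsBasis_id S)).inflH 2 x', ⟨k, ?_⟩, ?_⟩
  · exact nsmul_map_eq_zero _ hk
  · refine (ClsLevel.resHom_inflH hS V 𝓛ᵥ x').trans ?_
    have h4 : groupCohomology.map (A := (upLevel V 𝓛ᵥ).modB) (B := 𝓛ᵥ.modB) (upIncl V 𝓛ᵥ)
        (𝟙 𝓛ᵥ.modB) 2 x' = y' := hx'
    rw [h4]
    exact hy'y

omit hVU in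
/-- **(CF2a)** `H²(G_ℚ, C_S)` is `p`-divisible (`p ∈ S`; here `V` is any open subgroup fixing
`ζ_p`, e.g. `U₀` itself). -/
theorem cf2_div_global (hVU : V ≤ U₀) (hpS : (⟨p, hp.out⟩ : Nat.Primes) ∈ S)
    (x : Hsm (unrBasis S) (CSfull S) 2) : ∃ y : Hsm (unrBasis S) (CSfull S) 2, p • y = x := by
  obtain ⟨𝓛₀⟩ := exists_clsLevel_of_isOpen hV
  obtain ⟨𝓛, hle, y, rfl⟩ :=
    (clsSystem (f := MonoidHom.id GQ) hS (clsBasis_id S)).exists_inflH_eq (upLevel V 𝓛₀) x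
  change ClsLevel S (MonoidHom.id GQ) at 𝓛
  have hζmem : ∀ 𝓛' : ClsLevel S (MonoidHom.id GQ), 𝓛.L ≤ 𝓛'.L →
      ∃ ζ' : ↥𝓛'.L, IsPrimitiveRoot ζ' p := fun 𝓛' hle' =>
    exists_primitiveRoot_of_mem hζ 𝓛'.L (hle' (hle
      (mem_of_fixingSubgroup_le 𝓛₀.L U₀ hU₀ ((𝓛₀.fixingSubgroup_le V).trans hVU))))
  have := finite_gam 𝓛
  have hP := pClassModule_modB hlayers htop hS 𝓛 (hζmem 𝓛 le_rfl)
  -- split `y` into its `p`-primary part and a prime-to-`p` part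
  obtain ⟨yp, y', hsplit, ⟨a, ha⟩, r, hcop, hr⟩ :=
    exists_add_of_nsmul_eq_zero hp.out (Nat.card_pos (α := ↥𝓛.Gam)).ne' y
      (card_nsmul_eq_zero 𝓛.modB 1 y)
  obtain ⟨z', hz'⟩ := exists_nsmul_eq_of_coprime hcop y' hr
  -- deepen the level so that the `p`-part of the group order exceeds `p ^ a`
  obtain ⟨𝓛', hle', hdvd⟩ := ClsLevel.exists_ge_pow_dvd_finrank hpS 𝓛 (a + 1)
  have := finite_gam 𝓛'
  have hP' := pClassModule_modB hlayers htop hS 𝓛' (hζmem 𝓛' hle')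
  have hcard : a < (Nat.card ↥𝓛'.Gam).factorization p := by
    rw [ClsLevel.card_gam_id]
    have hpos : Module.finrank ℚ ↥𝓛'.L ≠ 0 := by
      rw [← ClsLevel.card_gam_id]
      exact (Nat.card_pos (α := ↥𝓛'.Gam)).ne'
    exact Nat.lt_of_succ_le ((hp.out.pow_dvd_iff_le_factorization hpos).1 hdvd)
  set w := ((clsSystem (f := MonoidHom.id GQ) hS (clsBasis_id S)).hom
    (i := 𝓛) (i' := 𝓛') hle').inf 2 yp with hw
  have hwa : p ^ a • w = 0 := by rw [hw, ← map_nsmul, ha, map_zero]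
  obtain ⟨z, -, hz⟩ := hP'.exists_nsmul_eq_H2 w hcard hwa
  refine ⟨(𝓛'.lvl hS (clsBasis_id S)).inflH 2 z + (𝓛.lvl hS (clsBasis_id S)).inflH 2 z', ?_⟩
  have h5 : (𝓛'.lvl hS (clsBasis_id S)).inflH 2 w = (𝓛.lvl hS (clsBasis_id S)).inflH 2 yp :=
    ((clsSystem (f := MonoidHom.id GQ) hS (clsBasis_id S)).hom
      (i := 𝓛) (i' := 𝓛') hle').inflH_inf yp
  have h6 : p • (𝓛'.lvl hS (clsBasis_id S)).inflH 2 z = (𝓛'.lvl hS (clsBasis_id S)).inflH 2 w :=
    nsmul_map_eq _ hz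
  have h7 : p • (𝓛.lvl hS (clsBasis_id S)).inflH 2 z' = (𝓛.lvl hS (clsBasis_id S)).inflH 2 y' :=
    nsmul_map_eq _ hz'
  have h8 : (𝓛.lvl hS (clsBasis_id S)).inflH 2 y =
      (𝓛.lvl hS (clsBasis_id S)).inflH 2 yp + (𝓛.lvl hS (clsBasis_id S)).inflH 2 y' := by
    rw [hsplit]
    exact map_add _ _ _
  rw [smul_add, h6, h7, h5]
  exact h8.symm

omit hVU in
/-- **(T) for `G_ℚ` itself**: `H²(G_ℚ, C_S)[p]` has at most `p` elements. -/
theorem card_torsion_le_global_top (hVU : V ≤ U₀) (T : Finset (Hsm (unrBasis S) (CSfull S) 2))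
    (hT : ∀ y ∈ T, p • y = 0) : T.card ≤ p := by
  obtain ⟨𝓛₀⟩ := exists_clsLevel_of_isOpen hV
  refine (clsSystem (f := MonoidHom.id GQ) hS (clsBasis_id S)).card_le_of_forall_level
    (upLevel V 𝓛₀) p p ?_ T hT
  intro 𝓛 hle T' hT'
  change ClsLevel S (MonoidHom.id GQ) at 𝓛
  have := finite_gam 𝓛
  have hP := pClassModule_modB hlayers htop hS 𝓛
    (exists_primitiveRoot_of_mem hζ 𝓛.L (hle
      (mem_of_fixingSubgroup_le 𝓛₀.L U₀ hU₀ ((𝓛₀.fixingSubgroup_le V).trans hVU))))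
  exact hP.card_le_of_nsmul_eq_zero T' hT'

end Whole

end Limit

end Fermat.Agent.S55lib.Dev
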