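/-
S55 sprint, block (IV-dev) "devissage", file 17: the norm on ideles and idele classes.
For `M/F` (fields algebraic over `ℚ`, `M` finite over `ℚ`): `Idele.norm : I(M) →* I(F)`
(componentwise `Jq.norm`), and for `M/F` Galois `incl (norm x) = ∏_{γ ∈ Gal(M/F)} γ • x`;
the induced `ClassGrp.norm : C(M) →* C(F)`.
-/
import Mathlib
import Fermat.Agent.S55lib.Dev.Descent

set_option autoImplicit false
set_option linter.unusedSectionVars false

noncomputable section

namespace Fermat.Agent.S55lib.Dev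

open Fermat.Agent.S55lib

section Norm

variable {F M : Type*} [Field F] [Field M] [Algebra ℚ F] [Algebra ℚ M] [FiniteDimensional ℚ M]
  (φ : F →ₐ[ℚ] M)

/-- the norm of a unit is a unit -/
theorem Jq_norm_mem_Uq (q : ℕ) [Fact q.Prime] {f : Jq q M} (hf : f ∈ Uq q M) :
    Jq.norm φ f ∈ Uq q F := by
  classical
  intro κ
  rw [Jq.norm_apply, Units.coe_prod, norm_prod]
  exact Finset.prod_eq_one (fun ι _ => hf ι)

/-- the norm `I(M) → I(F)` -/
def Idele.norm : Idele M →* Idele F where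
  toFun x := ⟨fun q => Jq.norm φ (x.1 q), by
    refine x.2.subset ?_
    intro q hq hcon
    exact hq (Jq_norm_mem_Uq φ (q : ℕ) hcon)⟩
  map_one' := by
    apply Idele.ext
    intro q
    exact map_one _
  map_mul' x y := by
    apply Idele.ext
    intro q
    exact map_mul _ _ _

@[simp] theorem Idele.norm_apply (x : Idele M) (q : Nat.Primes) :
    (Idele.norm φ x).1 q = Jq.norm φ (x.1 q) := rfl

end Norm

section Galois

variable (F : Type*) {M : Type*} [Field F] [Field M] [Algebra ℚ F] [Algebra ℚ M] [Algebra F M]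
  [IsScalarTower ℚ F M] [FiniteDimensional ℚ M] [FiniteDimensional F M] [IsGalois F M]

/-- evaluation of a product in `J_q(M)` -/
theorem Jq_prod_apply (q : ℕ) [Fact q.Prime] {α : Type*} (s : Finset α) (g : α → Jq q M)
    (ι : Emb q M) : (∏ a ∈ s, g a).1 ι = ∏ a ∈ s, (g a).1 ι := by
  have h := map_prod ((Pi.evalMonoidHom (fun _ : Emb q M => (PadicAlgCl q)ˣ) ι).comp
    (Jq q M).subtype) g s
  exact h

/-- `incl (norm f) = ∏_{γ ∈ Gal(M/F)} γ • f` -/
theorem Jq_incl_norm (q : ℕ) [Fact q.Prime] (f : Jq q M) :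
    Jq.incl (IsScalarTower.toAlgHom ℚ F M) (Jq.norm (IsScalarTower.toAlgHom ℚ F M) f) =
      ∏ γ : M ≃ₐ[F] M, autToQ F γ • f := by
  classical
  apply Subtype.ext
  funext ι
  rw [Jq.incl_apply, Jq.norm_apply, Jq_prod_apply]
  symm
  apply Finset.prod_bij (fun γ _ => ι.comp ((autToQ F γ : M ≃ₐ[ℚ] M) : M →ₐ[ℚ] M))
  · intro γ _
    rw [Finset.mem_filter]
    refine ⟨Finset.mem_univ _, ?_⟩
    ext x
    simp [Emb.res_apply]
  · intro γ _ γ' _ h
    ext x
    have := congrArg (fun g : Emb q M => g x) h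
    exact ι.injective this
  · intro ι' hι'
    rw [Finset.mem_filter] at hι'
    obtain ⟨γ, hγ⟩ := Emb.exists_aut_of_res_eq ι ι' hι'.2.symm
    exact ⟨γ, Finset.mem_univ _, hγ.symm⟩
  · intro γ _
    rfl

/-- evaluation of a product of ideles -/
theorem Idele.prod_apply {α : Type*} (s : Finset α) (g : α → Idele M) (q : Nat.Primes) :
    (∏ a ∈ s, g a).1 q = ∏ a ∈ s, (g a).1 q :=
  map_prod (Idele.proj M q) g s

/-- `incl (norm x) = ∏_{γ ∈ Gal(M/F)} γ • x` -/
theorem Idele.incl_norm (x : Idele M) :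
    Idele.incl (IsScalarTower.toAlgHom ℚ F M) (Idele.norm (IsScalarTower.toAlgHom ℚ F M) x) =
      ∏ γ : M ≃ₐ[F] M, autToQ F γ • x := by
  apply Idele.ext
  intro q
  rw [Idele.incl_apply, Idele.norm_apply, Jq_incl_norm, Idele.prod_apply]
  rfl

variable [Algebra.IsAlgebraic ℚ F]

/-- the norm of a principal idele is principal -/
theorem Idele.norm_diagI_mem (u : Mˣ) :
    Idele.norm (IsScalarTower.toAlgHom ℚ F M) (diagI M u) ∈ principal F := by
  -- `v = ∏ γ u` is fixed by the Galois group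
  set v : Mˣ := ∏ γ : M ≃ₐ[F] M, Units.map ((autToQ F γ : M ≃ₐ[ℚ] M) : M →* M) u with hv
  have hfix : ∀ γ : M ≃ₐ[F] M, γ (v : M) = v := by
    intro γ
    have h1 : Units.map ((autToQ F γ : M ≃ₐ[ℚ] M) : M →* M) v = v := by
      rw [hv, map_prod]
      apply Fintype.prod_equiv (Equiv.mulLeft γ)
      intro γ'
      ext
      rfl
    exact congrArg (fun w : Mˣ => (w : M)) h1
  obtain ⟨w, hw⟩ := exists_unit_map_eq_of_fixed F v hfix
  refine ⟨w, ?_⟩
  apply Idele.incl_injective (IsScalarTower.toAlgHom ℚ F M)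
  rw [Idele.incl_diagI, Idele.incl_norm]
  have h2 : (∏ γ : M ≃ₐ[F] M, autToQ F γ • diagI M u) = diagI M v := by
    rw [hv, map_prod]
    apply Finset.prod_congr rfl
    intro γ _
    exact smul_diagI (autToQ F γ) u
  rw [h2, ← hw]
  congr 1

/-- the norm `C(M) → C(F)` -/
def ClassGrp.norm : ClassGrp M →* ClassGrp F :=
  QuotientGroup.map (principal M) (principal F) (Idele.norm (IsScalarTower.toAlgHom ℚ F M)) (by
    rintro _ ⟨u, rfl⟩
    exact Idele.norm_diagI_mem F u)

@[simp] theorem ClassGrp.norm_mk (x : Idele M) :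
    ClassGrp.norm F (QuotientGroup.mk x) =
      QuotientGroup.mk (Idele.norm (IsScalarTower.toAlgHom ℚ F M) x) := rfl

/-- `incl (norm c) = ∏_{γ ∈ Gal(M/F)} γ • c` -/
theorem ClassGrp.incl_norm (c : ClassGrp M) :
    ClassGrp.incl (IsScalarTower.toAlgHom ℚ F M) (ClassGrp.norm F c) =
      ∏ γ : M ≃ₐ[F] M, autToQ F γ • c := by
  obtain ⟨x, rfl⟩ := QuotientGroup.mk_surjective c
  rw [ClassGrp.norm_mk, ClassGrp.incl_mk, Idele.incl_norm]
  exact map_prod (QuotientGroup.mk' (principal M)) _ _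

/-- the range of the norm on classes is the image of `Mˣ · N I(M)` -/
theorem ClassGrp.range_norm :
    (ClassGrp.norm F (M := M)).range =
      (principal F ⊔ (Idele.norm (IsScalarTower.toAlgHom ℚ F M)).range).map
        (QuotientGroup.mk' (principal F)) := by
  ext c
  constructor
  · rintro ⟨c', rfl⟩
    obtain ⟨x, rfl⟩ := QuotientGroup.mk_surjective c'
    exact ⟨_, Subgroup.mem_sup_right ⟨x, rfl⟩, rfl⟩
  · rintro ⟨y, hy, rfl⟩
    have hy' : y ∈ principal F ⊔ (Idele.norm (IsScalarTower.toAlgHom ℚ F M)).range := hy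
    rw [Subgroup.mem_sup] at hy'
    obtain ⟨a, ha, b, ⟨x, rfl⟩, rfl⟩ := hy'
    refine ⟨QuotientGroup.mk x, ?_⟩
    rw [ClassGrp.norm_mk, QuotientGroup.mk'_apply, QuotientGroup.eq]
    have : (Idele.norm (IsScalarTower.toAlgHom ℚ F M) x)⁻¹ *
        (a * Idele.norm (IsScalarTower.toAlgHom ℚ F M) x) = a := by
      rw [mul_comm a, inv_mul_cancel_left]
    rw [this]
    exact ha

/-- the index of the norm group of classes is the index of `Fˣ · N I(M)` in `I(F)` -/
theorem ClassGrp.index_range_norm :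
    (ClassGrp.norm F (M := M)).range.index =
      (principal F ⊔ (Idele.norm (IsScalarTower.toAlgHom ℚ F M)).range).index := by
  rw [ClassGrp.range_norm]
  apply Subgroup.index_map_eq _ (QuotientGroup.mk'_surjective _)
  rw [QuotientGroup.ker_mk']
  exact le_sup_left

end Galois

end Fermat.Agent.S55lib.Dev
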