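/-
S55 sprint, block (IV-dev) "devissage", file 18: the index `[ker (S - 1) : im N]` of a cyclic layer
`M/F` on `C(M)` is the norm index `[I(F) : Fˣ · N I(M)]`; hence K7 in idele form
(`(principal F ⊔ range (Idele.norm)).index ∣ p`) gives `SecondIneqStatement p`.
-/
import Mathlib
import Fermat.Agent.S55lib.Dev.IdeleNorm
import Fermat.Agent.S55lib.Dev.K8

set_option autoImplicit false
set_option linter.unusedSectionVars false

noncomputable section

namespace Fermat.Agent.S55lib.Dev

open Fermat.Agent.S55lib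

section

variable (F M : Type) [Field F] [Field M] [NumberField F] [NumberField M] [Algebra F M]
  [IsGalois F M] (σ : M ≃ₐ[F] M) (p : ℕ)

/-- the norm operator of a generator is the product over the Galois group -/
theorem nrmHom_eq_prod (hgen : ∀ τ : M ≃ₐ[F] M, τ ∈ Subgroup.zpowers σ)
    (hcard : Nat.card (M ≃ₐ[F] M) = p) (c : ClassGrp M) :
    nrmHom p (actHom (autToQ F σ) : ClassGrp M →* ClassGrp M) c =
      ∏ γ : M ≃ₐ[F] M, autToQ F γ • c := by
  classical
  have himg := IsCyclic.image_range_orderOf hgen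
  have hord : orderOf σ = p := by rw [orderOf_eq_card_of_forall_mem_zpowers hgen, hcard]
  rw [nrmHom_apply, ← himg, Finset.prod_image, hord]
  · apply Finset.prod_congr rfl
    intro i _
    rw [actHom_iterate, map_pow]
  · intro i hi j hj hij
    exact pow_injOn_Iio_orderOf (by simpa using hi) (by simpa using hj) hij

/-- `ker (S - 1)` is the image of `C(F)` -/
theorem ker_difHom_eq_range_incl (hgen : ∀ τ : M ≃ₐ[F] M, τ ∈ Subgroup.zpowers σ) :
    (difHom (actHom (autToQ F σ) : ClassGrp M →* ClassGrp M)).ker =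
      (ClassGrp.incl (IsScalarTower.toAlgHom ℚ F M)).range := by
  ext c
  rw [MonoidHom.mem_ker, difHom_apply, div_eq_one, actHom_apply]
  constructor
  · intro hc
    have hall : ∀ γ : M ≃ₐ[F] M, autToQ F γ • c = c := by
      intro γ
      obtain ⟨n, rfl⟩ := Subgroup.mem_zpowers_iff.1 (hgen γ)
      rw [map_zpow]
      have hmem : autToQ F σ ∈ MulAction.stabilizer (M ≃ₐ[ℚ] M) c := hc
      exact (MulAction.stabilizer (M ≃ₐ[ℚ] M) c).zpow_mem hmem n
    obtain ⟨c', hc'⟩ := ClassGrp.exists_incl_eq_of_invariant F c hall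
    exact ⟨c', hc'⟩
  · rintro ⟨c', rfl⟩
    have h := ClassGrp.incl_smul (IsScalarTower.toAlgHom ℚ F M) 1 (autToQ F σ)
      (fun x => by simp) c'
    rw [one_smul] at h
    exact h.symm

/-- `im N` is the image of the norm group of `C(F)` -/
theorem range_nrmHom_eq_map (hgen : ∀ τ : M ≃ₐ[F] M, τ ∈ Subgroup.zpowers σ)
    (hcard : Nat.card (M ≃ₐ[F] M) = p) :
    (nrmHom p (actHom (autToQ F σ) : ClassGrp M →* ClassGrp M)).range =
      (ClassGrp.norm F (M := M)).range.map (ClassGrp.incl (IsScalarTower.toAlgHom ℚ F M)) := by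
  ext c
  constructor
  · rintro ⟨c', rfl⟩
    refine ⟨ClassGrp.norm F c', ⟨c', rfl⟩, ?_⟩
    rw [ClassGrp.incl_norm, nrmHom_eq_prod F M σ p hgen hcard]
  · rintro ⟨_, ⟨c', rfl⟩, rfl⟩
    refine ⟨c', ?_⟩
    rw [ClassGrp.incl_norm, nrmHom_eq_prod F M σ p hgen hcard]

/-- **`[ker (S - 1) : im N] = [I(F) : Fˣ · N I(M)]`** -/
theorem relIndex_nrmHom_difHom_eq_index (hgen : ∀ τ : M ≃ₐ[F] M, τ ∈ Subgroup.zpowers σ)
    (hcard : Nat.card (M ≃ₐ[F] M) = p) :
    (nrmHom p (actHom (autToQ F σ) : ClassGrp M →* ClassGrp M)).range.relIndex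
        (difHom (actHom (autToQ F σ) : ClassGrp M →* ClassGrp M)).ker =
      (principal F ⊔ (Idele.norm (IsScalarTower.toAlgHom ℚ F M)).range).index := by
  rw [range_nrmHom_eq_map F M σ p hgen hcard, ker_difHom_eq_range_incl F M σ hgen,
    MonoidHom.range_eq_map (ClassGrp.incl (IsScalarTower.toAlgHom ℚ F M)),
    Subgroup.relIndex_map_map_of_injective _ _ (ClassGrp.incl_injective F),
    Subgroup.relIndex_top_right, ClassGrp.index_range_norm]

end

/-- K7 in idele form gives the second inequality statement -/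
theorem secondIneqStatement_of_index (p : ℕ)
    (h : ∀ (F M : Type) [Field F] [Field M] [NumberField F] [NumberField M] [Algebra F M]
      [IsGalois F M] (σ : M ≃ₐ[F] M), IsKummerLayer p F M σ →
      (principal F ⊔ (Idele.norm (IsScalarTower.toAlgHom ℚ F M)).range).index ∣ p) :
    SecondIneqStatement p := by
  intro F M _ _ _ _ _ _ σ hσ
  rw [relIndex_nrmHom_difHom_eq_index F M σ p hσ.gen hσ.card]
  exact h F M σ hσ

end Fermat.Agent.S55lib.Dev
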