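/-
S55 sprint, block (IV-dev) "devissage", file 32: **the global class formation data and global K4.**
`CFData (unrBasis S) p U₀ (CSfull S)` for `U₀ = Gal(ℚ̄/ℚ(ζ_p))`, `p` odd, `p ∈ S`, from
* (CF1)–(CF3) and (T): `Dev/Delta5.lean` (K8 for `𝒞_S(L)`, the `p`-class modules, the dictionary),
  with the cyclic layers proved in `Places/CyclicLayers.lean`;
* (CF4): helper3/helper1 (`ExistP/GlobalCF4.lean`);
the only remaining hypothesis is the existence of top classes (`TopClassStatement`, K9b-min) or,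
equivalently for our purposes, `FundClassStatement` (G).  Then helper8's `k4_of_cfData` gives the
global duality statement K4.
-/
import Mathlib
import Fermat.Agent.S55lib.Dev.Delta5
import Fermat.Agent.S55lib.ExistP.GlobalCF4
import Fermat.Agent.S55lib.LocalUnr.GlobalU0
import Fermat.Agent.S55lib.CFDual.Main
import Fermat.Agent.S55lib.Places.CyclicLayers

set_option autoImplicit false
set_option linter.unusedSectionVars false

noncomputable section

namespace Fermat.Agent.S55lib.Dev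

open Fermat.Agent.S55lib CategoryTheory groupCohomology

variable {S : Finset Nat.Primes} {p : ℕ} [hp : Fact p.Prime]

/-- **the global class formation data** for an open subgroup `U₀` fixing `ζ_p` -/
theorem cfData_global (hp2 : p ≠ 2) (hpS : (⟨p, hp.out⟩ : Nat.Primes) ∈ S)
    (htop : TopClassStatement p S) {ζ : Qbar} (hζ : IsPrimitiveRoot ζ p) (U₀ : Subgroup GQ)
    (hU₀ : ∀ v ∈ U₀, v ζ = ζ) (hopen : (unrBasis S).IsOpen U₀) :
    CFDual.CFData (unrBasis S) p U₀ (CSfull S) := by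
  have hlayers : GlobalCyclicLayers p := Places.globalCyclicLayers hp2
  have hS : S.Nonempty := ⟨_, hpS⟩
  have hcf1 : ∀ W : Subgroup GQ, (unrBasis S).IsOpen W → W ≤ U₀ →
      ∀ x : Hsm ((unrBasis S).comap W.subtype) (Rep.res W.subtype (CSfull S)) 1,
        p • x = 0 → x = 0 := fun W hW hWU x hx =>
    cf1_inj_global hlayers htop hS hζ U₀ hU₀ W hW hWU x hx
  have hT : ∀ V : Subgroup GQ, (unrBasis S).IsOpen V → V ≤ U₀ →
      ∀ A : Finset (Hsm ((unrBasis S).comap V.subtype) (Rep.res V.subtype (CSfull S)) 2),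
        (∀ y ∈ A, p • y = 0) → A.card ≤ p := fun V hV hVU A hA =>
    card_torsion_le_global hlayers htop hS hζ U₀ hU₀ V hV hVU A hA
  exact
    { cf1_inj := hcf1
      cf1_div := fun V hV hVU x => cf1_div_global hlayers htop hS hζ U₀ hU₀ V hV hVU x
      cf2_div := fun x =>
        cf2_div_global hlayers htop hS hζ U₀ hU₀ U₀ hopen le_rfl hpS x
      cf2_res := fun V hV hVU x hx hidx =>
        cf2_res_global hlayers htop hS hζ U₀ hU₀ V hV hVU x hx hidx
      cf2_surj := fun V hV hVU y hy =>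
        cf2_surj_global hlayers htop hS hζ U₀ hU₀ V hV hVU y hy
      cf3 := fun V hV hVU x hx => cf3_global hlayers htop hS hζ U₀ hU₀ V hV hVU x hx
      cf4_inj := fun V hV hVU c hc h =>
        ExistP.cf4_inj_global_of_cf1 hp2 hpS U₀ hζ hU₀ hcf1 V hV hVU c hc h
      cf4_surj := fun V hV hVU φ =>
        ExistP.cf4_surj_global_of_cf1 hp2 hpS U₀ hζ hU₀ hcf1 hT V hV hVU φ }

/-- **global K4** (duality for `(G_ℚ, unrBasis S, C_S)`), modulo the existence of top classes -/
theorem k4_global (hp2 : p ≠ 2) (hpS : (⟨p, hp.out⟩ : Nat.Primes) ∈ S)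
    (htop : TopClassStatement p S) : CFDual.K4Statement (unrBasis S) p (CSfull S) := by
  have : NeZero p := ⟨hp.out.ne_zero⟩
  obtain ⟨ζ, hζ⟩ := HasEnoughRootsOfUnity.exists_primitiveRoot Qbar p
  obtain ⟨F, hF, -, hmem⟩ := exists_level_mem_of_pow_eq_one S hpS 1
    (ζ := ζ) (by rw [pow_one]; exact hζ.pow_eq_one)
  have hopen : (unrBasis S).IsOpen (LocalUnr.U0 ζ) := LocalUnr.isOpen_U0 S ⟨F, hF, hmem⟩
  exact CFDual.k4_of_cfData (unrBasis S) p
    (cfData_global hp2 hpS htop hζ (LocalUnr.U0 ζ) (LocalUnr.U0_fixes ζ) hopen)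
    (CSfull_isSm S) hopen (LocalUnr.coprime_index_U0 hζ)

/-- **global K4 from (G)** -/
theorem k4_global_of_fundClass (hp2 : p ≠ 2) (hpS : (⟨p, hp.out⟩ : Nat.Primes) ∈ S)
    (hG : FundClassStatement p) : CFDual.K4Statement (unrBasis S) p (CSfull S) :=
  k4_global hp2 hpS (topClassStatement_of_fundClass hG ⟨_, hpS⟩)

/-- **(T) for `G_ℚ`**: `H²(G_ℚ, C_S)[p]` has at most `p` elements (`p` odd, `p ∈ S`). -/
theorem card_torsion_le_top (hp2 : p ≠ 2) (hpS : (⟨p, hp.out⟩ : Nat.Primes) ∈ S)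
    (htop : TopClassStatement p S) (T : Finset (Hsm (unrBasis S) (CSfull S) 2))
    (hT : ∀ y ∈ T, p • y = 0) : T.card ≤ p := by
  have : NeZero p := ⟨hp.out.ne_zero⟩
  obtain ⟨ζ, hζ⟩ := HasEnoughRootsOfUnity.exists_primitiveRoot Qbar p
  obtain ⟨F, hF, -, hmem⟩ := exists_level_mem_of_pow_eq_one S hpS 1
    (ζ := ζ) (by rw [pow_one]; exact hζ.pow_eq_one)
  have hopen : (unrBasis S).IsOpen (LocalUnr.U0 ζ) := LocalUnr.isOpen_U0 S ⟨F, hF, hmem⟩
  exact card_torsion_le_global_top (Places.globalCyclicLayers hp2) htop ⟨_, hpS⟩ hζ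
    (LocalUnr.U0 ζ) (LocalUnr.U0_fixes ζ) (LocalUnr.U0 ζ) hopen le_rfl T hT

end Fermat.Agent.S55lib.Dev
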