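/-
S55 sprint, block (IV-dev) "devissage", file 23: Shapiro for the semilocal units.
For `L/ℚ` finite normal and `ι : Emb q L`: `U_q(L) ≅ Coind_{D_q(ι)}^{Aut(L/ℚ)} U(L_q)` as
representations of `Aut(L/ℚ)` (restriction of helper9's `JqCoindIso`), hence `U_q(L)` is
cohomologically trivial as soon as the local units `U(L_q)` are so for the decomposition group.
-/
import Mathlib
import Fermat.Agent.S55lib.Recip.LocalBridge
import Fermat.Agent.S55lib.Dev.UnitsRep

set_option autoImplicit false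
set_option linter.unusedSectionVars false

noncomputable section

namespace Fermat.Agent.S55lib.Dev

open Fermat.Agent.S55lib Fermat.Agent.S55lib.Recip

variable {q : ℕ} [Fact q.Prime]

/-- elements of `G_q` are isometries -/
theorem norm_galQq (d : GalQq q) (y : PadicAlgCl q) : ‖d y‖ = ‖y‖ :=
  (spectralNorm_eq_of_equiv d y).symm

/-- the units of norm one of an intermediate field of `ℚ̄_q/ℚ_q` -/
def fieldUnits (E : IntermediateField ℚ_[q] (PadicAlgCl q)) : Subgroup (↥E)ˣ where
  carrier := {y | ‖((y : ↥E) : PadicAlgCl q)‖ = 1}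
  one_mem' := by simp
  mul_mem' := fun {a b} ha hb => by
    simp only [Set.mem_ofPred_eq] at ha hb ⊢
    rw [Units.val_mul, MulMemClass.coe_mul, norm_mul, ha, hb, mul_one]
  inv_mem' := fun {a} ha => by
    simp only [Set.mem_ofPred_eq] at ha ⊢
    have h1 : ((a⁻¹ : (↥E)ˣ) : ↥E) * (a : ↥E) = 1 := by simp
    have h2 := congrArg (fun z : ↥E => ‖(z : PadicAlgCl q)‖) h1
    simp only [MulMemClass.coe_mul, norm_mul, ha, mul_one, OneMemClass.coe_one, norm_one] at h2
    exact h2

theorem mem_fieldUnits_iff (E : IntermediateField ℚ_[q] (PadicAlgCl q)) (y : (↥E)ˣ) :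
    y ∈ fieldUnits E ↔ ‖((y : ↥E) : PadicAlgCl q)‖ = 1 := Iff.rfl

/-- shortcut instance -/
instance unitsActionShortcut (E : IntermediateField ℚ_[q] (PadicAlgCl q)) :
    MulDistribMulAction (E ≃ₐ[ℚ_[q]] E) (↥E)ˣ := AlgEquiv.instMulDistribMulActionUnits

/-- shortcut instance -/
instance unitsSMulShortcut (E : IntermediateField ℚ_[q] (PadicAlgCl q)) :
    SMul (E ≃ₐ[ℚ_[q]] E) (↥E)ˣ := (unitsActionShortcut E).toSMul

/-- automorphisms of a normal intermediate field are isometries -/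
theorem norm_aut_eq (E : IntermediateField ℚ_[q] (PadicAlgCl q)) [Normal ℚ_[q] E]
    (σ : E ≃ₐ[ℚ_[q]] E) (y : E) : ‖((σ y : ↥E) : PadicAlgCl q)‖ = ‖(y : PadicAlgCl q)‖ := by
  obtain ⟨d, rfl⟩ := AlgEquiv.restrictNormalHom_surjective (F := ℚ_[q]) (K₁ := E)
    (PadicAlgCl q) σ
  have h : ((AlgEquiv.restrictNormalHom E d y : ↥E) : PadicAlgCl q) = d y :=
    AlgEquiv.restrictNormal_commutes d E y
  rw [h, norm_galQq]

theorem smul_mem_fieldUnits (E : IntermediateField ℚ_[q] (PadicAlgCl q)) [Normal ℚ_[q] E]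
    (σ : E ≃ₐ[ℚ_[q]] E) {y : (↥E)ˣ} (hy : y ∈ fieldUnits E) : σ • y ∈ fieldUnits E := by
  rw [mem_fieldUnits_iff] at hy ⊢
  have : ((σ • y : (↥E)ˣ) : ↥E) = σ (y : ↥E) := rfl
  rw [this, norm_aut_eq, hy]

instance fieldUnitsAction (E : IntermediateField ℚ_[q] (PadicAlgCl q)) [Normal ℚ_[q] E] :
    MulDistribMulAction (E ≃ₐ[ℚ_[q]] E) (fieldUnits E) :=
  subMulDistribMulAction (fieldUnits E) (fun σ _ hy => smul_mem_fieldUnits E σ hy)

/-- shortcut instance -/
instance fieldUnitsSMul (E : IntermediateField ℚ_[q] (PadicAlgCl q)) [Normal ℚ_[q] E] :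
    SMul (E ≃ₐ[ℚ_[q]] E) (fieldUnits E) := (fieldUnitsAction E).toSMul

/-- the units of norm one of a normal intermediate field as a Galois module -/
abbrev fieldUnitsRep (E : IntermediateField ℚ_[q] (PadicAlgCl q)) [Normal ℚ_[q] E] :
    Rep ℤ (E ≃ₐ[ℚ_[q]] E) := Rep.ofMulDistribMulAction (E ≃ₐ[ℚ_[q]] E) (fieldUnits E)

variable {L : Type} [Field L] [Algebra ℚ L] [Normal ℚ L]

/-- the local units `U(L_q)` as a representation of the decomposition group `D_q(ι)` -/
abbrev locUnitsRep (ι : Emb q L) : Rep ℤ (decomp ι) :=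
  Rep.res (decompEquiv ι).symm.toMonoidHom (fieldUnitsRep (localField q L ι))

/-- a local unit as an element of the representation -/
def toLU (ι : Emb q L) (y : fieldUnits (localField q L ι)) : (locUnitsRep ι).V :=
  (Additive.ofMul y : Additive (fieldUnits (localField q L ι)))

/-- an element of the representation as a local unit -/
def ofLU (ι : Emb q L) (a : (locUnitsRep ι).V) : fieldUnits (localField q L ι) :=
  Additive.toMul (show Additive (fieldUnits (localField q L ι)) from a)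

@[simp] theorem toLU_ofLU (ι : Emb q L) (a : (locUnitsRep ι).V) : toLU ι (ofLU ι a) = a := rfl

@[simp] theorem ofLU_toLU (ι : Emb q L) (y : fieldUnits (localField q L ι)) :
    ofLU ι (toLU ι y) = y := rfl

theorem locUnitsRep_ρ (ι : Emb q L) (g : decomp ι) (a : (locUnitsRep ι).V) :
    (locUnitsRep ι).ρ g a = toLU ι ((decompEquiv ι).symm g • ofLU ι a) := rfl

theorem toCoindFun_mem_fieldUnits (ι : Emb q L) {f : Jq q L} (hf : f ∈ Uq q L) (γ : L ≃ₐ[ℚ] L) :
    toCoindFun ι f γ ∈ fieldUnits (localField q L ι) :=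
  hf (ι.comp (γ : L →ₐ[ℚ] L))

/-- `f ↦ (γ ↦ f (ι ∘ γ))` on units -/
def unitsToCoind (ι : Emb q L) :
    Additive (Uq q L) →+ (Rep.coind (decomp ι).subtype (locUnitsRep ι)) where
  toFun f := ⟨fun γ => toLU ι ⟨toCoindFun ι (Additive.toMul f).1 γ,
        toCoindFun_mem_fieldUnits ι (Additive.toMul f).2 γ⟩, by
    intro g γ
    rw [locUnitsRep_ρ]
    apply congrArg (toLU ι)
    apply Subtype.ext
    exact toCoindFun_mul ι (Additive.toMul f).1 g γ⟩
  map_zero' := by
    apply Subtype.ext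
    funext γ
    apply congrArg (toLU ι)
    apply Subtype.ext
    apply Units.ext
    apply Subtype.ext
    rfl
  map_add' f g := by
    apply Subtype.ext
    funext γ
    apply congrArg (toLU ι)
    apply Subtype.ext
    apply Units.ext
    apply Subtype.ext
    rfl

theorem unitsToCoind_apply (ι : Emb q L) (f : Uq q L) (γ : L ≃ₐ[ℚ] L) :
    ((((ofLU ι ((unitsToCoind ι (Additive.ofMul f)).1 γ) :
      fieldUnits (localField q L ι)) : (localField q L ι)ˣ) : localField q L ι) : PadicAlgCl q) =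
      (f.1.1 (ι.comp (γ : L →ₐ[ℚ] L)) : (PadicAlgCl q)ˣ) := rfl

theorem unitsToCoind_bijective (ι : Emb q L) : Function.Bijective (unitsToCoind ι) := by
  constructor
  · intro f g h
    obtain ⟨f, rfl⟩ := Additive.ofMul.surjective f
    obtain ⟨g, rfl⟩ := Additive.ofMul.surjective g
    apply congrArg Additive.ofMul
    apply Subtype.ext
    apply Subtype.ext
    funext ι'
    apply Units.ext
    have h1 := unitsToCoind_apply ι f (autOf ι ι')
    have h2 := unitsToCoind_apply ι g (autOf ι ι')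
    rw [comp_autOf] at h1 h2
    rw [← h1, ← h2, h]
  · intro F
    -- the underlying element of `Coind L_q^×`
    let F₀ : Rep.coind (decomp ι).subtype (locRep ι) :=
      ⟨fun γ => Additive.ofMul ((ofLU ι (F.1 γ) : fieldUnits (localField q L ι)) :
        (localField q L ι)ˣ), by
        intro g γ
        have h : F.1 ((g : L ≃ₐ[ℚ] L) * γ) = (locUnitsRep ι).ρ g (F.1 γ) := F.2 g γ
        show Additive.ofMul ((ofLU ι (F.1 ((g : L ≃ₐ[ℚ] L) * γ)) :
          fieldUnits (localField q L ι)) : (localField q L ι)ˣ) = _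
        rw [h]
        rfl⟩
    have hF₀ : ∀ γ, toCoindFun ι (ofCoindFun ι F₀) γ =
        ((ofLU ι (F.1 γ) : fieldUnits (localField q L ι)) : (localField q L ι)ˣ) :=
      fun γ => toCoindFun_ofCoindFun ι F₀ γ
    have hmem : ofCoindFun ι F₀ ∈ Uq q L := by
      intro ι'
      have h1 : ((toCoindFun ι (ofCoindFun ι F₀) (autOf ι ι') : (localField q L ι)ˣ) :
          localField q L ι).1 = ((ofCoindFun ι F₀).1 ι' : (PadicAlgCl q)ˣ) := by
        show (((ofCoindFun ι F₀).1 (ι.comp (autOf ι ι' : L →ₐ[ℚ] L)) : (PadicAlgCl q)ˣ) :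
          PadicAlgCl q) = _
        rw [comp_autOf]
      rw [← h1, hF₀]
      exact (ofLU ι (F.1 (autOf ι ι'))).2
    refine ⟨Additive.ofMul ⟨ofCoindFun ι F₀, hmem⟩, ?_⟩
    apply Subtype.ext
    funext γ
    show toLU ι _ = F.1 γ
    rw [← toLU_ofLU ι (F.1 γ)]
    apply congrArg (toLU ι)
    apply Subtype.ext
    exact hF₀ γ

/-- **Shapiro for the semilocal units**: `U_q(L) ≅ Coind_{D_q(ι)}^{Aut(L/ℚ)} U(L_q)`. -/
def uqCoindIso (ι : Emb q L) :
    Rep.ofMulDistribMulAction (L ≃ₐ[ℚ] L) (Uq q L) ≅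
      Rep.coind (decomp ι).subtype (locUnitsRep ι) :=
  Rep.mkIso <| Representation.Equiv.mk
    (AddEquiv.ofBijective (unitsToCoind ι) (unitsToCoind_bijective ι)).toIntLinearEquiv
    (fun γ₀ => by
      ext f
      rfl)

/-- `U_q(L)` is cohomologically trivial if the local units are (for the decomposition group) -/
theorem isCohTrivial_uq_of_local [FiniteDimensional ℚ L] (ι : Emb q L)
    (h : IsCohTrivial (locUnitsRep ι)) :
    IsCohTrivial (Rep.ofMulDistribMulAction (L ≃ₐ[ℚ] L) (Uq q L)) :=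
  IsCohTrivial.of_iso (uqCoindIso ι).symm (IsCohTrivial.coind (decomp ι) h)

end Fermat.Agent.S55lib.Dev
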